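import Fermat.Agent.S41.PD.Defs

/-!
# S41 / PD-D : cusp primitives of parabolic homomorphisms; the area cocycle is smooth

* `exists_isQI` : every parabolic hom `φ : Γ → R` has a cusp primitive `k` (`IsQI Γ φ k`);
* `IsQI.isParabolicHom` : conversely a hom with a cusp primitive is parabolic;
* `om0 k k'` : the area cocycle `om k k'` extended by `0` to degenerate triples (one of the vectors
  is `0`); `isSm2_om0` : it is smooth; `hasMean_om0_iff`, `tri_om0` : it has the same mean and the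
  same values on Farey triangles as `om k k'`;
* `IsQI.mono`, `IsQI.comp_zq`, `IsQI.add`, `IsQI.neg`, `IsQI.sub`, `IsQI.smul`, `IsQI.map`,
  `IsQI.add_const`, `IsQI.sub_const`.
-/

set_option autoImplicit false
open CongruenceSubgroup Matrix ModularGroup
open scoped MatrixGroups

namespace Fermat.Agent.S41

/-! ### basic API for `zq`, `sl` -/

theorem Prim.zq_mul (A B : Matrix (Fin 2) (Fin 2) ℤ) : zq (A * B) = zq A * zq B :=
  Matrix.map_mul (f := Int.castRingHom ℚ)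

theorem Prim.zq_one : zq 1 = 1 := by
  unfold zq
  exact Matrix.map_one _ Int.cast_zero Int.cast_one

theorem Prim.sl_mul (g h : SL(2, ℤ)) : sl (g * h) = sl g * sl h := by
  unfold sl
  rw [Matrix.SpecialLinearGroup.coe_mul, Prim.zq_mul]

theorem Prim.sl_one : sl 1 = 1 := by
  unfold sl
  rw [Matrix.SpecialLinearGroup.coe_one, Prim.zq_one]

theorem Prim.sl_inv_mul (g : SL(2, ℤ)) : sl g⁻¹ * sl g = 1 := by
  rw [← Prim.sl_mul, inv_mul_cancel, Prim.sl_one]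

theorem Prim.sl_mul_inv (g : SL(2, ℤ)) : sl g * sl g⁻¹ = 1 := by
  rw [← Prim.sl_mul, mul_inv_cancel, Prim.sl_one]

theorem Prim.sl_inv_mulVec (g : SL(2, ℤ)) (v : V2) : sl g⁻¹ *ᵥ (sl g *ᵥ v) = v := by
  rw [Matrix.mulVec_mulVec, Prim.sl_inv_mul, Matrix.one_mulVec]

theorem Prim.sl_mulVec_eq_zero_iff (g : SL(2, ℤ)) (v : V2) : sl g *ᵥ v = 0 ↔ v = 0 := by
  constructor
  · intro h
    rw [← Prim.sl_inv_mulVec g v, h, Matrix.mulVec_zero]
  · rintro rfl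
    exact Matrix.mulVec_zero _

theorem Prim.sl_mulVec_ne_zero (g : SL(2, ℤ)) {v : V2} (hv : v ≠ 0) : sl g *ᵥ v ≠ 0 :=
  fun h => hv ((Prim.sl_mulVec_eq_zero_iff g v).1 h)

theorem Prim.smul_eq_zero_iff {c : ℚ} (hc : c ≠ 0) (v : V2) : c • v = 0 ↔ v = 0 := by
  rw [smul_eq_zero]
  exact ⟨fun h => h.resolve_left hc, Or.inr⟩

theorem Prim.sl_mulVec_apply (g : SL(2, ℤ)) (v : V2) (i : Fin 2) :
    (sl g *ᵥ v) i = ((g i 0 : ℤ) : ℚ) * v 0 + ((g i 1 : ℤ) : ℚ) * v 1 := by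
  simp [sl, zq, Matrix.mulVec, dotProduct, Fin.sum_univ_two]

theorem Prim.zq_mulVec_apply (A : Matrix (Fin 2) (Fin 2) ℤ) (v : V2) (i : Fin 2) :
    (zq A *ᵥ v) i = ((A i 0 : ℤ) : ℚ) * v 0 + ((A i 1 : ℤ) : ℚ) * v 1 := by
  simp [zq, Matrix.mulVec, dotProduct, Fin.sum_univ_two]

theorem Prim.det_eq (g : SL(2, ℤ)) : g 0 0 * g 1 1 - g 0 1 * g 1 0 = 1 := by
  have := g.2
  rwa [Matrix.det_fin_two] at this

theorem Prim.ne_zero_iff (v : V2) : v ≠ 0 ↔ v 0 ≠ 0 ∨ v 1 ≠ 0 := by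
  constructor
  · intro h
    by_contra hcon
    push Not at hcon
    apply h
    ext i
    fin_cases i
    · exact hcon.1
    · exact hcon.2
  · rintro (h | h) rfl <;> exact h rfl

/-! ### eigenvectors and the trace -/

/-- a rational root of `X² - t X + 1` (`t` an integer) is `± 1`, so `t = ± 2`. -/
theorem Prim.sq_eq_four_of_root (c : ℚ) (t : ℤ) (h : c ^ 2 - t * c + 1 = 0) : t ^ 2 = 4 := by
  have hd : (c.den : ℚ) ≠ 0 := by exact_mod_cast c.den_nz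
  have hc : c = c.num / c.den := (Rat.num_div_den c).symm
  have h1 : (c.num : ℚ) ^ 2 - t * c.num * c.den + (c.den : ℚ) ^ 2 = 0 := by
    have h2 : (c.num : ℚ) = c * c.den := (Rat.mul_den_eq_num c).symm
    rw [h2]
    have : (c * c.den) ^ 2 - t * (c * c.den) * c.den + (c.den : ℚ) ^ 2
        = (c ^ 2 - t * c + 1) * (c.den : ℚ) ^ 2 := by ring
    rw [this, h, zero_mul]
  have h2 : c.num ^ 2 - t * c.num * c.den + (c.den : ℤ) ^ 2 = 0 := by exact_mod_cast h1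
  have hcop : IsCoprime c.num (c.den : ℤ) := by
    rw [Int.isCoprime_iff_gcd_eq_one]
    exact c.reduced
  have hu1 : IsUnit (c.den : ℤ) :=
    (hcop.symm.pow_right (n := 2)).isUnit_of_dvd' dvd_rfl ⟨t * c.num - c.den, by linarith⟩
  have hu2 : IsUnit c.num :=
    (hcop.pow_right (n := 2)).isUnit_of_dvd' dvd_rfl ⟨t * c.den - c.num, by linarith⟩
  rw [Int.isUnit_iff] at hu1 hu2
  rcases hu1 with h3 | h3 <;> rcases hu2 with h4 | h4 <;> rw [h3, h4] at h2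
  · have : t = 2 := by linarith
    rw [this]; norm_num
  · have : t = -2 := by linarith
    rw [this]; norm_num
  · have : t = -2 := by linarith
    rw [this]; norm_num
  · have : t = 2 := by linarith
    rw [this]; norm_num

/-- an element of `SL(2,ℤ)` with a rational eigenvector is parabolic (or `± 1`). -/
theorem Prim.trace_sq_of_eigen (g : SL(2, ℤ)) (v : V2) (hv : v ≠ 0) (c : ℚ)
    (h : sl g *ᵥ v = c • v) : (g : Matrix (Fin 2) (Fin 2) ℤ).trace ^ 2 = 4 := by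
  apply Prim.sq_eq_four_of_root c
  have h0 := congrFun h 0
  have h1 := congrFun h 1
  rw [Prim.sl_mulVec_apply] at h0 h1
  simp only [Pi.smul_apply, smul_eq_mul] at h0 h1
  have hdet : ((g 0 0 : ℤ) : ℚ) * (g 1 1 : ℤ) - (g 0 1 : ℤ) * (g 1 0 : ℤ) = 1 := by
    exact_mod_cast Prim.det_eq g
  rw [Matrix.trace_fin_two]
  push_cast
  set a : ℚ := ((g 0 0 : ℤ) : ℚ)
  set b : ℚ := ((g 0 1 : ℤ) : ℚ)
  set c' : ℚ := ((g 1 0 : ℤ) : ℚ)
  set d : ℚ := ((g 1 1 : ℤ) : ℚ)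
  have e0 : (c ^ 2 - (a + d) * c + 1) * v 0 = 0 := by
    linear_combination (d - c) * h0 - b * h1 - v 0 * hdet
  have e1 : (c ^ 2 - (a + d) * c + 1) * v 1 = 0 := by
    linear_combination (a - c) * h1 - c' * h0 - v 1 * hdet
  rcases (Prim.ne_zero_iff v).1 hv with hv0 | hv1
  · exact (mul_eq_zero.1 e0).resolve_right hv0
  · exact (mul_eq_zero.1 e1).resolve_right hv1

/-- a parabolic element (or `± 1`) of `SL(2,ℤ)` has a rational eigenvector. -/
theorem Prim.exists_eigen_of_trace_sq (g : SL(2, ℤ))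
    (h : (g : Matrix (Fin 2) (Fin 2) ℤ).trace ^ 2 = 4) :
    ∃ (v : V2) (c : ℚ), v ≠ 0 ∧ c ≠ 0 ∧ sl g *ᵥ v = c • v := by
  rw [Matrix.trace_fin_two] at h
  have hdet : ((g 0 0 : ℤ) : ℚ) * (g 1 1 : ℤ) - (g 0 1 : ℤ) * (g 1 0 : ℤ) = 1 := by
    exact_mod_cast Prim.det_eq g
  have ht : ∃ ε : ℚ, ε ^ 2 = 1 ∧ ((g 0 0 : ℤ) : ℚ) + (g 1 1 : ℤ) = 2 * ε := by
    have h' : (g 0 0 + g 1 1 - 2) * (g 0 0 + g 1 1 + 2) = 0 := by linear_combination h
    rcases mul_eq_zero.1 h' with h2 | h2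
    · refine ⟨1, by norm_num, ?_⟩
      have : g 0 0 + g 1 1 = 2 := by linarith
      exact_mod_cast this
    · refine ⟨-1, by norm_num, ?_⟩
      have : g 0 0 + g 1 1 = -2 := by linarith
      exact_mod_cast this
  obtain ⟨ε, hε, htr⟩ := ht
  have hε0 : ε ≠ 0 := by
    rintro rfl
    norm_num at hε
  set a : ℚ := ((g 0 0 : ℤ) : ℚ) with ha
  set b : ℚ := ((g 0 1 : ℤ) : ℚ) with hb
  set c' : ℚ := ((g 1 0 : ℤ) : ℚ) with hc'
  set d : ℚ := ((g 1 1 : ℤ) : ℚ) with hd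
  by_cases hv : (![b, ε - a] : V2) = 0
  · have hb0 : b = 0 := by simpa using congrFun hv 0
    have ha0 : ε - a = 0 := by simpa using congrFun hv 1
    refine ⟨![0, 1], ε, ?_, hε0, ?_⟩
    · intro h0
      simpa using congrFun h0 1
    · ext i
      rw [Prim.sl_mulVec_apply]
      fin_cases i
      · simp [← hb, hb0]
      · simp only [Fin.mk_one, Fin.isValue, cons_val_zero, mul_zero, cons_val_one, cons_val_fin_one,
          mul_one, zero_add, Pi.smul_apply, smul_eq_mul, ← hd]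
        linarith
  · refine ⟨![b, ε - a], ε, hv, hε0, ?_⟩
    ext i
    rw [Prim.sl_mulVec_apply]
    fin_cases i
    · simp only [Fin.zero_eta, Fin.isValue, cons_val_zero, cons_val_one, cons_val_fin_one,
        Pi.smul_apply, smul_eq_mul, ← ha, ← hb]
      ring
    · simp only [Fin.mk_one, Fin.isValue, cons_val_zero, cons_val_one, cons_val_fin_one,
        Pi.smul_apply, smul_eq_mul, ← hc', ← hd]
      linear_combination (-1 : ℚ) * hdet + ε * htr + hε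

/-! ### existence of cusp primitives -/

/-- the orbit relation of `Γ × ℚˣ` on `ℚ²`. -/
def Prim.rel (Γ : Subgroup SL(2, ℤ)) : Setoid V2 where
  r v w := ∃ (γ : Γ) (c : ℚ), c ≠ 0 ∧ w = c • (sl (γ : SL(2, ℤ)) *ᵥ v)
  iseqv :=
    { refl := fun v => ⟨1, 1, one_ne_zero, by
        rw [Subgroup.coe_one, Prim.sl_one, Matrix.one_mulVec, one_smul]⟩
      symm := by
        rintro v w ⟨γ, c, hc, rfl⟩
        refine ⟨γ⁻¹, c⁻¹, inv_ne_zero hc, ?_⟩
        rw [Subgroup.coe_inv, Matrix.mulVec_smul, Prim.sl_inv_mulVec, smul_smul,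
          inv_mul_cancel₀ hc, one_smul]
      trans := by
        rintro u v w ⟨γ, c, hc, rfl⟩ ⟨γ', c', hc', rfl⟩
        refine ⟨γ' * γ, c' * c, mul_ne_zero hc' hc, ?_⟩
        rw [Subgroup.coe_mul, Prim.sl_mul, Matrix.mulVec_smul, Matrix.mulVec_mulVec, smul_smul] }

/-- the value `φ γ` only depends on the line through `γ v₀`. -/
theorem Prim.wellDefined {R : Type*} [AddCommGroup R] {Γ : Subgroup SL(2, ℤ)}
    {φ : Additive Γ →+ R} (hφ : ModularCurve.Period.IsParabolicHom Γ φ) {v₀ : V2} (hv₀ : v₀ ≠ 0)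
    (γ₁ γ₂ : Γ) {c₁ c₂ : ℚ} (hc₁ : c₁ ≠ 0)
    (h : c₁ • (sl (γ₁ : SL(2, ℤ)) *ᵥ v₀) = c₂ • (sl (γ₂ : SL(2, ℤ)) *ᵥ v₀)) :
    φ (Additive.ofMul γ₁) = φ (Additive.ofMul γ₂) := by
  have h1 : sl ((γ₂⁻¹ * γ₁ : Γ) : SL(2, ℤ)) *ᵥ v₀ = (c₁⁻¹ * c₂) • v₀ := by
    have h2 : sl (γ₁ : SL(2, ℤ)) *ᵥ v₀ = (c₁⁻¹ * c₂) • (sl (γ₂ : SL(2, ℤ)) *ᵥ v₀) := by
      rw [mul_smul, ← h, smul_smul, inv_mul_cancel₀ hc₁, one_smul]
    rw [Subgroup.coe_mul, Subgroup.coe_inv, Prim.sl_mul, ← Matrix.mulVec_mulVec, h2,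
      Matrix.mulVec_smul, Prim.sl_inv_mulVec]
  have h3 := hφ (γ₂⁻¹ * γ₁) (Prim.trace_sq_of_eigen _ v₀ hv₀ _ h1)
  rw [ofMul_mul, map_add, ofMul_inv, map_neg, neg_add_eq_zero] at h3
  exact h3.symm

/-- every parabolic hom has a cusp primitive (any subgroup `Γ`). -/
theorem exists_isQI_of_isParabolicHom {R : Type*} [AddCommGroup R] (Γ : Subgroup SL(2, ℤ))
    (φ : Additive Γ →+ R) (hφ : ModularCurve.Period.IsParabolicHom Γ φ) :
    ∃ k : V2 → R, IsQI Γ φ k := by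
  classical
  let s : Setoid V2 := Prim.rel Γ
  let rep : V2 → V2 := fun v => (Quotient.mk s v).out
  have hrep : ∀ v, ∃ (γ : Γ) (c : ℚ), c ≠ 0 ∧ v = c • (sl (γ : SL(2, ℤ)) *ᵥ rep v) :=
    fun v => Quotient.exact (Quotient.out_eq (Quotient.mk s v))
  choose gg cc hcc hspec using hrep
  have hrep_eq : ∀ v w, s.r v w → rep v = rep w := fun v w h =>
    congrArg Quotient.out (Quotient.sound h)
  have hrep_ne : ∀ v, v ≠ 0 → rep v ≠ 0 := by
    intro v hv h0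
    apply hv
    rw [hspec v, h0, Matrix.mulVec_zero, smul_zero]
  refine ⟨fun v => φ (Additive.ofMul (gg v)), ⟨fun c v hc => ?_, fun γ v hv => ?_⟩⟩
  · by_cases hv : v = 0
    · rw [hv, smul_zero]
    · have h1 : rep (c • v) = rep v := (hrep_eq v (c • v) ⟨1, c, hc, by
        rw [Subgroup.coe_one, Prim.sl_one, Matrix.one_mulVec]⟩).symm
      have h2 := hspec (c • v)
      rw [h1] at h2
      have h3 : c • v = (c * cc v) • (sl (gg v : SL(2, ℤ)) *ᵥ rep v) := by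
        rw [mul_smul, ← hspec v]
      exact Prim.wellDefined hφ (hrep_ne v hv) _ _ (hcc _) (h2.symm.trans h3)
  · have h1 : rep (sl (γ : SL(2, ℤ)) *ᵥ v) = rep v :=
      (hrep_eq v _ ⟨γ, 1, one_ne_zero, by rw [one_smul]⟩).symm
    have h2 := hspec (sl (γ : SL(2, ℤ)) *ᵥ v)
    rw [h1] at h2
    have h3 : sl (γ : SL(2, ℤ)) *ᵥ v = cc v • (sl ((γ * gg v : Γ) : SL(2, ℤ)) *ᵥ rep v) := by
      conv_lhs => rw [hspec v]
      rw [Matrix.mulVec_smul, Matrix.mulVec_mulVec, Subgroup.coe_mul, Prim.sl_mul]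
    have h4 := Prim.wellDefined hφ (hrep_ne v hv) _ _ (hcc _) (h2.symm.trans h3)
    show φ (Additive.ofMul (gg (sl (γ : SL(2, ℤ)) *ᵥ v))) = _
    rw [h4, ofMul_mul, map_add, add_comm]

theorem exists_isQI {R : Type*} [AddCommGroup R] (M : ℕ) [NeZero M]
    (φ : Additive (Gamma0 M) →+ R) (hφ : ModularCurve.Period.IsParabolicHom (Gamma0 M) φ) :
    ∃ k : V2 → R, IsQI (Gamma0 M) φ k :=
  exists_isQI_of_isParabolicHom _ φ hφ

theorem IsQI.isParabolicHom {R : Type*} [AddCommGroup R] {Γ : Subgroup SL(2, ℤ)}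
    {φ : Additive Γ →+ R} {k : V2 → R} (h : IsQI Γ φ k) :
    ModularCurve.Period.IsParabolicHom Γ φ := by
  intro γ hγ
  obtain ⟨v, c, hv, hc, hvc⟩ := Prim.exists_eigen_of_trace_sq _ hγ
  have h1 := h.qi γ v hv
  rw [hvc, h.homog c v hc] at h1
  exact (left_eq_add.1 h1)

/-! ### formal properties of `IsQI` -/

section formal

variable {R : Type*} [AddCommGroup R] {Γ : Subgroup SL(2, ℤ)}

/-- restriction of the group. -/
theorem IsQI.mono {Γ' : Subgroup SL(2, ℤ)} (hle : Γ' ≤ Γ)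
    {φ : Additive Γ →+ R} {k : V2 → R} (h : IsQI Γ φ k) :
    IsQI Γ' (φ.comp (MonoidHom.toAdditive (Subgroup.inclusion hle))) k :=
  ⟨h.homog, fun γ v hv => h.qi (Subgroup.inclusion hle γ) v hv⟩

theorem IsQI.add {φ φ' : Additive Γ →+ R} {k k' : V2 → R} (h : IsQI Γ φ k) (h' : IsQI Γ φ' k') :
    IsQI Γ (φ + φ') (fun v => k v + k' v) :=
  ⟨fun c v hc => by simp only [h.homog c v hc, h'.homog c v hc], fun γ v hv => by
    simp only [h.qi γ v hv, h'.qi γ v hv, AddMonoidHom.add_apply]; abel⟩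

theorem IsQI.neg {φ : Additive Γ →+ R} {k : V2 → R} (h : IsQI Γ φ k) :
    IsQI Γ (-φ) (fun v => - k v) :=
  ⟨fun c v hc => by simp only [h.homog c v hc], fun γ v hv => by
    simp only [h.qi γ v hv, AddMonoidHom.neg_apply]; abel⟩

theorem IsQI.sub {φ φ' : Additive Γ →+ R} {k k' : V2 → R} (h : IsQI Γ φ k) (h' : IsQI Γ φ' k') :
    IsQI Γ (φ - φ') (fun v => k v - k' v) :=
  ⟨fun c v hc => by simp only [h.homog c v hc, h'.homog c v hc], fun γ v hv => by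
    simp only [h.qi γ v hv, h'.qi γ v hv, AddMonoidHom.sub_apply]; abel⟩

theorem IsQI.smul {S : Type*} [Monoid S] [DistribMulAction S R] (a : S) {φ : Additive Γ →+ R}
    {k : V2 → R} (h : IsQI Γ φ k) : IsQI Γ (a • φ) (fun v => a • k v) :=
  ⟨fun c v hc => by simp only [h.homog c v hc], fun γ v hv => by
    simp only [h.qi γ v hv, AddMonoidHom.smul_apply, smul_add]⟩

theorem IsQI.map {R' : Type*} [AddCommGroup R'] (f : R →+ R') {φ : Additive Γ →+ R}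
    {k : V2 → R} (h : IsQI Γ φ k) : IsQI Γ (f.comp φ) (fun v => f (k v)) :=
  ⟨fun c v hc => by simp only [h.homog c v hc], fun γ v hv => by
    simp only [h.qi γ v hv, map_add, AddMonoidHom.comp_apply]⟩

theorem IsQI.add_const {φ : Additive Γ →+ R} {k : V2 → R} (h : IsQI Γ φ k) (r : R) :
    IsQI Γ φ (fun v => k v + r) :=
  ⟨fun c v hc => by simp only [h.homog c v hc], fun γ v hv => by
    simp only [h.qi γ v hv]; abel⟩

/-- the zero hom: `Γ`-invariant homogeneous functions. -/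
theorem isQI_zero_iff {k : V2 → R} :
    IsQI Γ 0 k ↔ Homog k ∧ ∀ (γ : Γ) (v : V2), v ≠ 0 → k (sl (γ : SL(2, ℤ)) *ᵥ v) = k v :=
  ⟨fun h => ⟨h.homog, fun γ v hv => by simpa using h.qi γ v hv⟩,
    fun h => ⟨h.1, fun γ v hv => by simpa using h.2 γ v hv⟩⟩

/-- two primitives of the same `φ` differ by a `Γ`-invariant homogeneous function. -/
theorem IsQI.sub_const {φ : Additive Γ →+ R} {k k' : V2 → R} (h : IsQI Γ φ k)
    (h' : IsQI Γ φ k') : Homog (fun v => k v - k' v) ∧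
      ∀ (γ : Γ) (v : V2), v ≠ 0 →
        k (sl (γ : SL(2, ℤ)) *ᵥ v) - k' (sl (γ : SL(2, ℤ)) *ᵥ v) = k v - k' v := by
  have := h.sub h'
  rw [sub_self] at this
  exact isQI_zero_iff.1 this

/-- the hom is determined by the primitive. -/
theorem IsQI.hom_unique {φ φ' : Additive Γ →+ R} {k : V2 → R} (h : IsQI Γ φ k)
    (h' : IsQI Γ φ' k) : φ = φ' := by
  ext γ
  have hv : (![1, 0] : V2) ≠ 0 := fun h0 => by simpa using congrFun h0 0
  have h1 := h.qi (Additive.toMul γ) _ hv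
  rw [h'.qi (Additive.toMul γ) _ hv] at h1
  exact (add_left_cancel h1).symm

/-- differences of values of a primitive are invariant. -/
theorem IsQI.sub_inv {φ : Additive Γ →+ R} {k : V2 → R} (h : IsQI Γ φ k) (γ : Γ) {v w : V2}
    (hv : v ≠ 0) (hw : w ≠ 0) :
    k (sl (γ : SL(2, ℤ)) *ᵥ w) - k (sl (γ : SL(2, ℤ)) *ᵥ v) = k w - k v := by
  rw [h.qi γ v hv, h.qi γ w hw]; abel

end formal

/-! ### the area cocycle is smooth -/

/-- the area cocycle, extended by `0` to the degenerate triples.  (`om k k'` itself is not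
`Γ`-invariant on triples containing the zero vector.) -/
noncomputable def om0 (k k' : V2 → ℚ) (x y z : V2) : ℚ :=
  open Classical in if x = 0 ∨ y = 0 ∨ z = 0 then 0 else om k k' x y z

theorem om0_of_ne (k k' : V2 → ℚ) {x y z : V2} (hx : x ≠ 0) (hy : y ≠ 0) (hz : z ≠ 0) :
    om0 k k' x y z = om k k' x y z := by
  unfold om0
  rw [if_neg]
  push Not
  exact ⟨hx, hy, hz⟩

theorem om0_of_eq (k k' : V2 → ℚ) {x y z : V2} (h : x = 0 ∨ y = 0 ∨ z = 0) :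
    om0 k k' x y z = 0 := by
  unfold om0
  rw [if_pos h]

theorem isSm2_om0 (M : ℕ) (k k' : V2 → ℚ) (φ φ' : Additive (Gamma M) →+ ℚ)
    (hk : IsQI (Gamma M) φ k) (hk' : IsQI (Gamma M) φ' k') : IsSm2 M (om0 k k') where
  homog c x y z hc := by
    by_cases h : x = 0 ∨ y = 0 ∨ z = 0
    · rw [om0_of_eq k k' h, om0_of_eq]
      rwa [Prim.smul_eq_zero_iff hc]
    · push Not at h
      rw [om0_of_ne k k' h.1 h.2.1 h.2.2,
        om0_of_ne k k' (fun h0 => h.1 ((Prim.smul_eq_zero_iff hc x).1 h0)) h.2.1 h.2.2]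
      unfold om
      rw [hk.homog c x hc, hk'.homog c x hc]
  swap x y z := by
    by_cases h : x = 0 ∨ y = 0 ∨ z = 0
    · rw [om0_of_eq k k' h, om0_of_eq, neg_zero]
      tauto
    · push Not at h
      rw [om0_of_ne k k' h.1 h.2.1 h.2.2, om0_of_ne k k' h.2.1 h.1 h.2.2]
      unfold om
      ring
  rot x y z := by
    by_cases h : x = 0 ∨ y = 0 ∨ z = 0
    · rw [om0_of_eq k k' h, om0_of_eq]
      tauto
    · push Not at h
      rw [om0_of_ne k k' h.1 h.2.1 h.2.2, om0_of_ne k k' h.2.1 h.2.2 h.1]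
      unfold om
      ring
  cocycle x y z t hx hy hz ht := by
    rw [om0_of_ne k k' hy hz ht, om0_of_ne k k' hx hz ht, om0_of_ne k k' hx hy ht,
      om0_of_ne k k' hx hy hz]
    unfold om
    ring
  inv γ hγ x y z := by
    by_cases h : x = 0 ∨ y = 0 ∨ z = 0
    · rw [om0_of_eq k k' h, om0_of_eq]
      rwa [Prim.sl_mulVec_eq_zero_iff, Prim.sl_mulVec_eq_zero_iff, Prim.sl_mulVec_eq_zero_iff]
    · push Not at h
      rw [om0_of_ne k k' h.1 h.2.1 h.2.2, om0_of_ne k k' (Prim.sl_mulVec_ne_zero γ h.1)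
        (Prim.sl_mulVec_ne_zero γ h.2.1) (Prim.sl_mulVec_ne_zero γ h.2.2)]
      unfold om
      rw [hk.sub_inv ⟨γ, hγ⟩ h.1 h.2.1, hk.sub_inv ⟨γ, hγ⟩ h.1 h.2.2,
        hk'.sub_inv ⟨γ, hγ⟩ h.1 h.2.1, hk'.sub_inv ⟨γ, hγ⟩ h.1 h.2.2]

/-- `HasMean` only sees nonzero vectors. -/
theorem HasMean.congr_of_ne {w w' : V2 → V2 → V2 → ℚ} {c : ℚ} (h : HasMean w c)
    (hw : ∀ x y z : V2, x ≠ 0 → y ≠ 0 → z ≠ 0 → w' x y z = w x y z) : HasMean w' c := by
  obtain ⟨M, θ, hM, hθ, H⟩ := h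
  exact ⟨M, θ, hM, hθ, fun x y z hx hy hz => by rw [hw x y z hx hy hz, H x y z hx hy hz]⟩

theorem hasMean_om0_iff (k k' : V2 → ℚ) (c : ℚ) : HasMean (om0 k k') c ↔ HasMean (om k k') c :=
  ⟨fun h => h.congr_of_ne fun _ _ _ hx hy hz => (om0_of_ne k k' hx hy hz).symm,
    fun h => h.congr_of_ne fun _ _ _ hx hy hz => om0_of_ne k k' hx hy hz⟩

theorem Prim.e₁_ne_zero : e₁ ≠ 0 := fun h => by simpa [e₁] using congrFun h 0
theorem Prim.e₂_ne_zero : e₂ ≠ 0 := fun h => by simpa [e₂] using congrFun h 1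
theorem Prim.e₃_ne_zero : e₃ ≠ 0 := fun h => by simpa [e₃] using congrFun h 0

theorem tri_om0 (k k' : V2 → ℚ) : tri (om0 k k') = tri (om k k') := by
  ext g
  exact om0_of_ne k k' (Prim.sl_mulVec_ne_zero g Prim.e₁_ne_zero)
    (Prim.sl_mulVec_ne_zero g Prim.e₂_ne_zero) (Prim.sl_mulVec_ne_zero g Prim.e₃_ne_zero)

/-- the Farey values of the area cocycle are left invariant. -/
theorem lInv_tri_om {Γ : Subgroup SL(2, ℤ)} {R : Type*} [CommRing R] {k k' : V2 → R}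
    {φ φ' : Additive Γ →+ R} (hk : IsQI Γ φ k) (hk' : IsQI Γ φ' k') : LInv Γ (tri (om k k')) := by
  intro γ hγ g
  unfold tri om
  simp only [Prim.sl_mul, ← Matrix.mulVec_mulVec]
  have n1 := Prim.sl_mulVec_ne_zero g Prim.e₁_ne_zero
  have n2 := Prim.sl_mulVec_ne_zero g Prim.e₂_ne_zero
  have n3 := Prim.sl_mulVec_ne_zero g Prim.e₃_ne_zero
  rw [hk.sub_inv ⟨γ, hγ⟩ n1 n2, hk.sub_inv ⟨γ, hγ⟩ n1 n3, hk'.sub_inv ⟨γ, hγ⟩ n1 n2,
    hk'.sub_inv ⟨γ, hγ⟩ n1 n3]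

/-! ### composition with an integral matrix -/

theorem Prim.mem_Gamma_iff (N : ℕ) (γ : SL(2, ℤ)) :
    γ ∈ Gamma N ↔ (N : ℤ) ∣ γ 0 0 - 1 ∧ (N : ℤ) ∣ γ 0 1 ∧ (N : ℤ) ∣ γ 1 0 ∧ (N : ℤ) ∣ γ 1 1 - 1 := by
  rw [Gamma_mem]
  simp only [← ZMod.intCast_zmod_eq_zero_iff_dvd, Int.cast_sub, Int.cast_one, sub_eq_zero]

/-- `A Γ(M D) A⁻¹ ⊆ Γ(M)` for an integral matrix `A` of determinant `D`. -/
theorem Prim.exists_conj_Gamma (A : Matrix (Fin 2) (Fin 2) ℤ) (D : ℕ) (hA : A.det = D) (M : ℕ)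
    (γ : SL(2, ℤ)) (hγ : γ ∈ Gamma (M * D)) : ∃ γ' ∈ Gamma M, zq A * sl γ = sl γ' * zq A := by
  rw [Prim.mem_Gamma_iff] at hγ
  obtain ⟨⟨x0, h0⟩, ⟨x1, h1⟩, ⟨x2, h2⟩, ⟨x3, h3⟩⟩ := hγ
  rw [Matrix.det_fin_two] at hA
  push_cast at h0 h1 h2 h3
  rw [← hA] at h0 h1 h2 h3
  have hdet := Prim.det_eq γ
  set a := A 0 0 with ha
  set b := A 0 1 with hb
  set c := A 1 0 with hc
  set d := A 1 1 with hd
  have g0 : γ 0 0 = 1 + M * (a * d - b * c) * x0 := by linarith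
  have g3 : γ 1 1 = 1 + M * (a * d - b * c) * x3 := by linarith
  let Y : Matrix (Fin 2) (Fin 2) ℤ :=
    !![1 + M * ((a * x0 + b * x2) * d - (a * x1 + b * x3) * c),
       M * (-(a * x0 + b * x2) * b + (a * x1 + b * x3) * a);
       M * ((c * x0 + d * x2) * d - (c * x1 + d * x3) * c),
       1 + M * (-(c * x0 + d * x2) * b + (c * x1 + d * x3) * a)]
  have hY : Y.det = 1 := by
    rw [Matrix.det_fin_two_of]
    rw [g0, g3, h1, h2] at hdet
    linear_combination hdet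
  refine ⟨(⟨Y, hY⟩ : SL(2, ℤ)), ?_, ?_⟩
  · refine (Prim.mem_Gamma_iff M _).2 ⟨?_, ?_, ?_, ?_⟩
    · show (M : ℤ) ∣ (1 + M * ((a * x0 + b * x2) * d - (a * x1 + b * x3) * c) : ℤ) - 1
      rw [add_sub_cancel_left]
      exact Dvd.intro _ rfl
    · exact Dvd.intro (-(a * x0 + b * x2) * b + (a * x1 + b * x3) * a) rfl
    · exact Dvd.intro ((c * x0 + d * x2) * d - (c * x1 + d * x3) * c) rfl
    · show (M : ℤ) ∣ (1 + M * (-(c * x0 + d * x2) * b + (c * x1 + d * x3) * a) : ℤ) - 1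
      rw [add_sub_cancel_left]
      exact Dvd.intro _ rfl
  · show zq A * zq (γ : Matrix (Fin 2) (Fin 2) ℤ) = zq Y * zq A
    rw [← Prim.zq_mul, ← Prim.zq_mul]
    congr 1
    ext i j
    fin_cases i <;> fin_cases j <;>
      simp only [Matrix.mul_apply, Fin.sum_univ_two, Fin.zero_eta, Fin.mk_one, Fin.isValue, Y,
        of_apply, cons_val', cons_val_zero, cons_val_one, cons_val_fin_one, g0, g3, h1, h2,
        ← ha, ← hb, ← hc, ← hd] <;> ring

theorem Prim.zq_mulVec_ne_zero (A : Matrix (Fin 2) (Fin 2) ℤ) (hA : A.det ≠ 0) {v : V2}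
    (hv : v ≠ 0) : zq A *ᵥ v ≠ 0 := by
  intro h
  apply hv
  have h1 : zq A.adjugate *ᵥ (zq A *ᵥ v) = (A.det : ℚ) • v := by
    rw [Matrix.mulVec_mulVec, ← Prim.zq_mul, Matrix.adjugate_mul]
    ext i
    rw [Prim.zq_mulVec_apply]
    fin_cases i <;> simp
  rw [h, Matrix.mulVec_zero] at h1
  exact ((Prim.smul_eq_zero_iff (by exact_mod_cast hA) v).1 h1.symm)

/-- composition with an integral matrix of positive determinant `D`. -/
theorem IsQI.comp_zq {R : Type*} [AddCommGroup R] {M : ℕ} {φ : Additive (Gamma M) →+ R}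
    {k : V2 → R} (h : IsQI (Gamma M) φ k) (A : Matrix (Fin 2) (Fin 2) ℤ) (D : ℕ) (hD : 0 < D)
    (hA : A.det = D) :
    ∃ φ' : Additive (Gamma (M * D)) →+ R, IsQI (Gamma (M * D)) φ' (fun v => k (zq A *ᵥ v)) := by
  have hA0 : A.det ≠ 0 := by rw [hA]; exact_mod_cast hD.ne'
  have key : ∀ γ : Gamma (M * D), ∃ r : R, ∀ v : V2, v ≠ 0 →
      k (zq A *ᵥ (sl (γ : SL(2, ℤ)) *ᵥ v)) = k (zq A *ᵥ v) + r := by
    intro γ
    obtain ⟨γ', hγ', hc⟩ := Prim.exists_conj_Gamma A D hA M γ γ.2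
    refine ⟨φ (Additive.ofMul ⟨γ', hγ'⟩), fun v hv => ?_⟩
    rw [Matrix.mulVec_mulVec, hc, ← Matrix.mulVec_mulVec]
    exact h.qi ⟨γ', hγ'⟩ _ (Prim.zq_mulVec_ne_zero A hA0 hv)
  choose r hr using key
  refine ⟨AddMonoidHom.mk' (fun γ => r (Additive.toMul γ)) fun γ₁ γ₂ => ?_, ⟨fun c v hc => ?_,
    fun γ v hv => hr γ v hv⟩⟩
  · have h1 := hr (Additive.toMul γ₁ * Additive.toMul γ₂) e₁ Prim.e₁_ne_zero
    rw [Subgroup.coe_mul, Prim.sl_mul, ← Matrix.mulVec_mulVec,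
      hr _ _ (Prim.sl_mulVec_ne_zero _ Prim.e₁_ne_zero), hr _ _ Prim.e₁_ne_zero, add_assoc] at h1
    rw [toMul_add, ← add_left_cancel h1, add_comm]
  · show k (zq A *ᵥ (c • v)) = k (zq A *ᵥ v)
    rw [Matrix.mulVec_smul, h.homog c _ hc]

end Fermat.Agent.S41
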