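import Fermat.Agent.S41.Core

/-!
# S41 / PD (Poincaré duality block) : shared definitions
-/

set_option autoImplicit false
open CongruenceSubgroup Matrix ModularGroup
open scoped MatrixGroups

namespace Fermat.Agent.S41

def e₁ : V2 := ![1, 0]
def e₂ : V2 := ![0, 1]
def e₃ : V2 := ![1, 1]

/-- `(1 0; 1 1)` -/
def Tl : SL(2, ℤ) := ⟨!![1, 0; 1, 1], by simp [Matrix.det_fin_two]⟩

/-- `(0 -1; 1 -1)`, of order `3`; `g * Ur` has columns `(g e₂ | - g e₃)`. -/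
def Ur : SL(2, ℤ) := ⟨!![0, -1; 1, -1], by simp [Matrix.det_fin_two]⟩

/-- sum of a left-`Γ`-invariant function over `Γ \ SL(2,ℤ)`. -/
noncomputable def cs {A : Type*} [AddCommMonoid A] (Γ : Subgroup SL(2, ℤ)) [Γ.FiniteIndex]
    (F : SL(2, ℤ) → A) : A :=
  haveI : Fintype (SL(2, ℤ) ⧸ Γ) := Fintype.ofFinite _
  ∑ x : SL(2, ℤ) ⧸ Γ, F (x.out)⁻¹

/-- left invariance under `Γ`. -/
def LInv {A : Type*} (Γ : Subgroup SL(2, ℤ)) (F : SL(2, ℤ) → A) : Prop :=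
  ∀ γ ∈ Γ, ∀ g, F (γ * g) = F g

/-- smooth alternating 2-cocycles on `ℙ¹(ℚ)`. -/
structure IsSm2 (M : ℕ) (w : V2 → V2 → V2 → ℚ) : Prop where
  homog : ∀ (c : ℚ) (x y z : V2), c ≠ 0 → w (c • x) y z = w x y z
  swap : ∀ x y z : V2, w y x z = - w x y z
  rot : ∀ x y z : V2, w y z x = w x y z
  cocycle : ∀ x y z t : V2, x ≠ 0 → y ≠ 0 → z ≠ 0 → t ≠ 0 →
    w y z t - w x z t + w x y t - w x y z = 0
  inv : ∀ γ ∈ Gamma M, ∀ x y z : V2, w (sl γ *ᵥ x) (sl γ *ᵥ y) (sl γ *ᵥ z) = w x y z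

/-- value on the standard Farey triangle `(∞, 0, 1)` translated by `g`. -/
def tri {A : Type*} (w : V2 → V2 → V2 → A) (g : SL(2, ℤ)) : A :=
  w (sl g *ᵥ e₁) (sl g *ᵥ e₂) (sl g *ᵥ e₃)

end Fermat.Agent.S41
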