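import Fermat.Agent.GAL.HeckeCoh
import Fermat.Agent.S41.Ihara.Export
import Fermat.Agent.Lib.Gamma0Cosets.Index

/-!
# S41 PD-F2 : all Hecke representatives (and their adjugates) lie in one double coset;
index of `Γ₀(N q)`.
-/

set_option autoImplicit false
open CongruenceSubgroup Matrix
open scoped MatrixGroups
open Fermat.Agent.GAL

namespace Fermat.Agent.S41

/-- the matrix of `Ihara.mkG`. -/
theorem HeckeCoset.coe_mkG (N : ℕ) (a b c d : ℤ) (h : a * d - b * c = 1) (hN : (N : ℤ) ∣ c) :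
    (((Ihara.mkG N a b c d h hN : Gamma0 N) : SL(2, ℤ)) : Matrix (Fin 2) (Fin 2) ℤ) =
      !![a, b; c, d] := rfl

/-- `(1 b; 0 ℓ) ∈ Γ₀(M) diag(ℓ,1) Γ₀(M)`. -/
theorem HeckeCoset.upper_mem (M : ℕ) {ℓ : ℕ} (hℓ : ℓ.Prime) (hℓM : ¬ ℓ ∣ M) (b : ℤ) :
    ∃ γ₁ γ₂ : Gamma0 M,
      (!![1, b; 0, (ℓ : ℤ)] : Matrix (Fin 2) (Fin 2) ℤ) =
        ((γ₁ : SL(2, ℤ)) : Matrix (Fin 2) (Fin 2) ℤ) * !![(ℓ : ℤ), 0; 0, 1] *
        ((γ₂ : SL(2, ℤ)) : Matrix (Fin 2) (Fin 2) ℤ) := by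
  have hco : IsCoprime (ℓ : ℤ) (M : ℤ) :=
    Nat.isCoprime_iff_coprime.mpr ((Nat.Prime.coprime_iff_not_dvd hℓ).mpr hℓM)
  obtain ⟨s, t, hst⟩ := hco
  -- `s ℓ + t M = 1`
  refine ⟨Ihara.mkG M 1 t (-(M : ℤ)) (ℓ * s) (by linear_combination hst) (by simp),
    Ihara.mkG M s (s * b - t) M (M * b + ℓ) (by linear_combination hst) dvd_rfl, ?_⟩
  rw [HeckeCoset.coe_mkG, HeckeCoset.coe_mkG]
  simp only [Matrix.mul_fin_two]
  congr 1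
  ext i j
  fin_cases i <;> fin_cases j <;> simp
  · linear_combination -hst
  · linear_combination (-b) * hst
  · ring
  · linear_combination (-(ℓ : ℤ)) * hst

theorem heckeRep_mem_doubleCoset (M : ℕ) {ℓ : ℕ} (hℓ : ℓ.Prime) (hℓM : ¬ ℓ ∣ M)
    (i : Option (Fin ℓ)) : ∃ γ₁ γ₂ : Gamma0 M,
      heckeRep ℓ i = ((γ₁ : SL(2, ℤ)) : Matrix (Fin 2) (Fin 2) ℤ) * heckeRep ℓ none *
        ((γ₂ : SL(2, ℤ)) : Matrix (Fin 2) (Fin 2) ℤ) := by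
  cases i with
  | none => exact ⟨1, 1, by simp⟩
  | some b => exact HeckeCoset.upper_mem M hℓ hℓM (b : ℤ)

theorem heckeRep_adjugate_mem_doubleCoset (M : ℕ) {ℓ : ℕ} (hℓ : ℓ.Prime) (hℓM : ¬ ℓ ∣ M)
    (i : Option (Fin ℓ)) : ∃ γ₁ γ₂ : Gamma0 M,
      (heckeRep ℓ i).adjugate = ((γ₁ : SL(2, ℤ)) : Matrix (Fin 2) (Fin 2) ℤ) * heckeRep ℓ none *
        ((γ₂ : SL(2, ℤ)) : Matrix (Fin 2) (Fin 2) ℤ) := by
  cases i with
  | none =>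
    have h : (heckeRep ℓ none).adjugate = !![1, 0; 0, (ℓ : ℤ)] := by
      simp [heckeRep, Matrix.adjugate_fin_two_of]
    rw [h]
    exact HeckeCoset.upper_mem M hℓ hℓM 0
  | some b =>
    refine ⟨Ihara.mkG M 1 (-(b : ℤ)) 0 1 (by ring) (dvd_zero _), 1, ?_⟩
    rw [HeckeCoset.coe_mkG]
    simp [heckeRep, Matrix.adjugate_fin_two_of]

theorem index_Gamma0_mul_prime (N : ℕ) [NeZero N] {q : ℕ} (hq : q.Prime) (hqN : ¬ q ∣ N) :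
    (Gamma0 (N * q)).index = (q + 1) * (Gamma0 N).index := by
  have : NeZero (N * q) := ⟨mul_ne_zero (NeZero.ne N) hq.ne_zero⟩
  have hco : N.Coprime q := ((Nat.Prime.coprime_iff_not_dvd hq).mpr hqN).symm
  have h1 := Fermat.Agent.Lib.Gamma0Cosets.dedekindPsi_prime_pow hq 0
  rw [Fermat.Agent.Lib.Gamma0Cosets.index_Gamma0, Fermat.Agent.Lib.Gamma0Cosets.index_Gamma0,
    Fermat.Agent.Lib.Gamma0Cosets.dedekindPsi_mul hco]
  simp only [zero_add, pow_one, pow_zero] at h1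
  rw [h1, mul_comm]

end Fermat.Agent.S41

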