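import Fermat.Agent.S41.PD.MeanOm
import Fermat.Agent.S41.PD.HeckeCoset
import Fermat.Agent.S41.QI.Basic
import Fermat.Agent.S41.QI.Hecke

/-!
# S41 / PD-F3 : adjunction formulas for the Poincaré pairings at levels `N` and `N q`
-/

set_option autoImplicit false
open CongruenceSubgroup Matrix ModularCurve.Period
open scoped MatrixGroups TensorProduct
open Fermat.Agent.GAL Fermat.Agent.GAL.HK

namespace Fermat.Agent.S41

/-- the defining property of the pairing of PD-E. -/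
def IsPairing (M : ℕ) (B : Lat M →ₗ[ℤ] Lat M →ₗ[ℤ] ℤ) : Prop :=
  ∀ (φ φ' : Lat M) (k k' : V2 → ℤ), IsQI (Gamma0 M) (φ : Additive (Gamma0 M) →+ ℤ) k →
    IsQI (Gamma0 M) (φ' : Additive (Gamma0 M) →+ ℤ) k' →
    HasMean (om (fun v => (k v : ℚ)) (fun v => (k' v : ℚ)))
      (3 * (B φ φ' : ℚ) / ((Gamma0 M).index : ℚ))

/-! ### auxiliary lemmas -/

theorem adjn_cast {Γ : Subgroup SL(2, ℤ)} {φ : Additive Γ →+ ℤ} {k : V2 → ℤ} (h : IsQI Γ φ k) :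
    IsQI Γ ((Int.castAddHom ℚ).comp φ) (fun v => (k v : ℚ)) :=
  ⟨fun c v hc => by simp only [h.homog c v hc], fun γ v hv => by
    simp only [h.qi γ v hv]; simp⟩

theorem adjn_zq_none (ℓ : ℕ) : zq (heckeRep ℓ none) = dl ℓ := by
  ext i j
  fin_cases i <;> fin_cases j <;> simp [zq, heckeRep, dl]

theorem adjn_det_heckeRep (ℓ : ℕ) (i : Option (Fin ℓ)) : (heckeRep ℓ i).det = ℓ := by
  cases i <;> simp [heckeRep, Matrix.det_fin_two]

theorem adjn_det_dl (q : ℕ) : (dl q).det = q := by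
  simp [dl, Matrix.det_fin_two]

theorem adjn_det_adjugate (A : Matrix (Fin 2) (Fin 2) ℤ) : A.adjugate.det = A.det := by
  rw [Matrix.det_adjugate]
  simp

theorem adjn_index_ne_zero (M : ℕ) [NeZero M] : ((Gamma0 M).index : ℚ) ≠ 0 := by
  exact_mod_cast Subgroup.FiniteIndex.index_ne_zero

/-- the reverse direction of `HasMean.om_doubleCoset`. -/
theorem adjn_doubleCoset_symm {Γ : Subgroup SL(2, ℤ)} {φ φ' : Additive Γ →+ ℚ} {k k' : V2 → ℚ}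
    (hk : IsQI Γ φ k) (hk' : IsQI Γ φ' k') (A A' : Matrix (Fin 2) (Fin 2) ℤ) (hA' : 0 < A'.det)
    (γ₁ γ₂ : Γ)
    (hAA' : A' = ((γ₁ : SL(2, ℤ)) : Matrix (Fin 2) (Fin 2) ℤ) * A *
      ((γ₂ : SL(2, ℤ)) : Matrix (Fin 2) (Fin 2) ℤ))
    {c : ℚ} (h : HasMean (om k (fun v => k' (zq A' *ᵥ v))) c) :
    HasMean (om k (fun v => k' (zq A *ᵥ v))) c := by
  refine HasMean.om_doubleCoset hk hk' A' A hA' γ₁⁻¹ γ₂⁻¹ ?_ h
  have h1 : (((γ₁⁻¹ : Γ) : SL(2, ℤ)) : Matrix (Fin 2) (Fin 2) ℤ) *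
      ((γ₁ : SL(2, ℤ)) : Matrix (Fin 2) (Fin 2) ℤ) = 1 := by
    rw [← Matrix.SpecialLinearGroup.coe_mul, ← Subgroup.coe_mul, inv_mul_cancel]
    rfl
  have h2 : ((γ₂ : SL(2, ℤ)) : Matrix (Fin 2) (Fin 2) ℤ) *
      (((γ₂⁻¹ : Γ) : SL(2, ℤ)) : Matrix (Fin 2) (Fin 2) ℤ) = 1 := by
    rw [← Matrix.SpecialLinearGroup.coe_mul, ← Subgroup.coe_mul, mul_inv_cancel]
    rfl
  rw [hAA', ← Matrix.mul_assoc, ← Matrix.mul_assoc, h1, Matrix.one_mul, Matrix.mul_assoc, h2,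
    Matrix.mul_one]

/-- the mean of `om k (∑ k' ∘ α_i)` is `(ℓ+1)` times the mean of `om k (k' ∘ diag(ℓ,1))`. -/
theorem adjn_sum_right (M : ℕ) {ℓ : ℕ} (hℓ : ℓ.Prime) (hℓM : ¬ ℓ ∣ M)
    {φ φ' : Additive (Gamma0 M) →+ ℚ} {k k' : V2 → ℚ}
    (hk : IsQI (Gamma0 M) φ k) (hk' : IsQI (Gamma0 M) φ' k') {c : ℚ}
    (h : HasMean (om k (fun v => k' (zq (heckeRep ℓ none) *ᵥ v))) c) :
    HasMean (om k (fun v => ∑ i : Option (Fin ℓ), k' (zq (heckeRep ℓ i) *ᵥ v)))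
      (((ℓ : ℚ) + 1) * c) := by
  have h1 : ∀ i ∈ (Finset.univ : Finset (Option (Fin ℓ))),
      HasMean (om k ((fun i v => k' (zq (heckeRep ℓ i) *ᵥ v)) i)) ((fun _ => c) i) := by
    intro i _
    obtain ⟨γ₁, γ₂, hγ⟩ := heckeRep_mem_doubleCoset M hℓ hℓM i
    exact HasMean.om_doubleCoset hk hk' (heckeRep ℓ none) (heckeRep ℓ i)
      (by rw [adjn_det_heckeRep]; exact_mod_cast hℓ.pos) γ₁ γ₂ hγ h
  have h2 := HasMean.om_sum_right Finset.univ h1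
  have h3 : ∑ _i : Option (Fin ℓ), c = ((ℓ : ℚ) + 1) * c := by
    simp
  rw [h3] at h2
  exact h2

/-- the mean of `om (∑ k ∘ α_i) k'` is `(ℓ+1)` times the mean of `om k (k' ∘ diag(ℓ,1))`. -/
theorem adjn_sum_left (M : ℕ) [NeZero M] {ℓ : ℕ} (hℓ : ℓ.Prime) (hℓM : ¬ ℓ ∣ M)
    {φ φ' : Additive (Gamma0 M) →+ ℚ} {k k' : V2 → ℚ}
    (hk : IsQI (Gamma0 M) φ k) (hk' : IsQI (Gamma0 M) φ' k') {c : ℚ}
    (h : HasMean (om k (fun v => k' (zq (heckeRep ℓ none) *ᵥ v))) c) :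
    HasMean (om (fun v => ∑ i : Option (Fin ℓ), k (zq (heckeRep ℓ i) *ᵥ v)) k')
      (((ℓ : ℚ) + 1) * c) := by
  have hpos : ∀ i, 0 < (heckeRep ℓ i).det := fun i => by
    rw [adjn_det_heckeRep]; exact_mod_cast hℓ.pos
  have h1 : ∀ i ∈ (Finset.univ : Finset (Option (Fin ℓ))),
      HasMean (om ((fun i v => k (zq (heckeRep ℓ i) *ᵥ v)) i) k') ((fun _ => c) i) := by
    intro i _
    obtain ⟨ci, hci⟩ := exists_hasMean_om ((IsSQ.of_isQI hk).comp_zq (heckeRep ℓ i) (hpos i))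
      (IsSQ.of_isQI hk')
    have h2 := HasMean.om_adj hk'.homog (heckeRep ℓ i) (hpos i) hci
    obtain ⟨γ₁, γ₂, hγ⟩ := heckeRep_adjugate_mem_doubleCoset M hℓ hℓM i
    have h3 := HasMean.om_doubleCoset hk hk' (heckeRep ℓ none) (heckeRep ℓ i).adjugate
      (hpos none) γ₁ γ₂ hγ h
    rw [h2.unique h3] at hci
    exact hci
  have h2 := HasMean.om_sum_left Finset.univ h1
  have h3 : ∑ _i : Option (Fin ℓ), c = ((ℓ : ℚ) + 1) * c := by
    simp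
  rw [h3] at h2
  exact h2

theorem adjn_coe_latT (M : ℕ) {ℓ : ℕ} (hℓ : ℓ.Prime) (hℓM : ¬ ℓ ∣ M) (x : Lat M) :
    (latT M hℓ hℓM x : Additive (Gamma0 M) →+ ℤ) =
      cohT M hℓ hℓM ℤ (x : Additive (Gamma0 M) →+ ℤ) := rfl

/-- the integral primitive of `T_ℓ x`. -/
theorem adjn_isQI_latT (M : ℕ) {ℓ : ℕ} (hℓ : ℓ.Prime) (hℓM : ¬ ℓ ∣ M) (x : Lat M) {k : V2 → ℤ}
    (hk : IsQI (Gamma0 M) (x : Additive (Gamma0 M) →+ ℤ) k) :
    IsQI (Gamma0 M) (latT M hℓ hℓM x : Additive (Gamma0 M) →+ ℤ)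
      (fun v => ∑ i : Option (Fin ℓ), k (zq (heckeRep ℓ i) *ᵥ v)) := by
  rw [adjn_coe_latT]
  exact IsQI.heckeT M hℓ hℓM hk

theorem adjn_cast_sum {ℓ : ℕ} (k : V2 → ℤ) :
    (fun v => ((∑ i : Option (Fin ℓ), k (zq (heckeRep ℓ i) *ᵥ v) : ℤ) : ℚ)) =
      fun v => ∑ i : Option (Fin ℓ), (fun w => (k w : ℚ)) (zq (heckeRep ℓ i) *ᵥ v) := by
  funext v
  push_cast
  rfl

section F3
variable (N q : ℕ) [NeZero N] [NeZero q] (hq : q.Prime) (hqN : ¬ q ∣ N)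
  (B : Lat N →ₗ[ℤ] Lat N →ₗ[ℤ] ℤ) (B' : Lat (N * q) →ₗ[ℤ] Lat (N * q) →ₗ[ℤ] ℤ)
  (hB : IsPairing N B) (hB' : IsPairing (N * q) B')
include hq hqN hB hB'

theorem pairing_11 (u v : Lat N) : B' (lres₁ N q u) (lres₁ N q v) = ((q : ℤ) + 1) * B u v := by
  obtain ⟨k, hk⟩ := exists_isQI N (u : Additive (Gamma0 N) →+ ℤ) u.2
  obtain ⟨k', hk'⟩ := exists_isQI N (v : Additive (Gamma0 N) →+ ℤ) v.2
  have h1 := hB' (lres₁ N q u) (lres₁ N q v) k k' (hk.resOne q) (hk'.resOne q)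
  have h2 := hB u v k k' hk hk'
  have h3 := h1.unique h2
  have hi := adjn_index_ne_zero N
  rw [index_Gamma0_mul_prime N hq hqN] at h3
  have hq1 : ((q : ℚ) + 1) ≠ 0 := by positivity
  push_cast at h3
  field_simp at h3
  have h4 : ((B' (lres₁ N q u) (lres₁ N q v) : ℤ) : ℚ) = (((q : ℤ) + 1) * B u v : ℤ) := by
    push_cast
    linarith
  exact_mod_cast h4

theorem pairing_22 (u v : Lat N) : B' (lres₂ N q u) (lres₂ N q v) = ((q : ℤ) + 1) * B u v := by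
  obtain ⟨k, hk⟩ := exists_isQI N (u : Additive (Gamma0 N) →+ ℤ) u.2
  obtain ⟨k', hk'⟩ := exists_isQI N (v : Additive (Gamma0 N) →+ ℤ) v.2
  have h1 := hB' (lres₂ N q u) (lres₂ N q v) _ _ (hk.resTwo q) (hk'.resTwo q)
  have h2 := (hB u v k k' hk hk').om_comp (dl q)
    (by rw [adjn_det_dl]; exact_mod_cast hq.pos)
  have h3 := h1.unique h2
  have hi := adjn_index_ne_zero N
  rw [index_Gamma0_mul_prime N hq hqN] at h3
  have hq1 : ((q : ℚ) + 1) ≠ 0 := by positivity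
  push_cast at h3
  field_simp at h3
  have h4 : ((B' (lres₂ N q u) (lres₂ N q v) : ℤ) : ℚ) = (((q : ℤ) + 1) * B u v : ℤ) := by
    push_cast
    linarith
  exact_mod_cast h4

theorem pairing_12 (u v : Lat N) : B' (lres₁ N q u) (lres₂ N q v) = B u (latT N hq hqN v) := by
  obtain ⟨k, hk⟩ := exists_isQI N (u : Additive (Gamma0 N) →+ ℤ) u.2
  obtain ⟨k', hk'⟩ := exists_isQI N (v : Additive (Gamma0 N) →+ ℤ) v.2
  have h1 := hB' (lres₁ N q u) (lres₂ N q v) _ _ (hk.resOne q) (hk'.resTwo q)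
  rw [← adjn_zq_none] at h1
  have h2 := adjn_sum_right N hq hqN (adjn_cast hk) (adjn_cast hk') h1
  have h3 := hB u (latT N hq hqN v) _ _ hk (adjn_isQI_latT N hq hqN v hk')
  rw [adjn_cast_sum] at h3
  have h4 := h2.unique h3
  have hi := adjn_index_ne_zero N
  rw [index_Gamma0_mul_prime N hq hqN] at h4
  have hq1 : ((q : ℚ) + 1) ≠ 0 := by positivity
  push_cast at h4
  field_simp at h4
  exact_mod_cast h4

theorem pairing_21 (u v : Lat N) : B' (lres₂ N q u) (lres₁ N q v) = B u (latT N hq hqN v) := by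
  obtain ⟨k, hk⟩ := exists_isQI N (u : Additive (Gamma0 N) →+ ℤ) u.2
  obtain ⟨k', hk'⟩ := exists_isQI N (v : Additive (Gamma0 N) →+ ℤ) v.2
  have hpos : 0 < (heckeRep q none).det := by
    rw [adjn_det_heckeRep]; exact_mod_cast hq.pos
  have h1 := hB' (lres₂ N q u) (lres₁ N q v) _ _ (hk.resTwo q) (hk'.resOne q)
  rw [← adjn_zq_none] at h1
  have h1' := HasMean.om_adj (k := fun v => (k v : ℚ)) (adjn_cast hk').homog (heckeRep q none)
    hpos h1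
  obtain ⟨γ₁, γ₂, hγ⟩ := heckeRep_adjugate_mem_doubleCoset N hq hqN none
  have h1'' := adjn_doubleCoset_symm (adjn_cast hk) (adjn_cast hk') (heckeRep q none)
    (heckeRep q none).adjugate (by rw [adjn_det_adjugate]; exact hpos) γ₁ γ₂ hγ h1'
  have h2 := adjn_sum_right N hq hqN (adjn_cast hk) (adjn_cast hk') h1''
  have h3 := hB u (latT N hq hqN v) _ _ hk (adjn_isQI_latT N hq hqN v hk')
  rw [adjn_cast_sum] at h3
  have h4 := h2.unique h3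
  have hi := adjn_index_ne_zero N
  rw [index_Gamma0_mul_prime N hq hqN] at h4
  have hq1 : ((q : ℚ) + 1) ≠ 0 := by positivity
  push_cast at h4
  field_simp at h4
  exact_mod_cast h4

end F3

theorem pairing_latT_adj (M : ℕ) [NeZero M] (B : Lat M →ₗ[ℤ] Lat M →ₗ[ℤ] ℤ) (hB : IsPairing M B)
    {ℓ : ℕ} (hℓ : ℓ.Prime) (hℓM : ¬ ℓ ∣ M) (x y : Lat M) :
    B (latT M hℓ hℓM x) y = B x (latT M hℓ hℓM y) := by
  obtain ⟨k, hk⟩ := exists_isQI M (x : Additive (Gamma0 M) →+ ℤ) x.2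
  obtain ⟨k', hk'⟩ := exists_isQI M (y : Additive (Gamma0 M) →+ ℤ) y.2
  have hpos : 0 < (heckeRep ℓ none).det := by
    rw [adjn_det_heckeRep]; exact_mod_cast hℓ.pos
  obtain ⟨c, hc⟩ := exists_hasMean_om (IsSQ.of_isQI (adjn_cast hk))
    ((IsSQ.of_isQI (adjn_cast hk')).comp_zq (heckeRep ℓ none) hpos)
  have hR := adjn_sum_right M hℓ hℓM (adjn_cast hk) (adjn_cast hk') hc
  have hL := adjn_sum_left M hℓ hℓM (adjn_cast hk) (adjn_cast hk') hc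
  have h1 := hB (latT M hℓ hℓM x) y _ _ (adjn_isQI_latT M hℓ hℓM x hk) hk'
  have h2 := hB x (latT M hℓ hℓM y) _ _ hk (adjn_isQI_latT M hℓ hℓM y hk')
  rw [adjn_cast_sum] at h1 h2
  have h3 := (h1.unique hL).trans (h2.unique hR).symm
  have hi := adjn_index_ne_zero M
  field_simp at h3
  exact_mod_cast h3

end Fermat.Agent.S41
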