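import Fermat.Agent.S41.PD.Defs

/-!
# S41 / PD-B : the Farey complex is connected and simply connected
-/

set_option autoImplicit false
open CongruenceSubgroup Matrix ModularGroup
open scoped MatrixGroups

namespace Fermat.Agent.S41

/-! ### entries of products -/

theorem Farey_mul_S_10 (g : SL(2, ℤ)) : (g * S) 1 0 = g 1 1 := by
  simp [Matrix.SpecialLinearGroup.coe_mul, coe_S, Matrix.mul_apply, Fin.sum_univ_two]

theorem Farey_mul_S_11 (g : SL(2, ℤ)) : (g * S) 1 1 = - g 1 0 := by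
  simp [Matrix.SpecialLinearGroup.coe_mul, coe_S, Matrix.mul_apply, Fin.sum_univ_two]

theorem Farey_mul_S_00 (g : SL(2, ℤ)) : (g * S) 0 0 = g 0 1 := by
  simp [Matrix.SpecialLinearGroup.coe_mul, coe_S, Matrix.mul_apply, Fin.sum_univ_two]

theorem Farey_mul_Tz_10 (g : SL(2, ℤ)) (n : ℤ) : (g * T ^ n) 1 0 = g 1 0 := by
  simp [Matrix.SpecialLinearGroup.coe_mul, coe_T_zpow, Matrix.mul_apply, Fin.sum_univ_two]

theorem Farey_mul_Tz_00 (g : SL(2, ℤ)) (n : ℤ) : (g * T ^ n) 0 0 = g 0 0 := by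
  simp [Matrix.SpecialLinearGroup.coe_mul, coe_T_zpow, Matrix.mul_apply, Fin.sum_univ_two]

theorem Farey_mul_Tz_11 (g : SL(2, ℤ)) (n : ℤ) : (g * T ^ n) 1 1 = g 1 0 * n + g 1 1 := by
  simp [Matrix.SpecialLinearGroup.coe_mul, coe_T_zpow, Matrix.mul_apply, Fin.sum_univ_two]

theorem Farey_coe_Tl : (Tl : Matrix (Fin 2) (Fin 2) ℤ) = !![1, 0; 1, 1] := rfl

theorem Farey_mul_Tl_10 (g : SL(2, ℤ)) : (g * Tl) 1 0 = g 1 0 + g 1 1 := by
  simp [Matrix.SpecialLinearGroup.coe_mul, Farey_coe_Tl, Matrix.mul_apply, Fin.sum_univ_two]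

theorem Farey_mul_Tl_11 (g : SL(2, ℤ)) : (g * Tl) 1 1 = g 1 1 := by
  simp [Matrix.SpecialLinearGroup.coe_mul, Farey_coe_Tl, Matrix.mul_apply, Fin.sum_univ_two]

theorem Farey_neg_apply (g : SL(2, ℤ)) (i j : Fin 2) : (-g) i j = - g i j := by
  simp

theorem Farey_S_mul_S : S * S = -1 := by decide

theorem Farey_T_S_T : T * S * T = Tl := by decide

theorem Farey_Tl_S : Tl * S = S * T⁻¹ := by decide

/-! ### vectors -/

theorem Farey_sl_e₁ (g : SL(2, ℤ)) : sl g *ᵥ e₁ = ![(g 0 0 : ℚ), (g 1 0 : ℚ)] := by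
  ext i
  fin_cases i <;> simp [sl, zq, e₁, Matrix.mulVec, dotProduct, Fin.sum_univ_two]

theorem Farey_sl_e₂ (g : SL(2, ℤ)) : sl g *ᵥ e₂ = ![(g 0 1 : ℚ), (g 1 1 : ℚ)] := by
  ext i
  fin_cases i <;> simp [sl, zq, e₂, Matrix.mulVec, dotProduct, Fin.sum_univ_two]

theorem Farey_sl_S_e₁ (g : SL(2, ℤ)) : sl (g * S) *ᵥ e₁ = sl g *ᵥ e₂ := by
  rw [Farey_sl_e₁, Farey_sl_e₂, Farey_mul_S_00, Farey_mul_S_10]

theorem Farey_sl_T_e₁ (g : SL(2, ℤ)) : sl (g * T) *ᵥ e₁ = sl g *ᵥ e₁ := by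
  have h0 := Farey_mul_Tz_00 g 1
  have h1 := Farey_mul_Tz_10 g 1
  rw [zpow_one] at h0 h1
  rw [Farey_sl_e₁, Farey_sl_e₁, h0, h1]

/-- (F0) every nonzero rational vector is a multiple of the first column of a unimodular matrix. -/
theorem exists_sl_smul (v : V2) (hv : v ≠ 0) :
    ∃ (c : ℚ) (g : SL(2, ℤ)), c ≠ 0 ∧ v = c • (sl g *ᵥ e₁) := by
  set X : ℤ := (v 0).num * (v 1).den with hX
  set Y : ℤ := (v 1).num * (v 0).den with hY
  have hd0 : ((v 0).den : ℚ) ≠ 0 := by exact_mod_cast (v 0).den_nz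
  have hd1 : ((v 1).den : ℚ) ≠ 0 := by exact_mod_cast (v 1).den_nz
  have hXY : ¬ (X = 0 ∧ Y = 0) := by
    rintro ⟨h0, h1⟩
    apply hv
    have h0' : (v 0).num = 0 := by
      rcases mul_eq_zero.1 h0 with h | h
      · exact h
      · exact absurd (by exact_mod_cast h) (v 1).den_nz
    have h1' : (v 1).num = 0 := by
      rcases mul_eq_zero.1 h1 with h | h
      · exact h
      · exact absurd (by exact_mod_cast h) (v 0).den_nz
    ext i
    fin_cases i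
    · exact Rat.zero_of_num_zero h0'
    · exact Rat.zero_of_num_zero h1'
  have hg : 0 < Int.gcd X Y := by
    rw [Int.gcd_pos_iff]
    by_contra hcon
    push Not at hcon
    exact hXY hcon
  obtain ⟨a, b, hab, hXa, hYb⟩ := Int.exists_gcd_one hg
  have hcop : IsCoprime a b := Int.isCoprime_iff_gcd_eq_one.2 hab
  obtain ⟨s, t, hst⟩ := hcop
  have hdet : (!![a, -t; b, s] : Matrix (Fin 2) (Fin 2) ℤ).det = 1 := by
    rw [Matrix.det_fin_two_of]; linarith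
  obtain ⟨g, hg00, hg10⟩ : ∃ g : SL(2, ℤ), g 0 0 = a ∧ g 1 0 = b :=
    ⟨(⟨!![a, -t; b, s], hdet⟩ : SL(2, ℤ)), rfl, rfl⟩
  refine ⟨(Int.gcd X Y : ℚ) / ((v 0).den * (v 1).den), g, ?_, ?_⟩
  · have : ((Int.gcd X Y : ℕ) : ℚ) ≠ 0 := by exact_mod_cast hg.ne'
    exact div_ne_zero this (mul_ne_zero hd0 hd1)
  · rw [Farey_sl_e₁, hg00, hg10]
    have e0 : v 0 = (X : ℚ) / ((v 0).den * (v 1).den) := by
      rw [hX]; push_cast
      rw [mul_div_mul_right _ _ hd1]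
      exact (Rat.num_div_den (v 0)).symm
    have e1 : v 1 = (Y : ℚ) / ((v 0).den * (v 1).den) := by
      rw [hY]; push_cast
      rw [mul_comm ((v 0).den : ℚ), mul_div_mul_right _ _ hd0]
      exact (Rat.num_div_den (v 1)).symm
    ext i
    fin_cases i
    · show v 0 = _ * (a : ℚ)
      have hXa' : (X : ℚ) = a * (Int.gcd X Y : ℕ) := by exact_mod_cast hXa
      refine e0.trans ?_
      rw [hXa']; ring
    · show v 1 = _ * (b : ℚ)
      have hYb' : (Y : ℚ) = b * (Int.gcd X Y : ℕ) := by exact_mod_cast hYb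
      refine e1.trans ?_
      rw [hYb']; ring

/-- (F1) the Farey graph is connected. -/
theorem farey_connected {R : Type*} (k : V2 → R) (hk : Homog k)
    (h : ∀ g : SL(2, ℤ), k (sl g *ᵥ e₂) = k (sl g *ᵥ e₁)) (v w : V2) (hv : v ≠ 0) (hw : w ≠ 0) :
    k v = k w := by
  have key : ∀ g : SL(2, ℤ), ∀ g₀ : SL(2, ℤ), k (sl (g₀ * g) *ᵥ e₁) = k (sl g₀ *ᵥ e₁) := by
    intro g
    have hg : g ∈ Subgroup.closure ({S, T} : Set SL(2, ℤ)) := by
      rw [SpecialLinearGroup.SL2Z_generators]; trivial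
    induction hg using Subgroup.closure_induction with
    | mem x hx =>
      intro g₀
      rcases hx with rfl | hx
      · rw [Farey_sl_S_e₁, h]
      · rw [Set.mem_singleton_iff] at hx
        subst hx
        rw [Farey_sl_T_e₁]
    | one => intro g₀; rw [mul_one]
    | mul x y _ _ hx hy => intro g₀; rw [← mul_assoc, hy, hx]
    | inv x _ hx =>
      intro g₀
      have := hx (g₀ * x⁻¹)
      rw [inv_mul_cancel_right] at this
      exact this.symm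
  obtain ⟨c, g, hc, rfl⟩ := exists_sl_smul v hv
  obtain ⟨c', g', hc', rfl⟩ := exists_sl_smul w hw
  rw [hk c _ hc, hk c' _ hc']
  have h1 := key g 1
  have h2 := key g' 1
  rw [one_mul] at h1 h2
  rw [h1, h2]

/-! ### (F2) -/

/-- sign normalisation: the lower left entry becomes positive (if it is nonzero). -/
def Farey_nrm (g : SL(2, ℤ)) : SL(2, ℤ) := if 0 < g 1 0 then g else -g

theorem Farey_nrm_pos (g : SL(2, ℤ)) (h : g 1 0 ≠ 0) : 0 < (Farey_nrm g) 1 0 := by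
  unfold Farey_nrm
  split_ifs with h1
  · exact h1
  · rw [Farey_neg_apply]
    omega

theorem Farey_nrm_natAbs (g : SL(2, ℤ)) : ((Farey_nrm g) 1 0).natAbs = (g 1 0).natAbs := by
  unfold Farey_nrm
  split_ifs with h1
  · rfl
  · rw [Farey_neg_apply, Int.natAbs_neg]

theorem Farey_nrm_neg (g : SL(2, ℤ)) (h : g 1 0 ≠ 0) : Farey_nrm (-g) = Farey_nrm g := by
  unfold Farey_nrm
  rw [Farey_neg_apply]
  by_cases h1 : 0 < g 1 0
  · rw [if_pos h1, if_neg (by omega), neg_neg]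
  · rw [if_neg h1, if_pos (by omega)]

theorem Farey_nrm_mul_T (g : SL(2, ℤ)) : Farey_nrm (g * T) = Farey_nrm g * T := by
  have h1 := Farey_mul_Tz_10 g 1
  rw [zpow_one] at h1
  unfold Farey_nrm
  rw [h1]
  split_ifs
  · rfl
  · rw [neg_mul]

theorem Farey_nrm_of_pos (g : SL(2, ℤ)) (h : 0 < g 1 0) : Farey_nrm g = g := if_pos h

section

variable {R : Type*} [AddCommGroup R] (ξ : SL(2, ℤ) → R)

/-- the primitive of `ξ`, as a function of a matrix (it only depends on the first column up to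
sign). -/
def Farey_m (g : SL(2, ℤ)) : R :=
  if _h : g 1 0 = 0 then 0 else
    Farey_m (Farey_nrm g * T ^ (-((Farey_nrm g) 1 1 / (Farey_nrm g) 1 0)) * S)
      - ξ (Farey_nrm g * T ^ (-((Farey_nrm g) 1 1 / (Farey_nrm g) 1 0)))
termination_by (g 1 0).natAbs
decreasing_by
  rw [Farey_mul_S_10, Farey_mul_Tz_11, ← Farey_nrm_natAbs g]
  have hpos := Farey_nrm_pos g _h
  set c := (Farey_nrm g) 1 0
  set d := (Farey_nrm g) 1 1
  have e : c * -(d / c) + d = d % c := by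
    have := Int.emod_add_mul_ediv d c
    linarith
  rw [e]
  have h1 := Int.emod_nonneg d hpos.ne'
  have h2 := Int.emod_lt_of_pos d hpos
  omega

theorem Farey_m_of_zero (g : SL(2, ℤ)) (h : g 1 0 = 0) : Farey_m ξ g = 0 := by
  rw [Farey_m, dif_pos h]

theorem Farey_m_of_ne (g : SL(2, ℤ)) (h : g 1 0 ≠ 0) : Farey_m ξ g =
    Farey_m ξ (Farey_nrm g * T ^ (-((Farey_nrm g) 1 1 / (Farey_nrm g) 1 0)) * S)
      - ξ (Farey_nrm g * T ^ (-((Farey_nrm g) 1 1 / (Farey_nrm g) 1 0))) := by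
  rw [Farey_m, dif_neg h]

theorem Farey_m_neg (g : SL(2, ℤ)) : Farey_m ξ (-g) = Farey_m ξ g := by
  by_cases h : g 1 0 = 0
  · rw [Farey_m_of_zero ξ g h, Farey_m_of_zero ξ (-g) (by rw [Farey_neg_apply, h, neg_zero])]
  · rw [Farey_m_of_ne ξ g h, Farey_m_of_ne ξ (-g) (by rw [Farey_neg_apply]; omega),
      Farey_nrm_neg g h]

theorem Farey_m_mul_T (g : SL(2, ℤ)) : Farey_m ξ (g * T) = Farey_m ξ g := by
  have h1 := Farey_mul_Tz_10 g 1
  rw [zpow_one] at h1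
  by_cases h : g 1 0 = 0
  · rw [Farey_m_of_zero ξ g h, Farey_m_of_zero ξ (g * T) (by rw [h1, h])]
  · rw [Farey_m_of_ne ξ g h, Farey_m_of_ne ξ (g * T) (by rw [h1]; exact h), Farey_nrm_mul_T]
    have hpos := Farey_nrm_pos g h
    have e10 := Farey_mul_Tz_10 (Farey_nrm g) 1
    have e11 := Farey_mul_Tz_11 (Farey_nrm g) 1
    rw [zpow_one] at e10 e11
    rw [e10, e11]
    set c := (Farey_nrm g) 1 0
    set d := (Farey_nrm g) 1 1
    have e : (c * 1 + d) / c = d / c + 1 := by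
      rw [mul_one, add_comm, Int.add_ediv_of_dvd_right (dvd_refl c), Int.ediv_self hpos.ne']
    have e2 : Farey_nrm g * T * T ^ (-((c * 1 + d) / c)) = Farey_nrm g * T ^ (-(d / c)) := by
      rw [e, mul_assoc, ← _root_.zpow_one_add]
      congr 2
      ring
    rw [e2]

theorem Farey_m_mul_T_inv (g : SL(2, ℤ)) : Farey_m ξ (g * T⁻¹) = Farey_m ξ g := by
  have := Farey_m_mul_T ξ (g * T⁻¹)
  rw [inv_mul_cancel_right] at this
  exact this.symm

theorem Farey_m_mul_T_zpow (g : SL(2, ℤ)) (n : ℤ) : Farey_m ξ (g * T ^ n) = Farey_m ξ g := by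
  induction n with
  | zero => simp
  | succ n ih => rw [_root_.zpow_add_one, ← mul_assoc, Farey_m_mul_T, ih]
  | pred n ih => rw [_root_.zpow_sub_one, ← mul_assoc, Farey_m_mul_T_inv, ih]

/-- the statement to be proved for all `g` -/
def Farey_P (g : SL(2, ℤ)) : Prop := ξ g = Farey_m ξ (g * S) - Farey_m ξ g

variable {ξ}

theorem Farey_P_of_lt (g : SL(2, ℤ)) (hc : 0 < g 1 0) (h0 : 0 ≤ g 1 1) (h1 : g 1 1 < g 1 0) :
    Farey_P ξ g := by
  have h := Farey_m_of_ne ξ g hc.ne'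
  rw [Farey_nrm_of_pos g hc, Int.ediv_eq_zero_of_lt h0 h1, neg_zero, zpow_zero, mul_one] at h
  unfold Farey_P
  rw [h]
  abel

variable (hS : ∀ g, ξ (g * S) = - ξ g) (hT : ∀ g, ξ g = ξ (g * T) + ξ (g * Tl))

include hS in
theorem Farey_P_mul_S (g : SL(2, ℤ)) (h : Farey_P ξ (g * S)) : Farey_P ξ g := by
  unfold Farey_P at h ⊢
  rw [hS, mul_assoc, Farey_S_mul_S, mul_neg, mul_one, Farey_m_neg] at h
  have : ξ g = -(Farey_m ξ g - Farey_m ξ (g * S)) := by rw [← h, neg_neg]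
  rw [this]
  abel

include hT in
theorem Farey_P_step (g : SL(2, ℤ)) (h1 : Farey_P ξ (g * T⁻¹)) (h2 : Farey_P ξ (g * T⁻¹ * Tl)) :
    Farey_P ξ g := by
  unfold Farey_P at h1 h2 ⊢
  have h3 := hT (g * T⁻¹)
  rw [inv_mul_cancel_right] at h3
  have e1 : g * T⁻¹ * Tl * S = g * T⁻¹ * S * T⁻¹ := by
    rw [mul_assoc (g * T⁻¹) Tl S, Farey_Tl_S, ← mul_assoc]
  have e2 : g * T⁻¹ * Tl = g * S * T := by
    rw [← Farey_T_S_T]
    simp only [← mul_assoc, inv_mul_cancel_right]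
  rw [e1, Farey_m_mul_T_inv, e2, Farey_m_mul_T] at h2
  rw [Farey_m_mul_T_inv] at h1
  rw [e2] at h3
  have : ξ g = ξ (g * T⁻¹) - ξ (g * S * T) := by rw [h3]; abel
  rw [this, h1, h2]
  abel

include hT in
theorem Farey_P_quadrant (n : ℕ) : ∀ g : SL(2, ℤ), 0 < g 1 0 → 0 ≤ g 1 1 → (g 1 1).toNat = n →
    Farey_P ξ g := by
  induction n using Nat.strong_induction_on with
  | _ n ih =>
    intro g hc hd hn
    by_cases hlt : g 1 1 < g 1 0
    · exact Farey_P_of_lt g hc hd hlt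
    · push Not at hlt
      have e10 := Farey_mul_Tz_10 g (-1)
      have e11 := Farey_mul_Tz_11 g (-1)
      rw [_root_.zpow_neg_one] at e10 e11
      refine Farey_P_step hT g ?_ ?_
      · refine ih (g 1 1 - g 1 0).toNat (by omega) (g * T⁻¹) (by rw [e10]; exact hc)
          (by rw [e11]; omega) (by rw [e11]; congr 1; ring)
      · have f10 : (g * T⁻¹ * Tl) 1 0 = g 1 1 := by
          rw [Farey_mul_Tl_10, e10, e11]; ring
        have f11 : (g * T⁻¹ * Tl) 1 1 = g 1 1 - g 1 0 := by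
          rw [Farey_mul_Tl_11, e11]; ring
        exact Farey_P_of_lt _ (by rw [f10]; omega) (by rw [f11]; omega) (by rw [f10, f11]; omega)

include hS hT in
theorem Farey_P_all (g : SL(2, ℤ)) : Farey_P ξ g := by
  have hq : ∀ g : SL(2, ℤ), 0 < g 1 0 → 0 ≤ g 1 1 → Farey_P ξ g :=
    fun g h1 h2 => Farey_P_quadrant hT _ g h1 h2 rfl
  have hne : ¬ (g 1 0 = 0 ∧ g 1 1 = 0) := by
    rintro ⟨h0, h1⟩
    have := g.det_coe
    rw [Matrix.det_fin_two, h0, h1] at this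
    simp at this
  by_cases h1 : 0 < g 1 0 ∧ 0 ≤ g 1 1
  · exact hq g h1.1 h1.2
  refine Farey_P_mul_S hS g ?_
  have a10 := Farey_mul_S_10 g
  have a11 := Farey_mul_S_11 g
  by_cases h2 : 0 < (g * S) 1 0 ∧ 0 ≤ (g * S) 1 1
  · exact hq _ h2.1 h2.2
  refine Farey_P_mul_S hS _ ?_
  have b10 := Farey_mul_S_10 (g * S)
  have b11 := Farey_mul_S_11 (g * S)
  by_cases h3 : 0 < (g * S * S) 1 0 ∧ 0 ≤ (g * S * S) 1 1
  · exact hq _ h3.1 h3.2
  refine Farey_P_mul_S hS _ ?_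
  have c10 := Farey_mul_S_10 (g * S * S)
  have c11 := Farey_mul_S_11 (g * S * S)
  refine hq _ ?_ ?_ <;> omega

end

theorem Farey_eq_T_zpow (h : SL(2, ℤ)) (h10 : h 1 0 = 0) : ∃ n : ℤ, h = T ^ n ∨ h = - T ^ n := by
  have hdet := h.det_coe
  rw [Matrix.det_fin_two, h10, mul_zero, sub_zero] at hdet
  rcases Int.mul_eq_one_iff_eq_one_or_neg_one.1 hdet with ⟨h00, h11⟩ | ⟨h00, h11⟩
  · refine ⟨h 0 1, Or.inl ?_⟩
    ext i j
    rw [coe_T_zpow]
    fin_cases i <;> fin_cases j <;> simp [h00, h11, h10]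
  · refine ⟨- h 0 1, Or.inr ?_⟩
    ext i j
    rw [Matrix.SpecialLinearGroup.coe_neg, coe_T_zpow]
    fin_cases i <;> fin_cases j <;> simp [h00, h11, h10]

theorem Farey_sl_e₁_ne_zero (g : SL(2, ℤ)) : sl g *ᵥ e₁ ≠ 0 := by
  intro h
  rw [Farey_sl_e₁] at h
  have h0 : (g 0 0 : ℚ) = 0 := congrFun h 0
  have h1 : (g 1 0 : ℚ) = 0 := congrFun h 1
  have h0' : g 0 0 = 0 := by exact_mod_cast h0
  have h1' : g 1 0 = 0 := by exact_mod_cast h1
  have hdet := g.det_coe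
  rw [Matrix.det_fin_two, h0', h1'] at hdet
  simp at hdet

section

variable {R : Type*} [AddCommGroup R] (ξ : SL(2, ℤ) → R)

theorem Farey_m_eq_of_col (g g' : SL(2, ℤ)) (c : ℚ)
    (h : sl g' *ᵥ e₁ = c • (sl g *ᵥ e₁)) : Farey_m ξ g' = Farey_m ξ g := by
  rw [Farey_sl_e₁, Farey_sl_e₁] at h
  have h0 : (g' 0 0 : ℚ) = c * g 0 0 := congrFun h 0
  have h1 : (g' 1 0 : ℚ) = c * g 1 0 := congrFun h 1
  have h10 : (g⁻¹ * g') 1 0 = 0 := by
    have e : (g⁻¹ * g') 1 0 = - g 1 0 * g' 0 0 + g 0 0 * g' 1 0 := by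
      simp [Matrix.SpecialLinearGroup.coe_mul, Matrix.SpecialLinearGroup.coe_inv,
        Matrix.adjugate_fin_two, Matrix.mul_apply, Fin.sum_univ_two]
    rw [e]
    have : ((- g 1 0 * g' 0 0 + g 0 0 * g' 1 0 : ℤ) : ℚ) = 0 := by
      push_cast
      rw [h0, h1]; ring
    exact_mod_cast this
  obtain ⟨n, hn | hn⟩ := Farey_eq_T_zpow _ h10
  · have : g' = g * T ^ n := by rw [← hn, mul_inv_cancel_left]
    rw [this, Farey_m_mul_T_zpow]
  · have : g' = - (g * T ^ n) := by rw [← mul_neg, ← hn, mul_inv_cancel_left]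
    rw [this, Farey_m_neg, Farey_m_mul_T_zpow]

open Classical in
/-- the primitive of `ξ` as a function on `ℙ¹(ℚ)` -/
noncomputable def Farey_k (v : V2) : R :=
  if hv : v = 0 then 0 else Farey_m ξ (exists_sl_smul v hv).choose_spec.choose

theorem Farey_k_spec (g : SL(2, ℤ)) (c : ℚ) (hc : c ≠ 0) :
    Farey_k ξ (c • (sl g *ᵥ e₁)) = Farey_m ξ g := by
  have hv : c • (sl g *ᵥ e₁) ≠ 0 := smul_ne_zero hc (Farey_sl_e₁_ne_zero g)
  unfold Farey_k
  rw [dif_neg hv]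
  obtain ⟨hc₀, h⟩ := (exists_sl_smul _ hv).choose_spec.choose_spec
  set c₀ := (exists_sl_smul _ hv).choose
  set g₀ := (exists_sl_smul _ hv).choose_spec.choose
  refine Farey_m_eq_of_col ξ g g₀ (c₀⁻¹ * c) ?_
  rw [mul_smul, h, smul_smul, inv_mul_cancel₀ hc₀, one_smul]

theorem Farey_k_homog : Homog (Farey_k ξ) := by
  intro c v hc
  by_cases hv : v = 0
  · rw [hv, smul_zero]
  · obtain ⟨c₀, g₀, hc₀, rfl⟩ := exists_sl_smul v hv
    rw [smul_smul, Farey_k_spec ξ g₀ _ (mul_ne_zero hc hc₀), Farey_k_spec ξ g₀ _ hc₀]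

end

/-- (F2) the Farey complex is simply connected: Manin's relations are complete. -/
theorem farey_exact {R : Type*} [AddCommGroup R] (ξ : SL(2, ℤ) → R) (hS : ∀ g, ξ (g * S) = - ξ g)
    (hT : ∀ g, ξ g = ξ (g * T) + ξ (g * Tl)) :
    ∃ k : V2 → R, Homog k ∧ ∀ g, ξ g = k (sl g *ᵥ e₂) - k (sl g *ᵥ e₁) := by
  refine ⟨Farey_k ξ, Farey_k_homog ξ, fun g => ?_⟩
  have h1 := Farey_k_spec ξ g 1 one_ne_zero
  have h2 := Farey_k_spec ξ (g * S) 1 one_ne_zero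
  rw [one_smul] at h1 h2
  rw [Farey_sl_S_e₁] at h2
  rw [h1, h2]
  exact Farey_P_all hS hT g

end Fermat.Agent.S41
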