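import Fermat.Agent.S41.PD.CosetSum

/-!
# S41 / PD-C1 : uniqueness of the mean (the Farey sum of a smooth coboundary vanishes)
-/

set_option autoImplicit false
open CongruenceSubgroup Matrix ModularGroup
open scoped MatrixGroups

namespace Fermat.Agent.S41

namespace MeanUnique

theorem sl_mul (g h : SL(2, ℤ)) : sl (g * h) = sl g * sl h := by
  have h : ((g * h : SL(2, ℤ)) : Matrix (Fin 2) (Fin 2) ℤ)
      = (g : Matrix (Fin 2) (Fin 2) ℤ) * (h : Matrix (Fin 2) (Fin 2) ℤ) :=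
    Matrix.SpecialLinearGroup.coe_mul g h
  unfold sl
  rw [h]
  exact Matrix.map_mul (f := Int.castRingHom ℚ)

theorem sl_mul_mulVec (g h : SL(2, ℤ)) (v : V2) : sl (g * h) *ᵥ v = sl g *ᵥ (sl h *ᵥ v) := by
  rw [sl_mul, Matrix.mulVec_mulVec]

theorem sl_one : sl 1 = 1 := by
  have h : ((1 : SL(2, ℤ)) : Matrix (Fin 2) (Fin 2) ℤ) = 1 := Matrix.SpecialLinearGroup.coe_one
  unfold sl
  rw [h]
  exact Matrix.map_one _ Int.cast_zero Int.cast_one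

theorem sl_det (g : SL(2, ℤ)) : (sl g).det = 1 := by
  unfold sl zq
  have h := (Int.castRingHom ℚ).map_det (g : Matrix (Fin 2) (Fin 2) ℤ)
  rw [g.2] at h
  simpa using h.symm

theorem sl_mulVec_ne_zero (g : SL(2, ℤ)) {v : V2} (hv : v ≠ 0) : sl g *ᵥ v ≠ 0 := by
  intro h
  apply hv
  have h1 : sl (g⁻¹ * g) *ᵥ v = 0 := by rw [sl_mul_mulVec, h, Matrix.mulVec_zero]
  rwa [inv_mul_cancel, sl_one, Matrix.one_mulVec] at h1

theorem e₁_ne_zero : e₁ ≠ 0 := by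
  intro h
  have := congrFun h 0
  simp [e₁] at this

theorem e₂_ne_zero : e₂ ≠ 0 := by
  intro h
  have := congrFun h 1
  simp [e₂] at this

theorem e₃_ne_zero : e₃ ≠ 0 := by
  intro h
  have := congrFun h 0
  simp [e₃] at this

theorem sl_T_e₁ : sl T *ᵥ e₁ = e₁ := by
  ext i
  fin_cases i <;> simp [sl, zq, coe_T, e₁, Matrix.mulVec, dotProduct, Fin.sum_univ_two]

theorem sl_T_e₂ : sl T *ᵥ e₂ = e₃ := by
  ext i
  fin_cases i <;> simp [sl, zq, coe_T, e₂, e₃, Matrix.mulVec, dotProduct, Fin.sum_univ_two]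

theorem sl_Tl_e₁ : sl Tl *ᵥ e₁ = e₃ := by
  ext i
  fin_cases i <;> simp [sl, zq, Tl, e₁, e₃, Matrix.mulVec, dotProduct, Fin.sum_univ_two]

theorem sl_Tl_e₂ : sl Tl *ᵥ e₂ = e₂ := by
  ext i
  fin_cases i <;> simp [sl, zq, Tl, e₂, Matrix.mulVec, dotProduct, Fin.sum_univ_two]

theorem sl_S_e₁ : sl S *ᵥ e₁ = e₂ := by
  ext i
  fin_cases i <;> simp [sl, zq, coe_S, e₁, e₂, Matrix.mulVec, dotProduct, Fin.sum_univ_two]

theorem sl_S_e₂ : sl S *ᵥ e₂ = (-1 : ℚ) • e₁ := by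
  ext i
  fin_cases i <;> simp [sl, zq, coe_S, e₁, e₂, Matrix.mulVec, dotProduct, Fin.sum_univ_two]

theorem cs_add_aux (Γ : Subgroup SL(2, ℤ)) [Γ.FiniteIndex] (F G : SL(2, ℤ) → ℚ) :
    cs Γ (fun g => F g + G g) = cs Γ F + cs Γ G := by
  unfold cs
  exact Finset.sum_add_distrib

theorem cs_neg_aux (Γ : Subgroup SL(2, ℤ)) [Γ.FiniteIndex] (F : SL(2, ℤ) → ℚ) :
    cs Γ (fun g => - F g) = - cs Γ F := by
  unfold cs
  exact Finset.sum_neg_distrib _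

theorem dt_mulVec (A : M2) (x y : V2) : dt (A *ᵥ x) (A *ᵥ y) = A.det * dt x y := by
  simp only [dt, Matrix.mulVec, dotProduct, Fin.sum_univ_two, Matrix.det_fin_two]
  ring

theorem tri_orc (g : SL(2, ℤ)) : orc (sl g *ᵥ e₁) (sl g *ᵥ e₂) (sl g *ᵥ e₃) = 1 := by
  unfold orc
  rw [dt_mulVec, dt_mulVec, dt_mulVec, sl_det]
  have h : (1 : ℚ) * dt e₁ e₂ * (1 * dt e₂ e₃) * (1 * dt e₃ e₁) = 1 := by
    simp [dt, e₁, e₂, e₃]
  rw [h]
  simp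

/-- homogeneity in the second variable. -/
theorem IsSm1.homog_right {M : ℕ} {θ : V2 → V2 → ℚ} (hθ : IsSm1 M θ) (c : ℚ) (a b : V2)
    (hc : c ≠ 0) : θ a (c • b) = θ a b := by
  rw [hθ.alt (c • b) a, hθ.homog c b a hc, ← hθ.alt]

/-- the Farey sum of a smooth coboundary vanishes. -/
theorem cs_coboundary {M : ℕ} {θ : V2 → V2 → ℚ} (hθ : IsSm1 M θ) (Γ : Subgroup SL(2, ℤ))
    [Γ.FiniteIndex] (hΓ : Γ ≤ Gamma M) :
    cs Γ (fun g => θ (sl g *ᵥ e₂) (sl g *ᵥ e₃) - θ (sl g *ᵥ e₁) (sl g *ᵥ e₃)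
      + θ (sl g *ᵥ e₁) (sl g *ᵥ e₂)) = 0 := by
  set ξ : SL(2, ℤ) → ℚ := fun g => θ (sl g *ᵥ e₁) (sl g *ᵥ e₂) with hξ
  have hinv : LInv Γ ξ := by
    intro γ hγ g
    simp only [hξ, sl_mul_mulVec]
    exact hθ.inv γ (hΓ hγ) _ _
  have hT : ∀ g, ξ (g * T) = θ (sl g *ᵥ e₁) (sl g *ᵥ e₃) := by
    intro g
    simp only [hξ, sl_mul_mulVec, sl_T_e₁, sl_T_e₂]
  have hTl : ∀ g, ξ (g * Tl) = - θ (sl g *ᵥ e₂) (sl g *ᵥ e₃) := by
    intro g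
    simp only [hξ, sl_mul_mulVec, sl_Tl_e₁, sl_Tl_e₂]
    exact hθ.alt _ _
  have hS : ∀ g, ξ (g * S) = - ξ g := by
    intro g
    simp only [hξ, sl_mul_mulVec, sl_S_e₁, sl_S_e₂, Matrix.mulVec_smul]
    rw [IsSm1.homog_right hθ _ _ _ (by norm_num)]
    exact hθ.alt _ _
  have h0 : cs Γ ξ = 0 := by
    have h1 := cs_mul_right Γ ξ hinv S
    have h2 : (fun g => ξ (g * S)) = fun g => - ξ g := funext hS
    rw [h2, cs_neg_aux] at h1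
    linarith
  have hfun : (fun g => θ (sl g *ᵥ e₂) (sl g *ᵥ e₃) - θ (sl g *ᵥ e₁) (sl g *ᵥ e₃)
      + θ (sl g *ᵥ e₁) (sl g *ᵥ e₂))
      = fun g => (- ξ (g * Tl) + - ξ (g * T)) + ξ g := by
    funext g
    rw [hT, hTl]
    ring
  rw [hfun, cs_add_aux Γ (fun g => - ξ (g * Tl) + - ξ (g * T)) ξ,
    cs_add_aux Γ (fun g => - ξ (g * Tl)) (fun g => - ξ (g * T)),
    cs_neg_aux Γ (fun g => ξ (g * Tl)), cs_neg_aux Γ (fun g => ξ (g * T)),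
    cs_mul_right Γ ξ hinv Tl, cs_mul_right Γ ξ hinv T, h0]
  norm_num

theorem Gamma_le_of_dvd {M M' : ℕ} (h : M ∣ M') : Gamma M' ≤ Gamma M := by
  intro γ hγ
  rw [Gamma_mem] at hγ ⊢
  have key : ∀ (a b : ℤ), ((a : ℤ) : ZMod M') = (b : ℤ) → ((a : ℤ) : ZMod M) = (b : ℤ) := by
    intro a b hab
    rw [ZMod.intCast_eq_intCast_iff_dvd_sub] at hab ⊢
    exact (Int.natCast_dvd_natCast.mpr h).trans hab
  refine ⟨?_, ?_, ?_, ?_⟩
  · simpa using key _ 1 (by simpa using hγ.1)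
  · simpa using key _ 0 (by simpa using hγ.2.1)
  · simpa using key _ 0 (by simpa using hγ.2.2.1)
  · simpa using key _ 1 (by simpa using hγ.2.2.2)

theorem IsSm1.mono {M M' : ℕ} (h : M ∣ M') {θ : V2 → V2 → ℚ} (hθ : IsSm1 M θ) : IsSm1 M' θ :=
  ⟨hθ.homog, hθ.alt, fun γ hγ => hθ.inv γ (Gamma_le_of_dvd h hγ)⟩

/-- the formula for `tri w`. -/
theorem tri_eq {w : V2 → V2 → V2 → ℚ} {c : ℚ} {θ : V2 → V2 → ℚ}
    (hw : ∀ x y z : V2, x ≠ 0 → y ≠ 0 → z ≠ 0 →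
      w x y z = c * orc x y z + (θ y z - θ x z + θ x y)) (g : SL(2, ℤ)) :
    tri w g = c + (θ (sl g *ᵥ e₂) (sl g *ᵥ e₃) - θ (sl g *ᵥ e₁) (sl g *ᵥ e₃)
      + θ (sl g *ᵥ e₁) (sl g *ᵥ e₂)) := by
  unfold tri
  rw [hw _ _ _ (sl_mulVec_ne_zero g e₁_ne_zero) (sl_mulVec_ne_zero g e₂_ne_zero)
    (sl_mulVec_ne_zero g e₃_ne_zero), tri_orc, mul_one]

end MeanUnique

open MeanUnique

/-- (C1) if `w` has mean `c` and is `Γ`-invariant then the Farey sum of `w` is `c * [SL₂ℤ : Γ]`. -/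
theorem HasMean.cs_eq {w : V2 → V2 → V2 → ℚ} {c : ℚ} (h : HasMean w c) (Γ : Subgroup SL(2, ℤ))
    [Γ.FiniteIndex] (hw : LInv Γ (tri w)) : cs Γ (tri w) = c * Γ.index := by
  obtain ⟨M, θ, hM, hθ, hwθ⟩ := h
  have : NeZero M := ⟨hM.ne'⟩
  set Γ' : Subgroup SL(2, ℤ) := Gamma M ⊓ Γ with hΓ'
  have h1 : cs Γ' (tri w) = Γ'.relIndex Γ • cs Γ (tri w) := cs_of_le Γ' Γ inf_le_right _ hw
  have h2 : cs Γ' (tri w) = c * Γ'.index := by
    have hfun : tri w = fun g => (fun _ => c) g +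
        (fun g => θ (sl g *ᵥ e₂) (sl g *ᵥ e₃) - θ (sl g *ᵥ e₁) (sl g *ᵥ e₃)
          + θ (sl g *ᵥ e₁) (sl g *ᵥ e₂)) g := funext (tri_eq hwθ)
    rw [hfun, cs_add_aux, cs_const, cs_coboundary hθ Γ' inf_le_left, add_zero, nsmul_eq_mul,
      mul_comm]
  have h3 : Γ'.relIndex Γ * Γ.index = Γ'.index := Subgroup.relIndex_mul_index inf_le_right
  have h4 : (Γ'.relIndex Γ : ℚ) ≠ 0 := by
    have : Γ'.relIndex Γ ≠ 0 := by
      intro h0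
      rw [h0, zero_mul] at h3
      exact Subgroup.FiniteIndex.index_ne_zero h3.symm
    exact_mod_cast this
  rw [h1, nsmul_eq_mul, ← h3] at h2
  push_cast at h2
  have h5 : (Γ'.relIndex Γ : ℚ) * cs Γ (tri w) = (Γ'.relIndex Γ : ℚ) * (c * Γ.index) := by
    rw [h2]; ring
  exact mul_left_cancel₀ h4 h5

theorem HasMean.unique {w : V2 → V2 → V2 → ℚ} {c c' : ℚ} (h : HasMean w c) (h' : HasMean w c') :
    c = c' := by
  obtain ⟨M, θ, hM, hθ, hwθ⟩ := id h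
  have : NeZero M := ⟨hM.ne'⟩
  have hinv : LInv (Gamma M) (tri w) := by
    intro γ hγ g
    rw [tri_eq hwθ, tri_eq hwθ]
    simp only [sl_mul_mulVec, hθ.inv γ hγ]
  have h1 := h.cs_eq (Gamma M) hinv
  have h2 := h'.cs_eq (Gamma M) hinv
  have h3 : ((Gamma M).index : ℚ) ≠ 0 := by
    exact_mod_cast Subgroup.FiniteIndex.index_ne_zero
  rw [h1] at h2
  exact mul_right_cancel₀ h3 h2

theorem HasMean.add {w w' : V2 → V2 → V2 → ℚ} {c c' : ℚ} (h : HasMean w c) (h' : HasMean w' c') :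
    HasMean (fun x y z => w x y z + w' x y z) (c + c') := by
  obtain ⟨M, θ, hM, hθ, hwθ⟩ := h
  obtain ⟨M', θ', hM', hθ', hwθ'⟩ := h'
  have h1 : IsSm1 (M * M') θ := IsSm1.mono (Dvd.intro _ rfl) hθ
  have h2 : IsSm1 (M * M') θ' := IsSm1.mono (Dvd.intro_left _ rfl) hθ'
  refine ⟨M * M', fun a b => θ a b + θ' a b, Nat.mul_pos hM hM', ⟨?_, ?_, ?_⟩, ?_⟩
  · intro c a b hc
    rw [h1.homog c a b hc, h2.homog c a b hc]
  · intro a b
    rw [h1.alt, h2.alt]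
    ring
  · intro γ hγ a b
    rw [h1.inv γ hγ, h2.inv γ hγ]
  · intro x y z hx hy hz
    simp only [hwθ x y z hx hy hz, hwθ' x y z hx hy hz]
    ring

theorem HasMean.smul {w : V2 → V2 → V2 → ℚ} {c : ℚ} (h : HasMean w c) (a : ℚ) :
    HasMean (fun x y z => a * w x y z) (a * c) := by
  obtain ⟨M, θ, hM, hθ, hwθ⟩ := h
  refine ⟨M, fun x y => a * θ x y, hM, ⟨?_, ?_, ?_⟩, ?_⟩
  · intro c x y hc
    rw [hθ.homog c x y hc]
  · intro x y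
    rw [hθ.alt]
    ring
  · intro γ hγ x y
    rw [hθ.inv γ hγ]
  · intro x y z hx hy hz
    simp only [hwθ x y z hx hy hz]
    ring

end Fermat.Agent.S41
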