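import Fermat.Agent.S41.PD.Orc
import Fermat.Agent.S41.PD.Farey
import Fermat.Agent.S41.PD.MeanUnique

/-!
# S41 / PD-C2 : existence of the mean (`H²` of the smooth cochains on `ℙ¹(ℚ)` is one dimensional)

* `MeanExists_flow` : on a finite group generated by `s` (`s⁴ = 1`, `s²` central) and `u` (`u³ = 1`) every
  sum-zero function on the "triangles" is the divergence of a flow on the "edges".
* `MeanExists_xi` : the same on `Γ(M) \ SL(2,ℤ)`.
* `MeanExists_prim` : a flow with divergence `tri w` gives a smooth primitive of `w` (Farey complex simply connected).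
* `exists_hasMean`.
-/

set_option autoImplicit false
open CongruenceSubgroup Matrix ModularGroup
open scoped MatrixGroups

namespace Fermat.Agent.S41

open MeanUnique

section Flow

variable {G : Type*} [Group G]

/-- right translation. -/
def MeanExists_R (t : G) : (G → ℚ) →ₗ[ℚ] (G → ℚ) := LinearMap.funLeft ℚ ℚ (fun g => g * t)

theorem MeanExists_R_apply (t : G) (φ : G → ℚ) (g : G) : MeanExists_R t φ g = φ (g * t) := rfl

/-- six times the projector on the functions which are right invariant under `u`, `s²`. -/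
def MeanExists_Q (s u : G) : (G → ℚ) →ₗ[ℚ] (G → ℚ) :=
  (1 + MeanExists_R u + MeanExists_R (u ^ 2)) ∘ₗ (1 + MeanExists_R (s ^ 2))

theorem MeanExists_Q_apply (s u : G) (φ : G → ℚ) (g : G) :
    MeanExists_Q s u φ g = (φ g + φ (g * s ^ 2)) + (φ (g * u) + φ (g * u * s ^ 2)) +
      (φ (g * u ^ 2) + φ (g * u ^ 2 * s ^ 2)) := rfl

theorem MeanExists_Q_R_u (s u : G) (hu3 : u ^ 3 = 1) (hc : u * s ^ 2 = s ^ 2 * u) (φ : G → ℚ) :
    MeanExists_Q s u (MeanExists_R u φ) = MeanExists_Q s u φ := by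
  funext g
  simp only [MeanExists_Q_apply, MeanExists_R_apply]
  have h1 : g * s ^ 2 * u = g * u * s ^ 2 := by rw [mul_assoc, ← hc, mul_assoc]
  have h2 : g * u * u = g * u ^ 2 := by rw [mul_assoc, ← sq]
  have h3 : g * u * s ^ 2 * u = g * u ^ 2 * s ^ 2 := by
    rw [mul_assoc (g * u), ← hc, ← mul_assoc, h2]
  have h4 : g * u ^ 2 * u = g := by rw [mul_assoc, ← pow_succ, hu3, mul_one]
  have h5 : g * u ^ 2 * s ^ 2 * u = g * s ^ 2 := by
    rw [mul_assoc (g * u ^ 2), ← hc, ← mul_assoc, h4]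
  rw [h1, h2, h3, h4, h5]
  ring

theorem MeanExists_mem_W (s u : G) (hu3 : u ^ 3 = 1) (hc : u * s ^ 2 = s ^ 2 * u)
    (hgen : Subgroup.closure {s, u} = ⊤) (t : G) :
    ∀ η : G → ℚ, MeanExists_Q s u (MeanExists_R t η) - MeanExists_Q s u η ∈
      LinearMap.range (MeanExists_Q s u ∘ₗ (1 - MeanExists_R s)) := by
  have ht : t ∈ Subgroup.closure {s, u} := by rw [hgen]; trivial
  induction ht using Subgroup.closure_induction with
  | mem x hx =>
    intro η
    rcases hx with rfl | hx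
    · refine ⟨-η, ?_⟩
      simp only [LinearMap.comp_apply, LinearMap.sub_apply, Module.End.one_apply, map_neg, map_sub]
      abel
    · rw [Set.mem_singleton_iff] at hx
      subst hx
      rw [MeanExists_Q_R_u s x hu3 hc, sub_self]
      exact Submodule.zero_mem _
  | one =>
    intro η
    have : MeanExists_R (1 : G) η = η := by
      funext g; rw [MeanExists_R_apply, mul_one]
    rw [this, sub_self]
    exact Submodule.zero_mem _
  | mul x y _ _ hx hy =>
    intro η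
    have : MeanExists_R (x * y) η = MeanExists_R x (MeanExists_R y η) := by
      funext g; simp only [MeanExists_R_apply, mul_assoc]
    rw [this]
    have := Submodule.add_mem _ (hx (MeanExists_R y η)) (hy η)
    rwa [sub_add_sub_cancel] at this
  | inv x _ hx =>
    intro η
    have : MeanExists_R x (MeanExists_R x⁻¹ η) = η := by
      funext g; simp only [MeanExists_R_apply, mul_assoc, mul_inv_cancel, mul_one]
    have h := Submodule.neg_mem _ (hx (MeanExists_R x⁻¹ η))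
    rwa [this, neg_sub] at h

/-- every sum-zero function on the triangles is the divergence of a flow. -/
theorem MeanExists_flow [Fintype G] (s u : G) (hs4 : s ^ 4 = 1) (hu3 : u ^ 3 = 1)
    (hc : u * s ^ 2 = s ^ 2 * u) (hgen : Subgroup.closure {s, u} = ⊤) (F : G → ℚ)
    (hFu : ∀ g, F (g * u) = F g) (hFs : ∀ g, F (g * s ^ 2) = F g) (hsum : ∑ g, F g = 0) :
    ∃ ξ : G → ℚ, (∀ g, ξ (g * s) = - ξ g) ∧ ∀ g, ξ g + ξ (g * u) + ξ (g * u ^ 2) = F g := by
  set W := LinearMap.range (MeanExists_Q s u ∘ₗ (1 - MeanExists_R s)) with hW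
  have hQF : MeanExists_Q s u F = (6 : ℚ) • F := by
    funext g
    have h2 : F (g * u ^ 2) = F g := by rw [sq, ← mul_assoc, hFu, hFu]
    simp only [MeanExists_Q_apply, hFs, hFu, h2, Pi.smul_apply, smul_eq_mul]
    ring
  have hz : ∑ t : G, MeanExists_R t F = 0 := by
    funext g
    rw [Finset.sum_apply]
    simp only [MeanExists_R_apply, Pi.zero_apply]
    rw [← hsum]
    exact Fintype.sum_equiv (Equiv.mulLeft g) _ _ (fun _ => rfl)
  have h1 : ∑ t : G, (MeanExists_Q s u (MeanExists_R t F) - MeanExists_Q s u F) ∈ W :=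
    Submodule.sum_mem _ fun t _ => MeanExists_mem_W s u hu3 hc hgen t F
  rw [Finset.sum_sub_distrib, ← map_sum, hz, map_zero, zero_sub, Finset.sum_const, hQF,
    Finset.card_univ] at h1
  have hcard : (Fintype.card G : ℚ) ≠ 0 := by
    exact_mod_cast Fintype.card_ne_zero
  have h2 : F ∈ W := by
    have h3 := W.smul_mem (-(Fintype.card G * 6 : ℚ)⁻¹) h1
    have h4 : (-(Fintype.card G * 6 : ℚ)⁻¹) • (-(Fintype.card G • (6 : ℚ) • F)) = F := by
      rw [smul_neg, neg_smul, neg_neg, ← Nat.cast_smul_eq_nsmul ℚ, smul_smul, smul_smul, mul_assoc,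
        inv_mul_cancel₀ (mul_ne_zero hcard (by norm_num)), one_smul]
    rwa [h4] at h3
  obtain ⟨η, hη⟩ := h2
  refine ⟨(1 + MeanExists_R (s ^ 2)) ((1 - MeanExists_R s) η), ?_, ?_⟩
  · intro g
    simp only [LinearMap.add_apply, LinearMap.sub_apply, Module.End.one_apply, Pi.add_apply,
      Pi.sub_apply, MeanExists_R_apply, map_sub]
    have e1 : g * s * s = g * s ^ 2 := by rw [mul_assoc, ← sq]
    have e2 : g * s * s ^ 2 * s = g := by
      rw [mul_assoc, mul_assoc, ← pow_succ, ← pow_succ', hs4, mul_one]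
    have e3 : g * s * s ^ 2 = g * s ^ 2 * s := by
      rw [mul_assoc, mul_assoc, ← pow_succ, ← pow_succ']
    rw [e1, e2, e3]
    ring
  · intro g
    rw [← hη]
    rfl

end Flow

/-! ## derived symmetries -/

theorem IsSm2.homog₂ {M : ℕ} {w : V2 → V2 → V2 → ℚ} (hw : IsSm2 M w) (c : ℚ) (x y z : V2)
    (hc : c ≠ 0) : w x (c • y) z = w x y z := by
  rw [← hw.rot x (c • y) z, hw.homog c y z x hc, hw.rot]

theorem IsSm2.homog₃ {M : ℕ} {w : V2 → V2 → V2 → ℚ} (hw : IsSm2 M w) (c : ℚ) (x y z : V2)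
    (hc : c ≠ 0) : w x y (c • z) = w x y z := by
  rw [hw.rot (c • z) x y, hw.homog c z x y hc, ← hw.rot z x y]

theorem IsSm2.swap₂₃ {M : ℕ} {w : V2 → V2 → V2 → ℚ} (hw : IsSm2 M w) (x y z : V2) :
    w x z y = - w x y z := by
  rw [← hw.rot x z y, hw.swap y z x, hw.rot x y z]

theorem IsSm2.sub_orc {M : ℕ} {w : V2 → V2 → V2 → ℚ} (hw : IsSm2 M w) (c : ℚ) :
    IsSm2 M (fun x y z => w x y z - c * orc x y z) where
  homog a x y z ha := by simp only [hw.homog a x y z ha, orc_smul a ha x y z]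
  swap x y z := by simp only [hw.swap x y z, orc_swap x y z]; ring
  rot x y z := by simp only [hw.rot x y z, orc_rot x y z]
  cocycle x y z t hx hy hz ht := by
    have h1 := hw.cocycle x y z t hx hy hz ht
    have h2 := orc_cocycle x y z t hx hy hz ht
    linear_combination h1 - c * h2
  inv γ hγ x y z := by
    simp only [hw.inv γ hγ x y z, orc_mulVec (sl γ) (by rw [sl_det]; norm_num) x y z]

/-! ## matrices -/

theorem MeanExists_sl_Ur_e₁ : sl Ur *ᵥ e₁ = e₂ := by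
  ext i
  fin_cases i <;> simp [sl, zq, Ur, e₁, e₂, Matrix.mulVec, dotProduct, Fin.sum_univ_two]

theorem MeanExists_sl_Ur_e₂ : sl Ur *ᵥ e₂ = (-1 : ℚ) • e₃ := by
  ext i
  fin_cases i <;> simp [sl, zq, Ur, e₂, e₃, Matrix.mulVec, dotProduct, Fin.sum_univ_two]

theorem MeanExists_sl_Ur_e₃ : sl Ur *ᵥ e₃ = (-1 : ℚ) • e₁ := by
  ext i
  fin_cases i <;> simp [sl, zq, Ur, e₁, e₃, Matrix.mulVec, dotProduct, Fin.sum_univ_two]

theorem MeanExists_sl_S2 (v : V2) : sl (S ^ 2) *ᵥ v = (-1 : ℚ) • v := by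
  have h : (S ^ 2 : SL(2, ℤ)) = -1 := by decide
  rw [h]
  ext i
  fin_cases i <;> simp [sl, zq, Matrix.mulVec, dotProduct, Fin.sum_univ_two]

theorem MeanExists_T_eq : T = Ur ^ 2 * S := by decide

theorem MeanExists_Ur_eq : Ur = Tl * S := by decide

theorem MeanExists_tri_Ur {M : ℕ} {w : V2 → V2 → V2 → ℚ} (hw : IsSm2 M w) (g : SL(2, ℤ)) :
    tri w (g * Ur) = tri w g := by
  unfold tri
  rw [sl_mul_mulVec, sl_mul_mulVec, sl_mul_mulVec, MeanExists_sl_Ur_e₁, MeanExists_sl_Ur_e₂,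
    MeanExists_sl_Ur_e₃, Matrix.mulVec_smul, Matrix.mulVec_smul, hw.homog₂ _ _ _ _ (by norm_num),
    hw.homog₃ _ _ _ _ (by norm_num), hw.rot]

theorem MeanExists_tri_S2 {M : ℕ} {w : V2 → V2 → V2 → ℚ} (hw : IsSm2 M w) (g : SL(2, ℤ)) :
    tri w (g * S ^ 2) = tri w g := by
  unfold tri
  rw [sl_mul_mulVec, sl_mul_mulVec, sl_mul_mulVec, MeanExists_sl_S2, MeanExists_sl_S2,
    MeanExists_sl_S2, Matrix.mulVec_smul, Matrix.mulVec_smul, Matrix.mulVec_smul,
    hw.homog _ _ _ _ (by norm_num), hw.homog₂ _ _ _ _ (by norm_num),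
    hw.homog₃ _ _ _ _ (by norm_num)]

theorem MeanExists_tri_LInv {M : ℕ} {w : V2 → V2 → V2 → ℚ} (hw : IsSm2 M w) :
    LInv (Gamma M) (tri w) := by
  intro γ hγ g
  unfold tri
  rw [sl_mul_mulVec, sl_mul_mulVec, sl_mul_mulVec, hw.inv γ hγ]

/-! ## the flow on `Γ(M) \ SL(2,ℤ)` -/

theorem MeanExists_xi_aux {G : Type*} [Group G] [Fintype G] (mk : SL(2, ℤ) →* G)
    (hmk : Function.Surjective mk) (Γ : Subgroup SL(2, ℤ)) (hker : ∀ γ, mk γ = 1 ↔ γ ∈ Γ)
    (F : SL(2, ℤ) → ℚ) (hF : LInv Γ F)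
    (hFu : ∀ g, F (g * Ur) = F g) (hFs : ∀ g, F (g * S ^ 2) = F g) :
    ∃ (c : ℚ) (ξ : SL(2, ℤ) → ℚ), LInv Γ ξ ∧ (∀ g, ξ (g * S) = - ξ g) ∧
      ∀ g, ξ g - ξ (g * T) - ξ (g * Tl) = F g - c := by
  classical
  set FG : G → ℚ := fun x => F (Function.surjInv hmk x) with hFGdef
  have hFG : ∀ g, FG (mk g) = F g := by
    intro g
    have h1 : mk (Function.surjInv hmk (mk g) * g⁻¹) = 1 := by
      rw [map_mul, Function.surjInv_eq hmk, map_inv, mul_inv_cancel]
    have h2 := hF _ ((hker _).mp h1) g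
    rwa [inv_mul_cancel_right] at h2
  set c : ℚ := (∑ x, FG x) / Fintype.card G with hc
  have hcard : (Fintype.card G : ℚ) ≠ 0 := by
    exact_mod_cast Fintype.card_ne_zero
  have hT : mk T = mk Ur ^ 2 * mk S := by
    rw [← map_pow, ← map_mul, ← MeanExists_T_eq]
  have hUr : mk Ur = mk Tl * mk S := by
    rw [← map_mul, ← MeanExists_Ur_eq]
  have hs_mem : mk S ∈ Subgroup.closure ({mk S, mk Ur} : Set G) :=
    Subgroup.subset_closure (Set.mem_insert _ _)
  have hu_mem : mk Ur ∈ Subgroup.closure ({mk S, mk Ur} : Set G) :=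
    Subgroup.subset_closure (Set.mem_insert_of_mem _ (Set.mem_singleton _))
  have hgen : Subgroup.closure {mk S, mk Ur} = ⊤ := by
    rw [eq_top_iff, ← Subgroup.map_top_of_surjective mk hmk, ← SpecialLinearGroup.SL2Z_generators,
      MonoidHom.map_closure, Subgroup.closure_le]
    rintro _ ⟨x, hx, rfl⟩
    rcases hx with hx | hx
    · rw [hx]
      exact hs_mem
    · rw [Set.mem_singleton_iff] at hx
      rw [hx, hT]
      exact Subgroup.mul_mem _ (Subgroup.pow_mem _ hu_mem _) hs_mem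
  have hS4 : mk S ^ 4 = 1 := by
    rw [← map_pow, show (S ^ 4 : SL(2, ℤ)) = 1 by decide, map_one]
  have hU3 : mk Ur ^ 3 = 1 := by
    rw [← map_pow, show (Ur ^ 3 : SL(2, ℤ)) = 1 by decide, map_one]
  have hcomm : mk Ur * mk S ^ 2 = mk S ^ 2 * mk Ur := by
    rw [← map_pow, ← map_mul, ← map_mul, show (Ur * S ^ 2 : SL(2, ℤ)) = S ^ 2 * Ur by decide]
  obtain ⟨ξ, hξs, hξ3⟩ := MeanExists_flow (mk S) (mk Ur) hS4 hU3 hcomm hgen (fun x => FG x - c)
    (by
      intro x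
      obtain ⟨g, rfl⟩ := hmk x
      simp only [← map_mul, hFG, hFu])
    (by
      intro x
      obtain ⟨g, rfl⟩ := hmk x
      simp only [← map_pow, ← map_mul, hFG, hFs])
    (by
      rw [Finset.sum_sub_distrib, Finset.sum_const, Finset.card_univ, nsmul_eq_mul, hc,
        mul_div_cancel₀ _ hcard, sub_self])
  refine ⟨c, fun g => ξ (mk g), ?_, ?_, ?_⟩
  · intro γ hγ g
    have : mk γ = 1 := (hker γ).mpr hγ
    simp only [map_mul, this, one_mul]
  · intro g
    simp only [map_mul, hξs]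
  · intro g
    have h1 : ξ (mk (g * T)) = - ξ (mk g * mk Ur ^ 2) := by
      rw [map_mul, hT, ← mul_assoc, hξs]
    have h2 : ξ (mk g * mk Ur) = - ξ (mk (g * Tl)) := by
      rw [hUr, ← mul_assoc, hξs, map_mul]
    have h3 := hξ3 (mk g)
    simp only [hFG] at h3
    rw [h2] at h3
    simp only [h1]
    linarith

theorem MeanExists_xi (M : ℕ) [NeZero M] (F : SL(2, ℤ) → ℚ) (hF : LInv (Gamma M) F)
    (hFu : ∀ g, F (g * Ur) = F g) (hFs : ∀ g, F (g * S ^ 2) = F g) :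
    ∃ (c : ℚ) (ξ : SL(2, ℤ) → ℚ), LInv (Gamma M) ξ ∧ (∀ g, ξ (g * S) = - ξ g) ∧
      ∀ g, ξ g - ξ (g * T) - ξ (g * Tl) = F g - c := by
  have : (Gamma M).Normal := Gamma_normal M
  let _ : Fintype (SL(2, ℤ) ⧸ Gamma M) := Fintype.ofFinite _
  exact MeanExists_xi_aux (QuotientGroup.mk' (Gamma M)) (QuotientGroup.mk'_surjective _) (Gamma M)
    (fun γ => QuotientGroup.eq_one_iff γ) F hF hFu hFs

/-! ## from the flow to a smooth primitive -/

theorem MeanExists_prim {M : ℕ} {w : V2 → V2 → V2 → ℚ} (hw : IsSm2 M w) (ξ : SL(2, ℤ) → ℚ)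
    (hξΓ : LInv (Gamma M) ξ) (hξS : ∀ g, ξ (g * S) = - ξ g)
    (hξ : ∀ g, ξ g - ξ (g * T) - ξ (g * Tl) = tri w g) :
    ∃ θ : V2 → V2 → ℚ, IsSm1 M θ ∧
      ∀ x y z : V2, x ≠ 0 → y ≠ 0 → z ≠ 0 → w x y z = θ y z - θ x z + θ x y := by
  classical
  -- `dη = w`
  have hdη : ∀ x y z : V2, x ≠ 0 → y ≠ 0 → z ≠ 0 →
      w x y z = w e₁ y z - w e₁ x z + w e₁ x y := by
    intro x y z hx hy hz
    have := hw.cocycle e₁ x y z e₁_ne_zero hx hy hz
    linarith
  set ζ : SL(2, ℤ) → ℚ := fun g => ξ g - w e₁ (sl g *ᵥ e₁) (sl g *ᵥ e₂) with hζ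
  have hζS : ∀ g, ζ (g * S) = - ζ g := by
    intro g
    simp only [hζ]
    rw [sl_mul_mulVec, sl_mul_mulVec, sl_S_e₁, sl_S_e₂, Matrix.mulVec_smul,
      hw.homog₃ _ _ _ _ (by norm_num), hw.swap₂₃, hξS]
    ring
  have hζT : ∀ g, ζ g = ζ (g * T) + ζ (g * Tl) := by
    intro g
    simp only [hζ]
    rw [sl_mul_mulVec, sl_mul_mulVec, sl_mul_mulVec, sl_mul_mulVec, sl_T_e₁, sl_T_e₂, sl_Tl_e₁,
      sl_Tl_e₂]
    have h1 := hξ g
    have h2 := hdη _ _ _ (sl_mulVec_ne_zero g e₁_ne_zero) (sl_mulVec_ne_zero g e₂_ne_zero)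
      (sl_mulVec_ne_zero g e₃_ne_zero)
    have h3 := hw.swap₂₃ e₁ (sl g *ᵥ e₂) (sl g *ᵥ e₃)
    unfold tri at h1
    linarith
  obtain ⟨ν, hν, hζν⟩ := farey_exact ζ hζS hζT
  set θ' : V2 → V2 → ℚ := fun a b => w e₁ a b + ν b - ν a with hθ'
  have hdθ' : ∀ x y z : V2, x ≠ 0 → y ≠ 0 → z ≠ 0 →
      w x y z = θ' y z - θ' x z + θ' x y := by
    intro x y z hx hy hz
    simp only [hθ']
    rw [hdη x y z hx hy hz]
    ring
  have hθ'ξ : ∀ g, θ' (sl g *ᵥ e₁) (sl g *ᵥ e₂) = ξ g := by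
    intro g
    have := hζν g
    simp only [hζ] at this
    simp only [hθ']
    linarith
  have hθ'h₁ : ∀ (c : ℚ) (a b : V2), c ≠ 0 → θ' (c • a) b = θ' a b := by
    intro c a b hc
    simp only [hθ']
    rw [hw.homog₂ _ _ _ _ hc, hν c a hc]
  have hθ'h₂ : ∀ (c : ℚ) (a b : V2), c ≠ 0 → θ' a (c • b) = θ' a b := by
    intro c a b hc
    simp only [hθ']
    rw [hw.homog₃ _ _ _ _ hc, hν c b hc]
  have hθ'alt : ∀ a b : V2, θ' b a = - θ' a b := by
    intro a b
    simp only [hθ']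
    rw [hw.swap₂₃ e₁ a b]
    ring
  have hθ'inv : ∀ γ ∈ Gamma M, ∀ a b : V2, a ≠ 0 → b ≠ 0 →
      θ' (sl γ *ᵥ a) (sl γ *ᵥ b) = θ' a b := by
    intro γ hγ
    set D : V2 → V2 → ℚ := fun a b => θ' (sl γ *ᵥ a) (sl γ *ᵥ b) - θ' a b with hD
    have hDc : ∀ x y z : V2, x ≠ 0 → y ≠ 0 → z ≠ 0 → D y z - D x z + D x y = 0 := by
      intro x y z hx hy hz
      have h1 := hdθ' x y z hx hy hz
      have h2 := hdθ' _ _ _ (sl_mulVec_ne_zero γ hx) (sl_mulVec_ne_zero γ hy)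
        (sl_mulVec_ne_zero γ hz)
      rw [hw.inv γ hγ] at h2
      simp only [hD]
      linarith
    have hμh : Homog (fun b => D e₁ b) := by
      intro c v hc
      simp only [hD]
      rw [Matrix.mulVec_smul, hθ'h₂ _ _ _ hc, hθ'h₂ _ _ _ hc]
    have hDe : ∀ g : SL(2, ℤ), D (sl g *ᵥ e₁) (sl g *ᵥ e₂) = 0 := by
      intro g
      simp only [hD]
      rw [← sl_mul_mulVec, ← sl_mul_mulVec, hθ'ξ, hθ'ξ, hξΓ γ hγ, sub_self]
    have hμe : ∀ g : SL(2, ℤ), D e₁ (sl g *ᵥ e₂) = D e₁ (sl g *ᵥ e₁) := by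
      intro g
      have h1 := hDc e₁ _ _ e₁_ne_zero (sl_mulVec_ne_zero g e₁_ne_zero)
        (sl_mulVec_ne_zero g e₂_ne_zero)
      rw [hDe] at h1
      linarith
    intro a b ha hb
    have h1 := farey_connected (fun b => D e₁ b) hμh hμe a b ha hb
    have h2 := hDc e₁ a b e₁_ne_zero ha hb
    have h3 : D a b = 0 := by linarith
    simp only [hD] at h3
    linarith
  refine ⟨fun a b => if a = 0 ∨ b = 0 then 0 else θ' a b, ⟨?_, ?_, ?_⟩, ?_⟩
  · intro c a b hc
    have : c • a = 0 ↔ a = 0 := by rw [smul_eq_zero]; simp [hc]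
    simp only [this, hθ'h₁ c a b hc]
  · intro a b
    by_cases h : a = 0 ∨ b = 0
    · rw [if_pos h, if_pos h.symm, neg_zero]
    · rw [if_neg h, if_neg (fun h' => h h'.symm), hθ'alt]
  · intro γ hγ a b
    have h0 : ∀ v : V2, sl γ *ᵥ v = 0 ↔ v = 0 := by
      intro v
      constructor
      · intro h
        by_contra hv
        exact sl_mulVec_ne_zero γ hv h
      · rintro rfl
        exact Matrix.mulVec_zero _
    by_cases h : a = 0 ∨ b = 0
    · simp only [h0, if_pos h]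
    · simp only [h0, if_neg h]
      exact hθ'inv γ hγ a b (fun h' => h (Or.inl h')) (fun h' => h (Or.inr h'))
  · intro x y z hx hy hz
    simp only [hx, hy, hz, or_self, if_false]
    exact hdθ' x y z hx hy hz

/-- (C2) existence of the mean. -/
theorem exists_hasMean (M : ℕ) (hM : 0 < M) (w : V2 → V2 → V2 → ℚ) (hw : IsSm2 M w) :
    ∃ c, HasMean w c := by
  have : NeZero M := ⟨hM.ne'⟩
  obtain ⟨c, ξ, hξΓ, hξS, hξ⟩ := MeanExists_xi M (tri w) (MeanExists_tri_LInv hw)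
    (MeanExists_tri_Ur hw) (MeanExists_tri_S2 hw)
  have hw₀ := hw.sub_orc c
  obtain ⟨θ, hθ, hd⟩ := MeanExists_prim hw₀ ξ hξΓ hξS (by
    intro g
    rw [hξ g]
    simp only [tri, tri_orc, mul_one])
  refine ⟨c, M, θ, hM, hθ, ?_⟩
  intro x y z hx hy hz
  have := hd x y z hx hy hz
  linarith

end Fermat.Agent.S41
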