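import Mathlib

/-!
# S41 / PD-E : the linear algebra behind the unimodularity of the Poincaré pairing

`X` is a finite set with an involution `σ` and a map `τ` of order three.
`W = {ξ : X → ℤ | ξ ∘ σ = - ξ, ξ + ξ ∘ τ + ξ ∘ τ² = 0}` is a saturated sublattice of `ℤ^X`, hence a
direct summand; its orthogonal complement over `ℚ` is `(σ-invariants) + (τ-invariants)`.
-/

set_option autoImplicit false

namespace Fermat.Agent.S41.PairingLA

variable {X : Type*}

/-- the lattice of closed `1`-cochains. -/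
def WZ (R : Type*) [Ring R] (σ τ : X → X) : Submodule R (X → R) where
  carrier := {ξ | (∀ x, ξ (σ x) = - ξ x) ∧ ∀ x, ξ x + ξ (τ x) + ξ (τ (τ x)) = 0}
  add_mem' := by
    rintro ξ η ⟨h1, h2⟩ ⟨h3, h4⟩
    refine ⟨fun x => ?_, fun x => ?_⟩
    · simp only [Pi.add_apply, h1, h3]; abel
    · have := h2 x
      have := h4 x
      simp only [Pi.add_apply]
      calc ξ x + η x + (ξ (τ x) + η (τ x)) + (ξ (τ (τ x)) + η (τ (τ x)))
          = (ξ x + ξ (τ x) + ξ (τ (τ x))) + (η x + η (τ x) + η (τ (τ x))) := by abel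
        _ = 0 := by rw [h2 x, h4 x, add_zero]
  zero_mem' := ⟨fun x => by simp, fun x => by simp⟩
  smul_mem' := by
    rintro c ξ ⟨h1, h2⟩
    refine ⟨fun x => ?_, fun x => ?_⟩
    · simp only [Pi.smul_apply, h1, smul_neg]
    · simp only [Pi.smul_apply, ← smul_add, h2, smul_zero]

theorem mem_WZ {R : Type*} [Ring R] {σ τ : X → X} {ξ : X → R} :
    ξ ∈ WZ R σ τ ↔ (∀ x, ξ (σ x) = - ξ x) ∧ ∀ x, ξ x + ξ (τ x) + ξ (τ (τ x)) = 0 := Iff.rfl

theorem WZ_saturated (σ τ : X → X) (n : ℤ) (hn : n ≠ 0) (ξ : X → ℤ) (h : n • ξ ∈ WZ ℤ σ τ) :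
    ξ ∈ WZ ℤ σ τ := by
  obtain ⟨h1, h2⟩ := h
  refine ⟨fun x => ?_, fun x => ?_⟩
  · have := h1 x
    simp only [Pi.smul_apply, smul_eq_mul] at this
    apply mul_left_cancel₀ hn
    rw [this]; ring
  · have := h2 x
    simp only [Pi.smul_apply, smul_eq_mul] at this
    apply mul_left_cancel₀ hn
    rw [mul_zero, ← this]; ring

/-- a saturated sublattice of a finite free `ℤ`-module is a direct summand. -/
theorem exists_proj [Finite X] (W : Submodule ℤ (X → ℤ))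
    (hW : ∀ (n : ℤ), n ≠ 0 → ∀ ξ : X → ℤ, n • ξ ∈ W → ξ ∈ W) :
    ∃ π : (X → ℤ) →ₗ[ℤ] (X → ℤ), (∀ v, π v ∈ W) ∧ ∀ w ∈ W, π w = w := by
  have : Module.IsTorsionFree ℤ ((X → ℤ) ⧸ W) := by
    refine Module.IsTorsionFree.of_smul_eq_zero fun r m h => ?_
    obtain ⟨v, rfl⟩ := Submodule.Quotient.mk_surjective W m
    by_cases hr : r = 0
    · exact Or.inl hr
    · right
      rw [← Submodule.Quotient.mk_smul, Submodule.Quotient.mk_eq_zero] at h
      rw [Submodule.Quotient.mk_eq_zero]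
      exact hW r hr v h
  have : Module.Free ℤ ((X → ℤ) ⧸ W) := Module.free_of_finite_type_torsion_free'
  obtain ⟨s, hs⟩ := Module.projective_lifting_property W.mkQ LinearMap.id W.mkQ_surjective
  refine ⟨LinearMap.id - s ∘ₗ W.mkQ, fun v => ?_, fun w hw => ?_⟩
  · rw [← Submodule.Quotient.mk_eq_zero W, ← Submodule.mkQ_apply, LinearMap.sub_apply, map_sub]
    have := LinearMap.congr_fun hs (W.mkQ v)
    simp only [LinearMap.comp_apply, LinearMap.id_apply] at this ⊢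
    rw [this, sub_self]
  · have h0 : W.mkQ w = 0 := by rwa [Submodule.mkQ_apply, Submodule.Quotient.mk_eq_zero]
    simp [h0]

/-- the indicator function of a point. -/
def dl (R : Type*) [Zero R] [One R] [DecidableEq X] (x : X) : X → R := fun j => if x = j then 1 else 0

/-- functions invariant under `σ`. -/
def Inv (σ : X → X) : Submodule ℚ (X → ℚ) where
  carrier := {a | ∀ x, a (σ x) = a x}
  add_mem' := fun {a b} ha hb x => by simp only [Pi.add_apply, ha x, hb x]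
  zero_mem' := fun x => rfl
  smul_mem' := fun c a ha x => by simp only [Pi.smul_apply, ha x]

theorem orth_mem_sup [Fintype X] [DecidableEq X] (σ τ : X → X) (hσ : ∀ x, σ (σ x) = x)
    (hτ : ∀ x, τ (τ (τ x)) = x) (F₁ : X → ℤ)
    (h : ∀ ξ ∈ WZ ℤ σ τ, ∑ x, ξ x * F₁ x = 0) :
    (fun x => (F₁ x : ℚ)) ∈ Inv σ ⊔ Inv τ := by
  by_contra hcon
  obtain ⟨f, hf, hle⟩ := Submodule.exists_le_ker_of_notMem hcon
  have hfor : ∀ v : X → ℚ, f v = ∑ x, v x * f (dl ℚ x) := fun v => by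
    rw [LinearMap.pi_apply_eq_sum_univ f v]
    rfl
  have h1 : ∀ x, f (dl ℚ (σ x)) = - f (dl ℚ x) := by
    intro x
    have hmem : dl ℚ x + dl ℚ (σ x) ∈ Inv σ := by
      intro y
      have e1 : x = σ y ↔ σ x = y := ⟨fun h => by rw [h, hσ], fun h => by rw [← h, hσ]⟩
      have e2 : σ x = σ y ↔ x = y := ⟨fun h => by rw [← hσ x, h, hσ], fun h => by rw [h]⟩
      simp only [Pi.add_apply, dl, e1, e2]
      ring
    have := hle (Submodule.mem_sup_left hmem)
    rw [LinearMap.mem_ker, map_add] at this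
    linarith
  have h2 : ∀ x, f (dl ℚ x) + f (dl ℚ (τ x)) + f (dl ℚ (τ (τ x))) = 0 := by
    intro x
    have hmem : dl ℚ x + dl ℚ (τ x) + dl ℚ (τ (τ x)) ∈ Inv τ := by
      intro y
      have e1 : x = τ y ↔ τ (τ x) = y := ⟨fun h => by rw [h, hτ], fun h => by rw [← h, hτ]⟩
      have e2 : τ x = τ y ↔ x = y :=
        ⟨fun h => by rw [← hτ x, h, hτ], fun h => by rw [h]⟩
      have e3 : τ (τ x) = τ y ↔ τ x = y :=
        ⟨fun h => by rw [← hτ y, ← h, hτ], fun h => by rw [h]⟩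
      simp only [Pi.add_apply, dl, e1, e2, e3]
      ring
    have := hle (Submodule.mem_sup_right hmem)
    rw [LinearMap.mem_ker, map_add, map_add] at this
    exact this
  obtain ⟨b, hb⟩ := IsLocalization.exist_integer_multiples_of_finite (nonZeroDivisors ℤ)
    (fun x => f (dl ℚ x))
  choose ξ hξ using hb
  have hb0 : ((b : ℤ) : ℚ) ≠ 0 := by
    exact_mod_cast nonZeroDivisors.coe_ne_zero b
  have hξ' : ∀ x, (ξ x : ℚ) = (b : ℤ) * f (dl ℚ x) := by
    intro x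
    have := hξ x
    simpa [Algebra.smul_def] using this
  have hmem : ξ ∈ WZ ℤ σ τ := by
    refine ⟨fun x => ?_, fun x => ?_⟩
    · have : ((ξ (σ x) : ℤ) : ℚ) = ((- ξ x : ℤ) : ℚ) := by
        push_cast
        rw [hξ', hξ', h1]; ring
      exact_mod_cast this
    · have : ((ξ x + ξ (τ x) + ξ (τ (τ x)) : ℤ) : ℚ) = ((0 : ℤ) : ℚ) := by
        push_cast
        rw [hξ', hξ', hξ', ← mul_add, ← mul_add, h2, mul_zero]
      exact_mod_cast this
  have h3 := h ξ hmem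
  apply hf
  rw [hfor]
  apply mul_left_cancel₀ hb0
  rw [mul_zero, Finset.mul_sum]
  have : ((∑ x, ξ x * F₁ x : ℤ) : ℚ) = 0 := by rw [h3]; rfl
  rw [← this]
  push_cast
  refine Finset.sum_congr rfl fun x _ => ?_
  rw [hξ']; ring

/-- the main lemma. -/
theorem main [Fintype X] [DecidableEq X] (σ τ : X → X) (hσ : ∀ x, σ (σ x) = x)
    (hτ : ∀ x, τ (τ (τ x)) = x) (p : ℤ) (F₀ : X → ℤ)
    (h : ∀ ξ : X → ℤ, (∀ x, ξ (σ x) = - ξ x) → (∀ x, ξ x + ξ (τ x) + ξ (τ (τ x)) = 0) →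
      p ∣ ∑ x, ξ x * F₀ x) :
    ∃ (G₀ : X → ℤ) (a c : X → ℚ), (∀ x, a (σ x) = a x) ∧ (∀ x, c (τ x) = c x) ∧
      ∀ x, (F₀ x : ℚ) = p * G₀ x + a x + c x := by
  obtain ⟨π, hπ1, hπ2⟩ := exists_proj (WZ ℤ σ τ) (WZ_saturated σ τ)
  have hdiv : ∀ x, p ∣ ∑ y, π (dl ℤ x) y * F₀ y := fun x =>
    h _ (hπ1 (dl ℤ x)).1 (hπ1 (dl ℤ x)).2
  choose G₀ hG₀ using hdiv
  have horth : ∀ ξ ∈ WZ ℤ σ τ, ∑ x, ξ x * (F₀ x - p * G₀ x) = 0 := by
    intro ξ hξ
    have e1 : ∑ x, ξ x * (p * G₀ x) = ∑ y, ξ y * F₀ y := by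
      have e2 : ξ = ∑ x, ξ x • π (dl ℤ x) := by
        conv_lhs => rw [← hπ2 ξ hξ, LinearMap.pi_apply_eq_sum_univ π ξ]
        rfl
      conv_rhs => rw [e2]
      simp only [Finset.sum_apply, Pi.smul_apply, smul_eq_mul, Finset.sum_mul]
      rw [Finset.sum_comm]
      refine Finset.sum_congr rfl fun x _ => ?_
      rw [← hG₀ x, Finset.mul_sum]
      refine Finset.sum_congr rfl fun y _ => ?_
      ring
    simp only [mul_sub, Finset.sum_sub_distrib, e1, sub_self]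
  have hmem := orth_mem_sup σ τ hσ hτ (fun x => F₀ x - p * G₀ x) horth
  obtain ⟨a, ha, c, hc, hac⟩ := Submodule.mem_sup.1 hmem
  refine ⟨G₀, a, c, ha, hc, fun x => ?_⟩
  have := congrFun hac x
  simp only [Pi.add_apply] at this
  push_cast at this
  linarith

end Fermat.Agent.S41.PairingLA
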