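import Fermat.Agent.S41.PD.Farey
import Fermat.Agent.S41.PD.MeanUnique
import Fermat.Agent.S41.PD.MeanExists
import Fermat.Agent.S41.PD.Prim
import Fermat.Agent.S41.PD.PairingLA

/-!
# S41 / PD-E : the integral Poincaré pairing on `Lat M` and its unimodularity
-/

set_option autoImplicit false
set_option linter.unusedSectionVars false
open CongruenceSubgroup Matrix ModularGroup
open scoped MatrixGroups

namespace Fermat.Agent.S41

namespace Pairing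

open MeanUnique

/-! ### the action of `Ur`, `S` on the standard triangle -/

theorem sl_Ur_e₁ : sl Ur *ᵥ e₁ = e₂ := by
  ext i; fin_cases i <;> simp [sl, zq, Ur, e₁, e₂, Matrix.mulVec, dotProduct, Fin.sum_univ_two]

theorem sl_Ur_e₂ : sl Ur *ᵥ e₂ = (-1 : ℚ) • e₃ := by
  ext i; fin_cases i <;> simp [sl, zq, Ur, e₂, e₃, Matrix.mulVec, dotProduct, Fin.sum_univ_two]

theorem sl_Ur_e₃ : sl Ur *ᵥ e₃ = (-1 : ℚ) • e₁ := by
  ext i; fin_cases i <;> simp [sl, zq, Ur, e₁, e₃, Matrix.mulVec, dotProduct, Fin.sum_univ_two]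

section vals

variable {R : Type*} {k : V2 → R} (hk : Homog k) (g : SL(2, ℤ))
include hk

theorem val_Ur₁ : k (sl (g * Ur) *ᵥ e₁) = k (sl g *ᵥ e₂) := by
  rw [sl_mul_mulVec, sl_Ur_e₁]

theorem val_Ur₂ : k (sl (g * Ur) *ᵥ e₂) = k (sl g *ᵥ e₃) := by
  rw [sl_mul_mulVec, sl_Ur_e₂, Matrix.mulVec_smul, hk _ _ (by norm_num)]

theorem val_Ur₃ : k (sl (g * Ur) *ᵥ e₃) = k (sl g *ᵥ e₁) := by
  rw [sl_mul_mulVec, sl_Ur_e₃, Matrix.mulVec_smul, hk _ _ (by norm_num)]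

theorem val_S₁ : k (sl (g * S) *ᵥ e₁) = k (sl g *ᵥ e₂) := by
  rw [sl_mul_mulVec, sl_S_e₁]

theorem val_S₂ : k (sl (g * S) *ᵥ e₂) = k (sl g *ᵥ e₁) := by
  rw [sl_mul_mulVec, sl_S_e₂, Matrix.mulVec_smul, hk _ _ (by norm_num)]

end vals

/-! ### the integral formula for the pairing -/

/-- the `1`-cochain `dk` on the oriented Farey edges. -/
def kap (k : V2 → ℤ) (g : SL(2, ℤ)) : ℤ := k (sl g *ᵥ e₂) - k (sl g *ᵥ e₁)

/-- a normalisation attached to the Farey triangle `g`. -/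
def rr (k : V2 → ℤ) (g : SL(2, ℤ)) : ℤ :=
  max (max (k (sl g *ᵥ e₁)) (k (sl g *ᵥ e₂))) (k (sl g *ᵥ e₃))

/-- the value at the opposite vertex, normalised. -/
def F0 (k : V2 → ℤ) (g : SL(2, ℤ)) : ℤ := k (sl g *ᵥ e₃) - rr k g

/-- the integral pairing of two primitives. -/
noncomputable def bb (Γ : Subgroup SL(2, ℤ)) [Γ.FiniteIndex] (k k' : V2 → ℤ) : ℤ :=
  cs Γ (fun g => kap k g * F0 k' g)

theorem rr_Ur {k : V2 → ℤ} (hk : Homog k) (g : SL(2, ℤ)) : rr k (g * Ur) = rr k g := by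
  unfold rr
  rw [val_Ur₁ hk, val_Ur₂ hk, val_Ur₃ hk, max_comm, ← max_assoc]

section qi

variable {Γ : Subgroup SL(2, ℤ)} {φ : Additive Γ →+ ℤ} {k : V2 → ℤ} (hk : IsQI Γ φ k)
include hk

theorem qi_val (γ : Γ) (g : SL(2, ℤ)) {v : V2} (hv : v ≠ 0) :
    k (sl ((γ : SL(2, ℤ)) * g) *ᵥ v) = k (sl g *ᵥ v) + φ (Additive.ofMul γ) := by
  rw [sl_mul_mulVec, hk.qi γ _ (sl_mulVec_ne_zero g hv)]

theorem rr_qi (γ : Γ) (g : SL(2, ℤ)) :
    rr k ((γ : SL(2, ℤ)) * g) = rr k g + φ (Additive.ofMul γ) := by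
  unfold rr
  rw [qi_val hk γ g e₁_ne_zero, qi_val hk γ g e₂_ne_zero, qi_val hk γ g e₃_ne_zero,
    max_add_add_right, max_add_add_right]

theorem lInv_kap : LInv Γ (kap k) := by
  intro γ hγ g
  unfold kap
  rw [qi_val hk ⟨γ, hγ⟩ g e₁_ne_zero, qi_val hk ⟨γ, hγ⟩ g e₂_ne_zero]
  ring

theorem lInv_F0 : LInv Γ (F0 k) := by
  intro γ hγ g
  unfold F0
  rw [qi_val hk ⟨γ, hγ⟩ g e₃_ne_zero, rr_qi hk ⟨γ, hγ⟩ g]
  ring

end qi

theorem tri_om_eq {k k' : V2 → ℤ} (hk : Homog k) (hk' : Homog k') (g : SL(2, ℤ)) :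
    tri (om k k') g = kap k g * F0 k' g + kap k (g * Ur) * F0 k' (g * Ur)
      + kap k (g * Ur * Ur) * F0 k' (g * Ur * Ur) := by
  unfold tri om kap F0
  simp only [rr_Ur hk', val_Ur₁ hk, val_Ur₂ hk, val_Ur₃ hk, val_Ur₁ hk', val_Ur₃ hk']
  ring

theorem cs_tri_om {Γ : Subgroup SL(2, ℤ)} [Γ.FiniteIndex] {φ φ' : Additive Γ →+ ℤ}
    {k k' : V2 → ℤ} (hk : IsQI Γ φ k) (hk' : IsQI Γ φ' k') :
    cs Γ (tri (om k k')) = 3 * bb Γ k k' := by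
  have hP : LInv Γ (fun g => kap k g * F0 k' g) := by
    intro γ hγ g
    show kap k (γ * g) * F0 k' (γ * g) = _
    rw [lInv_kap hk γ hγ, lInv_F0 hk' γ hγ]
  have h1 := cs_mul_right Γ _ hP Ur
  have h2 := cs_mul_right Γ _ hP (Ur * Ur)
  have h3 : tri (om k k') = fun g => ((fun g => kap k g * F0 k' g) g
      + (fun g => kap k (g * Ur) * F0 k' (g * Ur)) g)
      + (fun g => kap k (g * (Ur * Ur)) * F0 k' (g * (Ur * Ur))) g := by
    funext g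
    simp only [← mul_assoc]
    exact tri_om_eq hk.homog hk'.homog g
  rw [h3, cs_add, cs_add, h1, h2]
  unfold bb
  ring

/-! ### the mean of the area cocycle -/

theorem Gamma_le_Gamma0 (M : ℕ) : Gamma M ≤ Gamma0 M := by
  intro γ hγ
  rw [Gamma_mem] at hγ
  rw [Gamma0_mem]
  exact hγ.2.2.1

theorem isQI_cast {Γ : Subgroup SL(2, ℤ)} {φ : Additive Γ →+ ℤ} {k : V2 → ℤ} (hk : IsQI Γ φ k) :
    IsQI Γ ((Int.castAddHom ℚ).comp φ) (fun v => (k v : ℚ)) := hk.map (Int.castAddHom ℚ)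

theorem hasMean_bb (M : ℕ) [NeZero M] {φ φ' : Additive (Gamma0 M) →+ ℤ} {k k' : V2 → ℤ}
    (hk : IsQI (Gamma0 M) φ k) (hk' : IsQI (Gamma0 M) φ' k') :
    HasMean (om (fun v => (k v : ℚ)) (fun v => (k' v : ℚ)))
      (3 * (bb (Gamma0 M) k k' : ℚ) / ((Gamma0 M).index : ℚ)) := by
  have h1 := isQI_cast hk
  have h2 := isQI_cast hk'
  have h3 := isSm2_om0 M _ _ _ _ (h1.mono (Gamma_le_Gamma0 M)) (h2.mono (Gamma_le_Gamma0 M))
  obtain ⟨c, hc⟩ := exists_hasMean M (NeZero.pos M) _ h3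
  rw [hasMean_om0_iff] at hc
  have h4 := hc.cs_eq (Gamma0 M) (lInv_tri_om h1 h2)
  have h5 : tri (om (fun v => (k v : ℚ)) (fun v => (k' v : ℚ)))
      = fun g => Int.castAddHom ℚ (tri (om k k') g) := by
    funext g
    simp [tri, om]
  rw [h5, cs_map, cs_tri_om hk hk'] at h4
  have h6 : ((Gamma0 M).index : ℚ) ≠ 0 := by
    exact_mod_cast Subgroup.FiniteIndex.index_ne_zero
  have h7 : c = 3 * (bb (Gamma0 M) k k' : ℚ) / ((Gamma0 M).index : ℚ) := by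
    rw [eq_div_iff h6, ← h4]
    simp
  rw [← h7]
  exact hc

/-- the area cocycle of an invariant function and a primitive is a smooth coboundary. -/
theorem hasMean_om_inv (M : ℕ) [NeZero M] {φ' : Additive (Gamma0 M) →+ ℚ} {c₀ k' : V2 → ℚ}
    (hc : IsQI (Gamma0 M) 0 c₀) (hk' : IsQI (Gamma0 M) φ' k') : HasMean (om c₀ k') 0 := by
  classical
  refine ⟨M, fun a b => if a = 0 ∨ b = 0 then 0 else (k' b - k' a) * (c₀ a + c₀ b), NeZero.pos M,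
    ⟨?_, ?_, ?_⟩, ?_⟩
  · intro c a b hc0
    simp only [Prim.smul_eq_zero_iff hc0, hc.homog c a hc0, hk'.homog c a hc0]
  · intro a b
    by_cases h : a = 0 ∨ b = 0
    · rw [if_pos h, if_pos h.symm, neg_zero]
    · rw [if_neg h, if_neg (fun h' => h h'.symm)]
      ring
  · intro γ hγ a b
    simp only [Prim.sl_mulVec_eq_zero_iff]
    by_cases h : a = 0 ∨ b = 0
    · rw [if_pos h, if_pos h]
    · rw [if_neg h, if_neg h]
      push Not at h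
      have hγ' := Gamma_le_Gamma0 M hγ
      have e1 := hk'.sub_inv ⟨γ, hγ'⟩ h.1 h.2
      have e2 := hc.qi ⟨γ, hγ'⟩ a h.1
      have e3 := hc.qi ⟨γ, hγ'⟩ b h.2
      simp only [AddMonoidHom.zero_apply, add_zero] at e1 e2 e3
      rw [e1, e2, e3]
  · intro x y z hx hy hz
    simp only [hx, hy, hz, or_self, if_false]
    unfold om
    ring

theorem om_swap {R : Type*} [CommRing R] (k k' : V2 → R) (x y z : V2) :
    om k' k x y z = - om k k' x y z := by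
  unfold om; ring

theorem bb_swap {Γ : Subgroup SL(2, ℤ)} [Γ.FiniteIndex] {φ φ' : Additive Γ →+ ℤ}
    {k k' : V2 → ℤ} (hk : IsQI Γ φ k) (hk' : IsQI Γ φ' k') : bb Γ k' k = - bb Γ k k' := by
  have h1 := cs_tri_om hk hk'
  have h2 := cs_tri_om hk' hk
  have h3 : tri (om k' k) = fun g => - tri (om k k') g := by
    funext g
    exact om_swap _ _ _ _ _
  rw [h3, cs_neg, h1] at h2
  linarith

/-- independence of the primitive (first variable). -/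
theorem bb_indep_left (M : ℕ) [NeZero M] {φ φ' : Additive (Gamma0 M) →+ ℤ} {k₁ k₂ k' : V2 → ℤ}
    (hk₁ : IsQI (Gamma0 M) φ k₁) (hk₂ : IsQI (Gamma0 M) φ k₂) (hk' : IsQI (Gamma0 M) φ' k') :
    bb (Gamma0 M) k₁ k' = bb (Gamma0 M) k₂ k' := by
  have m1 := hasMean_bb M hk₁ hk'
  have m2 := hasMean_bb M hk₂ hk'
  have h0 : IsQI (Gamma0 M) 0 (fun v => (k₁ v : ℚ) - (k₂ v : ℚ)) := by
    have := (isQI_cast hk₁).sub (isQI_cast hk₂)
    rwa [sub_self] at this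
  have m3 := hasMean_om_inv M h0 (isQI_cast hk')
  have m4 := m2.add m3
  have e : (fun x y z => om (fun v => (k₂ v : ℚ)) (fun v => (k' v : ℚ)) x y z
      + om (fun v => (k₁ v : ℚ) - (k₂ v : ℚ)) (fun v => (k' v : ℚ)) x y z)
      = om (fun v => (k₁ v : ℚ)) (fun v => (k' v : ℚ)) := by
    funext x y z
    unfold om
    ring
  rw [e] at m4
  have h := m1.unique m4
  have h6 : ((Gamma0 M).index : ℚ) ≠ 0 := by
    exact_mod_cast Subgroup.FiniteIndex.index_ne_zero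
  rw [add_zero, div_left_inj' h6] at h
  have h7 : (bb (Gamma0 M) k₁ k' : ℚ) = bb (Gamma0 M) k₂ k' := by linarith
  exact_mod_cast h7

theorem bb_indep (M : ℕ) [NeZero M] {φ φ' : Additive (Gamma0 M) →+ ℤ} {k₁ k₂ k₁' k₂' : V2 → ℤ}
    (hk₁ : IsQI (Gamma0 M) φ k₁) (hk₂ : IsQI (Gamma0 M) φ k₂) (hk₁' : IsQI (Gamma0 M) φ' k₁')
    (hk₂' : IsQI (Gamma0 M) φ' k₂') : bb (Gamma0 M) k₁ k₁' = bb (Gamma0 M) k₂ k₂' := by
  rw [bb_indep_left M hk₁ hk₂ hk₁', ← neg_inj, ← bb_swap hk₂ hk₁', ← bb_swap hk₂ hk₂',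
    bb_indep_left M hk₁' hk₂' hk₂]

theorem bb_add_left (Γ : Subgroup SL(2, ℤ)) [Γ.FiniteIndex] (k₁ k₂ k' : V2 → ℤ) :
    bb Γ (fun v => k₁ v + k₂ v) k' = bb Γ k₁ k' + bb Γ k₂ k' := by
  unfold bb
  rw [← cs_add]
  refine cs_congr Γ fun g => ?_
  unfold kap
  ring

/-! ### the bilinear form -/

section form

variable (M : ℕ) [NeZero M]

/-- a chosen primitive. -/
noncomputable def KK (φ : Lat M) : V2 → ℤ :=
  (exists_isQI M (φ : Additive (Gamma0 M) →+ ℤ) φ.2).choose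

theorem KK_spec (φ : Lat M) : IsQI (Gamma0 M) (φ : Additive (Gamma0 M) →+ ℤ) (KK M φ) :=
  (exists_isQI M (φ : Additive (Gamma0 M) →+ ℤ) φ.2).choose_spec

/-- the pairing as a function. -/
noncomputable def B0 (φ φ' : Lat M) : ℤ := bb (Gamma0 M) (KK M φ) (KK M φ')

theorem B0_eq (φ φ' : Lat M) {k k' : V2 → ℤ}
    (hk : IsQI (Gamma0 M) (φ : Additive (Gamma0 M) →+ ℤ) k)
    (hk' : IsQI (Gamma0 M) (φ' : Additive (Gamma0 M) →+ ℤ) k') :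
    B0 M φ φ' = bb (Gamma0 M) k k' :=
  bb_indep M (KK_spec M φ) hk (KK_spec M φ') hk'

theorem B0_add_left (φ₁ φ₂ φ' : Lat M) : B0 M (φ₁ + φ₂) φ' = B0 M φ₁ φ' + B0 M φ₂ φ' := by
  rw [B0_eq M (φ₁ + φ₂) φ' ((KK_spec M φ₁).add (KK_spec M φ₂)) (KK_spec M φ'), bb_add_left]
  rfl

theorem B0_swap (φ φ' : Lat M) : B0 M φ' φ = - B0 M φ φ' :=
  bb_swap (KK_spec M φ) (KK_spec M φ')

theorem B0_add_right (φ φ₁ φ₂ : Lat M) : B0 M φ (φ₁ + φ₂) = B0 M φ φ₁ + B0 M φ φ₂ := by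
  rw [B0_swap M (φ₁ + φ₂) φ, B0_add_left, B0_swap M φ φ₁, B0_swap M φ φ₂]
  ring

theorem B0_smul_left (c : ℤ) (φ φ' : Lat M) : B0 M (c • φ) φ' = c • B0 M φ φ' :=
  map_zsmul (AddMonoidHom.mk' (fun φ => B0 M φ φ') (fun a b => B0_add_left M a b φ')) c φ

theorem B0_smul_right (c : ℤ) (φ φ' : Lat M) : B0 M φ (c • φ') = c • B0 M φ φ' :=
  map_zsmul (AddMonoidHom.mk' (fun φ' => B0 M φ φ') (fun a b => B0_add_right M φ a b)) c φ'

/-- the pairing. -/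
noncomputable def BB : Lat M →ₗ[ℤ] Lat M →ₗ[ℤ] ℤ :=
  LinearMap.mk₂ ℤ (B0 M) (B0_add_left M) (B0_smul_left M) (B0_add_right M)
    (fun c φ φ' => B0_smul_right M c φ φ')

theorem BB_apply (φ φ' : Lat M) : BB M φ φ' = B0 M φ φ' := rfl

end form

/-! ### closed cochains come from the lattice -/

theorem neg_one_mem_Gamma0 (M : ℕ) : (-1 : SL(2, ℤ)) ∈ Gamma0 M := by
  rw [Gamma0_mem]; simp

theorem Ur_eq : Ur = Tl * S := by decide

theorem Ur_sq : Ur * Ur = -(T * S) := by decide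

theorem Ur_cube : Ur * Ur * Ur = 1 := by decide

theorem Ur_mul_T : Ur * T = S := by decide

theorem exists_prim_of_closed (M : ℕ) [NeZero M] (Ξ : SL(2, ℤ) → ℤ) (hinv : LInv (Gamma0 M) Ξ)
    (hS : ∀ g, Ξ (g * S) = - Ξ g) (hU : ∀ g, Ξ g + Ξ (g * Ur) + Ξ (g * Ur * Ur) = 0) :
    ∃ (φ' : Lat M) (k' : V2 → ℤ), IsQI (Gamma0 M) (φ' : Additive (Gamma0 M) →+ ℤ) k' ∧
      ∀ g, Ξ g = kap k' g := by
  have hneg : ∀ g, Ξ (-g) = Ξ g := fun g => by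
    have := hinv (-1) (neg_one_mem_Gamma0 M) g
    rwa [neg_one_mul] at this
  have hT : ∀ g, Ξ g = Ξ (g * T) + Ξ (g * Tl) := by
    intro g
    have h1 : Ξ (g * Ur) = - Ξ (g * Tl) := by rw [Ur_eq, ← mul_assoc, hS]
    have h2 : Ξ (g * Ur * Ur) = - Ξ (g * T) := by
      rw [mul_assoc, Ur_sq, mul_neg, hneg, ← mul_assoc, hS]
    have := hU g
    rw [h1, h2] at this
    linarith
  obtain ⟨k', hk', hΞ⟩ := farey_exact Ξ hS hT
  have hconst : ∀ (γ : Gamma0 M) (v w : V2), v ≠ 0 → w ≠ 0 →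
      k' (sl (γ : SL(2, ℤ)) *ᵥ v) - k' v = k' (sl (γ : SL(2, ℤ)) *ᵥ w) - k' w := by
    intro γ v w hv hw
    refine farey_connected (fun v => k' (sl (γ : SL(2, ℤ)) *ᵥ v) - k' v) ?_ ?_ v w hv hw
    · intro c v hc
      simp only [Matrix.mulVec_smul, hk' c _ hc]
    · intro g
      have h1 := hΞ ((γ : SL(2, ℤ)) * g)
      rw [hinv γ γ.2 g, hΞ g, sl_mul_mulVec, sl_mul_mulVec] at h1
      show k' (sl (γ : SL(2, ℤ)) *ᵥ (sl g *ᵥ e₂)) - k' (sl g *ᵥ e₂)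
        = k' (sl (γ : SL(2, ℤ)) *ᵥ (sl g *ᵥ e₁)) - k' (sl g *ᵥ e₁)
      linarith
  let φ' : Additive (Gamma0 M) →+ ℤ := AddMonoidHom.mk'
    (fun γ => k' (sl ((Additive.toMul γ : Gamma0 M) : SL(2, ℤ)) *ᵥ e₁) - k' e₁) (by
      intro a b
      have h1 := hconst (Additive.toMul a) (sl ((Additive.toMul b : Gamma0 M) : SL(2, ℤ)) *ᵥ e₁) e₁
        (sl_mulVec_ne_zero _ e₁_ne_zero) e₁_ne_zero
      rw [toMul_add, Subgroup.coe_mul, sl_mul_mulVec]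
      linarith)
  have hqi : IsQI (Gamma0 M) φ' k' := by
    refine ⟨hk', fun γ v hv => ?_⟩
    have h1 := hconst γ v e₁ hv e₁_ne_zero
    show _ = k' v + (k' (sl (γ : SL(2, ℤ)) *ᵥ e₁) - k' e₁)
    linarith
  exact ⟨⟨φ', hqi.isParabolicHom⟩, k', hqi, hΞ⟩

/-! ### the linear algebra lemma on `Γ \ SL(2,ℤ)` -/

theorem LA_G (Γ : Subgroup SL(2, ℤ)) [Γ.FiniteIndex] (hneg : (-1 : SL(2, ℤ)) ∈ Γ) (p : ℤ)
    (F₀ : SL(2, ℤ) → ℤ) (hF : LInv Γ F₀)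
    (h : ∀ Ξ : SL(2, ℤ) → ℤ, LInv Γ Ξ → (∀ g, Ξ (g * S) = - Ξ g) →
      (∀ g, Ξ g + Ξ (g * Ur) + Ξ (g * Ur * Ur) = 0) → p ∣ cs Γ (fun g => Ξ g * F₀ g)) :
    ∃ (G₀ : SL(2, ℤ) → ℤ) (a c : SL(2, ℤ) → ℚ), LInv Γ c ∧ (∀ g, a (g * S) = a g) ∧
      (∀ g, c (g * Ur) = c g) ∧ ∀ g, (F₀ g : ℚ) = p * G₀ g + a g + c g := by
  classical
  let _ : Fintype (SL(2, ℤ) ⧸ Γ) := Fintype.ofFinite _
  let σ : SL(2, ℤ) ⧸ Γ → SL(2, ℤ) ⧸ Γ := fun x => (S⁻¹ : SL(2, ℤ)) • x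
  let τ : SL(2, ℤ) ⧸ Γ → SL(2, ℤ) ⧸ Γ := fun x => (Ur⁻¹ : SL(2, ℤ)) • x
  have hup : ∀ (h g : SL(2, ℤ)), (QuotientGroup.mk (g * h)⁻¹ : SL(2, ℤ) ⧸ Γ)
      = (h⁻¹ : SL(2, ℤ)) • (QuotientGroup.mk g⁻¹ : SL(2, ℤ) ⧸ Γ) := by
    intro h g
    rw [_root_.mul_inv_rev]
    rfl
  have hlinv : ∀ {A : Type} (f : SL(2, ℤ) ⧸ Γ → A), LInv Γ (fun g => f (QuotientGroup.mk g⁻¹)) := by
    intro A f γ hγ g
    show f (QuotientGroup.mk (γ * g)⁻¹) = f (QuotientGroup.mk g⁻¹)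
    rw [_root_.mul_inv_rev, QuotientGroup.mk_mul_of_mem _ (Γ.inv_mem hγ)]
  have hσ : ∀ x, σ (σ x) = x := by
    intro x
    obtain ⟨g, rfl⟩ := QuotientGroup.mk_surjective x
    show (QuotientGroup.mk (S⁻¹ * (S⁻¹ * g)) : SL(2, ℤ) ⧸ Γ) = QuotientGroup.mk g
    rw [QuotientGroup.eq]
    have : (S⁻¹ * (S⁻¹ * g))⁻¹ * g = -1 := by
      simp only [_root_.mul_inv_rev, inv_inv]
      rw [mul_assoc g⁻¹ S S, Farey_S_mul_S, mul_neg, mul_one, neg_mul, inv_mul_cancel]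
    rw [this]
    exact hneg
  have hτ : ∀ x, τ (τ (τ x)) = x := by
    intro x
    show (Ur⁻¹ : SL(2, ℤ)) • (Ur⁻¹ : SL(2, ℤ)) • (Ur⁻¹ : SL(2, ℤ)) • x = x
    rw [smul_smul, smul_smul, ← _root_.mul_inv_rev, ← _root_.mul_inv_rev, ← mul_assoc, Ur_cube,
      inv_one, one_smul]
  obtain ⟨G₀, a, c, ha, hc, hFac⟩ := PairingLA.main σ τ hσ hτ p (fun x => F₀ (x.out)⁻¹) (by
    intro ξ h1 h2
    have := h (fun g => ξ (QuotientGroup.mk g⁻¹)) (hlinv ξ) (fun g => by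
      show ξ (QuotientGroup.mk (g * S)⁻¹) = _
      rw [hup]; exact h1 _) (fun g => by
      show ξ (QuotientGroup.mk g⁻¹) + ξ (QuotientGroup.mk (g * Ur)⁻¹)
        + ξ (QuotientGroup.mk (g * Ur * Ur)⁻¹) = 0
      rw [hup Ur (g * Ur), hup Ur g]; exact h2 _)
    rw [cs_def] at this
    simpa only [inv_inv, QuotientGroup.out_eq'] using this)
  refine ⟨fun g => G₀ (QuotientGroup.mk g⁻¹), fun g => a (QuotientGroup.mk g⁻¹),
    fun g => c (QuotientGroup.mk g⁻¹), hlinv c, fun g => ?_, fun g => ?_, fun g => ?_⟩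
  · show a (QuotientGroup.mk (g * S)⁻¹) = _
    rw [hup]; exact ha _
  · show c (QuotientGroup.mk (g * Ur)⁻¹) = _
    rw [hup]; exact hc _
  · have := hFac (QuotientGroup.mk g⁻¹)
    rwa [hF.out_inv, inv_inv] at this

/-! ### unimodularity -/

/-- a function on `SL(2,ℤ)` whose increments under right multiplication by `S` and `Ur` lie in
`p ℤ` has all its increments in `p ℤ`. -/
theorem incr_mem (p : ℤ) (Sg : SL(2, ℤ) → ℚ)
    (hS : ∀ g, ∃ n : ℤ, Sg (g * S) - Sg g = p * n) (hU : ∀ g, ∃ n : ℤ, Sg (g * Ur) - Sg g = p * n)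
    (h g : SL(2, ℤ)) : ∃ n : ℤ, Sg (g * h) - Sg g = p * n := by
  let H : Subgroup SL(2, ℤ) :=
    { carrier := {h | ∀ g, ∃ n : ℤ, Sg (g * h) - Sg g = p * n}
      mul_mem' := by
        intro a b ha hb g
        obtain ⟨n, hn⟩ := ha g
        obtain ⟨m, hm⟩ := hb (g * a)
        refine ⟨n + m, ?_⟩
        rw [← mul_assoc]
        push_cast
        linarith
      one_mem' := fun g => ⟨0, by simp⟩
      inv_mem' := by
        intro a ha g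
        obtain ⟨n, hn⟩ := ha (g * a⁻¹)
        refine ⟨-n, ?_⟩
        rw [inv_mul_cancel_right] at hn
        push_cast
        linarith }
  have hSH : S ∈ H := hS
  have hUH : Ur ∈ H := hU
  have hTH : T ∈ H := by
    have : T = Ur⁻¹ * S := by rw [← Ur_mul_T, inv_mul_cancel_left]
    rw [this]
    exact H.mul_mem (H.inv_mem hUH) hSH
  have htop : H = ⊤ := by
    rw [eq_top_iff, ← SpecialLinearGroup.SL2Z_generators, Subgroup.closure_le]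
    rintro x (rfl | rfl)
    · exact hSH
    · exact hTH
  have : h ∈ H := by rw [htop]; trivial
  exact this g

theorem unimodular (M : ℕ) [NeZero M] (p : ℕ) (hp : p.Prime) (hp2 : p ≠ 2) (φ : Lat M)
    (h : ∀ φ' : Lat M, (p : ℤ) ∣ BB M φ' φ) : ∃ ψ : Lat M, φ = (p : ℤ) • ψ := by
  set k := KK M φ with hkdef
  have hk : IsQI (Gamma0 M) (φ : Additive (Gamma0 M) →+ ℤ) k := KK_spec M φ
  obtain ⟨G₀, a, c, hcinv, ha, hc, hFac⟩ := LA_G (Gamma0 M) (neg_one_mem_Gamma0 M) (p : ℤ) (F0 k)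
    (lInv_F0 hk) (by
      intro Ξ h1 h2 h3
      obtain ⟨φ', k', hk', hΞ⟩ := exists_prim_of_closed M Ξ h1 h2 h3
      have := h φ'
      rw [BB_apply, B0_eq M φ' φ hk' hk] at this
      unfold bb at this
      rwa [cs_congr (Gamma0 M) (F := fun g => Ξ g * F0 k g) (F' := fun g => kap k' g * F0 k g)
        (fun g => by rw [hΞ g])])
  let Sg : SL(2, ℤ) → ℚ := fun g =>
    ((k (sl g *ᵥ e₁) + k (sl g *ᵥ e₂) + k (sl g *ᵥ e₃) - rr k g : ℤ) : ℚ) - c g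
  have hSgU : ∀ g, ∃ n : ℤ, Sg (g * Ur) - Sg g = (p : ℤ) * n := by
    intro g
    refine ⟨0, ?_⟩
    simp only [Sg]
    rw [val_Ur₁ hk.homog, val_Ur₂ hk.homog, val_Ur₃ hk.homog, rr_Ur hk.homog, hc]
    push_cast
    ring
  have hSg : ∀ g, Sg g = (k (sl g *ᵥ e₁) : ℚ) + k (sl g *ᵥ e₂) + (p : ℤ) * G₀ g + a g := by
    intro g
    have := hFac g
    unfold F0 at this
    push_cast at this
    simp only [Sg]
    push_cast
    linarith
  have hSgS : ∀ g, ∃ n : ℤ, Sg (g * S) - Sg g = (p : ℤ) * n := by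
    intro g
    refine ⟨G₀ (g * S) - G₀ g, ?_⟩
    rw [hSg, hSg, val_S₁ hk.homog, val_S₂ hk.homog, ha]
    push_cast
    ring
  have hdvd : ∀ γ : Gamma0 M, (p : ℤ) ∣ (φ : Additive (Gamma0 M) →+ ℤ) (Additive.ofMul γ) := by
    intro γ
    obtain ⟨n, hn⟩ := incr_mem (p : ℤ) Sg hSgS hSgU (γ : SL(2, ℤ)) 1
    have e1 : Sg (1 * (γ : SL(2, ℤ))) - Sg 1
        = 2 * ((φ : Additive (Gamma0 M) →+ ℤ) (Additive.ofMul γ) : ℚ) := by
      rw [one_mul]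
      conv_lhs => rw [← mul_one (γ : SL(2, ℤ))]
      simp only [Sg]
      rw [qi_val hk γ 1 e₁_ne_zero, qi_val hk γ 1 e₂_ne_zero, qi_val hk γ 1 e₃_ne_zero,
        rr_qi hk γ 1, hcinv γ γ.2 1]
      push_cast
      ring
    rw [e1] at hn
    have e2 : 2 * (φ : Additive (Gamma0 M) →+ ℤ) (Additive.ofMul γ) = (p : ℤ) * n := by
      exact_mod_cast hn
    have e3 : (p : ℤ) ∣ 2 * (φ : Additive (Gamma0 M) →+ ℤ) (Additive.ofMul γ) := ⟨n, e2⟩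
    have hpZ : Prime (p : ℤ) := Nat.prime_iff_prime_int.1 hp
    rcases hpZ.dvd_or_dvd e3 with h2 | h2
    · exfalso
      have h3 : p ∣ 2 := by exact_mod_cast h2
      exact hp2 ((Nat.prime_dvd_prime_iff_eq hp Nat.prime_two).1 h3)
    · exact h2
  choose ψ hψ using hdvd
  have hp0 : (p : ℤ) ≠ 0 := by exact_mod_cast hp.ne_zero
  let ψ' : Additive (Gamma0 M) →+ ℤ := AddMonoidHom.mk' (fun γ => ψ (Additive.toMul γ)) (by
    intro x y
    apply mul_left_cancel₀ hp0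
    rw [mul_add, ← hψ, ← hψ, ← hψ, ← map_add]
    rfl)
  have hpar : ModularCurve.Period.IsParabolicHom (Gamma0 M) ψ' := by
    intro γ hγ
    have h1 := φ.2 γ hγ
    rw [hψ γ] at h1
    exact (mul_eq_zero.1 h1).resolve_left hp0
  refine ⟨⟨ψ', hpar⟩, ?_⟩
  apply Subtype.ext
  ext γ
  exact hψ (Additive.toMul γ)

end Pairing

open Pairing in
theorem exists_pairing (M : ℕ) [NeZero M] :
    ∃ B : Lat M →ₗ[ℤ] Lat M →ₗ[ℤ] ℤ,
      (∀ (φ φ' : Lat M) (k k' : V2 → ℤ), IsQI (Gamma0 M) (φ : Additive (Gamma0 M) →+ ℤ) k →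
        IsQI (Gamma0 M) (φ' : Additive (Gamma0 M) →+ ℤ) k' →
        HasMean (om (fun v => (k v : ℚ)) (fun v => (k' v : ℚ)))
          (3 * (B φ φ' : ℚ) / ((Gamma0 M).index : ℚ))) ∧
      (∀ p : ℕ, p.Prime → p ≠ 2 → ∀ φ : Lat M, (∀ φ' : Lat M, (p : ℤ) ∣ B φ' φ) →
        ∃ ψ : Lat M, φ = (p : ℤ) • ψ) := by
  refine ⟨BB M, fun φ φ' k k' hk hk' => ?_, fun p hp hp2 φ h => unimodular M p hp hp2 φ h⟩
  rw [BB_apply, B0_eq M φ φ' hk hk']
  exact hasMean_bb M hk hk'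

end Fermat.Agent.S41
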