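import Fermat.Agent.S41.PD.Defs

/-!
# S41 / PD-C0 : sums over `Γ \ SL(2,ℤ)` (`cs`), basic API
-/

set_option autoImplicit false
open CongruenceSubgroup Matrix ModularGroup
open scoped MatrixGroups

namespace Fermat.Agent.S41

section monoid

variable {A : Type*} [AddCommMonoid A]

/-- `cs` with an arbitrary `Fintype` instance. -/
theorem cs_def (Γ : Subgroup SL(2, ℤ)) [Γ.FiniteIndex] [Fintype (SL(2, ℤ) ⧸ Γ)]
    (F : SL(2, ℤ) → A) : cs Γ F = ∑ x : SL(2, ℤ) ⧸ Γ, F (x.out)⁻¹ := by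
  unfold cs
  refine Finset.sum_congr ?_ fun _ _ => rfl
  ext x
  simp

/-- the value of a left invariant function at the inverse of the chosen representative. -/
theorem LInv.out_inv {B : Type*} {Γ : Subgroup SL(2, ℤ)} {F : SL(2, ℤ) → B} (hF : LInv Γ F)
    (g : SL(2, ℤ)) : F ((QuotientGroup.mk g : SL(2, ℤ) ⧸ Γ).out)⁻¹ = F g⁻¹ := by
  obtain ⟨h, hh⟩ := QuotientGroup.mk_out_eq_mul Γ g
  rw [hh, _root_.mul_inv_rev]
  exact hF _ (Γ.inv_mem h.2) _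

theorem LInv.mul_right {B : Type*} {Γ : Subgroup SL(2, ℤ)} {F : SL(2, ℤ) → B} (hF : LInv Γ F)
    (h : SL(2, ℤ)) : LInv Γ (fun g => F (g * h)) := by
  intro γ hγ g
  show F (γ * g * h) = F (g * h)
  rw [mul_assoc]
  exact hF γ hγ _

theorem LInv.of_le {B : Type*} {Γ' Γ : Subgroup SL(2, ℤ)} (hle : Γ' ≤ Γ) {F : SL(2, ℤ) → B}
    (hF : LInv Γ F) : LInv Γ' F := fun γ hγ g => hF γ (hle hγ) g

theorem LInv.comp {B C : Type*} {Γ : Subgroup SL(2, ℤ)} {F : SL(2, ℤ) → B} (hF : LInv Γ F)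
    (φ : B → C) : LInv Γ (fun g => φ (F g)) := fun γ hγ g => congrArg φ (hF γ hγ g)

theorem LInv.const {B : Type*} (Γ : Subgroup SL(2, ℤ)) (b : B) : LInv Γ (fun _ => b) :=
  fun _ _ _ => rfl

theorem LInv.add {Γ : Subgroup SL(2, ℤ)} {F F' : SL(2, ℤ) → A} (hF : LInv Γ F)
    (hF' : LInv Γ F') : LInv Γ (fun g => F g + F' g) := fun γ hγ g => by
  show F (γ * g) + F' (γ * g) = F g + F' g
  rw [hF γ hγ g, hF' γ hγ g]

theorem cs_congr (Γ : Subgroup SL(2, ℤ)) [Γ.FiniteIndex] {F F' : SL(2, ℤ) → A}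
    (h : ∀ g, F g = F' g) : cs Γ F = cs Γ F' := by
  rw [funext h]

@[simp] theorem cs_zero (Γ : Subgroup SL(2, ℤ)) [Γ.FiniteIndex] :
    cs Γ (fun _ => (0 : A)) = 0 := by
  unfold cs
  exact Finset.sum_const_zero

theorem cs_add (Γ : Subgroup SL(2, ℤ)) [Γ.FiniteIndex] (F F' : SL(2, ℤ) → A) :
    cs Γ (fun g => F g + F' g) = cs Γ F + cs Γ F' := by
  unfold cs
  exact Finset.sum_add_distrib

theorem cs_sum {ι : Type*} (s : Finset ι) (Γ : Subgroup SL(2, ℤ)) [Γ.FiniteIndex]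
    (F : ι → SL(2, ℤ) → A) : cs Γ (fun g => ∑ i ∈ s, F i g) = ∑ i ∈ s, cs Γ (F i) := by
  unfold cs
  exact Finset.sum_comm

theorem cs_map {B : Type*} [AddCommMonoid B] (φ : A →+ B) (Γ : Subgroup SL(2, ℤ))
    [Γ.FiniteIndex] (F : SL(2, ℤ) → A) : cs Γ (fun g => φ (F g)) = φ (cs Γ F) := by
  unfold cs
  exact (map_sum φ _ _).symm

theorem cs_smul {R : Type*} [DistribSMul R A] (Γ : Subgroup SL(2, ℤ)) [Γ.FiniteIndex] (c : R)
    (F : SL(2, ℤ) → A) : cs Γ (fun g => c • F g) = c • cs Γ F := by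
  unfold cs
  exact Finset.smul_sum.symm

theorem cs_nsmul (Γ : Subgroup SL(2, ℤ)) [Γ.FiniteIndex] (n : ℕ) (F : SL(2, ℤ) → A) :
    cs Γ (fun g => n • F g) = n • cs Γ F := by
  unfold cs
  exact Finset.sum_nsmul _ _ _

theorem cs_const (Γ : Subgroup SL(2, ℤ)) [Γ.FiniteIndex] (a : A) :
    cs Γ (fun _ => a) = Γ.index • a := by
  let _ : Fintype (SL(2, ℤ) ⧸ Γ) := Fintype.ofFinite _
  rw [cs_def, Finset.sum_const, Finset.card_univ, Subgroup.index_eq_card, Nat.card_eq_fintype_card]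

/-- any system of representatives of `Γ \ SL(2,ℤ)` computes `cs`. -/
theorem cs_eq_sum_of_reps (Γ : Subgroup SL(2, ℤ)) [Γ.FiniteIndex] (F : SL(2, ℤ) → A)
    (hF : LInv Γ F) {ι : Type*} [Fintype ι] (r : ι → SL(2, ℤ))
    (hr : Function.Bijective fun i => (QuotientGroup.mk (r i)⁻¹ : SL(2, ℤ) ⧸ Γ)) :
    cs Γ F = ∑ i, F (r i) := by
  let _ : Fintype (SL(2, ℤ) ⧸ Γ) := Fintype.ofFinite _
  rw [cs_def, ← Equiv.sum_comp (Equiv.ofBijective _ hr)]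
  refine Finset.sum_congr rfl fun i _ => ?_
  rw [Equiv.ofBijective_apply, hF.out_inv, inv_inv]

/-- a more concrete criterion: the `r i` are pairwise inequivalent and exhaust `Γ \ SL(2,ℤ)`. -/
theorem cs_eq_sum_of_reps' (Γ : Subgroup SL(2, ℤ)) [Γ.FiniteIndex] (F : SL(2, ℤ) → A)
    (hF : LInv Γ F) {ι : Type*} [Fintype ι] (r : ι → SL(2, ℤ))
    (hinj : ∀ i j, r i * (r j)⁻¹ ∈ Γ → i = j)
    (hsurj : ∀ g : SL(2, ℤ), ∃ i, ∃ γ ∈ Γ, g = γ * r i) :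
    cs Γ F = ∑ i, F (r i) := by
  refine cs_eq_sum_of_reps Γ F hF r ⟨?_, ?_⟩
  · intro i j hij
    apply hinj
    have := QuotientGroup.eq.1 hij
    simpa using this
  · intro x
    obtain ⟨g, rfl⟩ := QuotientGroup.mk_surjective x
    obtain ⟨i, γ, hγ, hg⟩ := hsurj g⁻¹
    refine ⟨i, ?_⟩
    show (QuotientGroup.mk (r i)⁻¹ : SL(2, ℤ) ⧸ Γ) = QuotientGroup.mk g
    rw [QuotientGroup.eq, inv_inv]
    have hg' : g = (r i)⁻¹ * γ⁻¹ := by
      rw [← inv_inv g, hg, _root_.mul_inv_rev]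
    rw [hg', mul_inv_cancel_left]
    exact Γ.inv_mem hγ

theorem cs_mul_right (Γ : Subgroup SL(2, ℤ)) [Γ.FiniteIndex] (F : SL(2, ℤ) → A)
    (hF : LInv Γ F) (h : SL(2, ℤ)) : cs Γ (fun g => F (g * h)) = cs Γ F := by
  let _ : Fintype (SL(2, ℤ) ⧸ Γ) := Fintype.ofFinite _
  rw [cs_def, cs_def, ← Equiv.sum_comp (MulAction.toPerm (h⁻¹ : SL(2, ℤ)) :
    Equiv.Perm (SL(2, ℤ) ⧸ Γ)) (fun x => F (x.out)⁻¹)]
  refine Finset.sum_congr rfl fun x _ => ?_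
  have hx : (MulAction.toPerm (h⁻¹ : SL(2, ℤ)) : Equiv.Perm (SL(2, ℤ) ⧸ Γ)) x
      = QuotientGroup.mk (h⁻¹ * x.out) := by
    conv_lhs => rw [← QuotientGroup.out_eq' x]
    rfl
  rw [hx, hF.out_inv, _root_.mul_inv_rev, inv_inv]

theorem cs_of_le (Γ' Γ : Subgroup SL(2, ℤ)) [Γ'.FiniteIndex] [Γ.FiniteIndex] (hle : Γ' ≤ Γ)
    (F : SL(2, ℤ) → A) (hF : LInv Γ F) : cs Γ' F = Γ'.relIndex Γ • cs Γ F := by
  classical
  let _ : Fintype (SL(2, ℤ) ⧸ Γ) := Fintype.ofFinite _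
  let _ : Fintype (SL(2, ℤ) ⧸ Γ') := Fintype.ofFinite _
  have hfi : (Γ'.subgroupOf Γ).FiniteIndex := inferInstance
  let _ : Fintype (Γ ⧸ Γ'.subgroupOf Γ) := Fintype.ofFinite _
  have hfst : ∀ x' : SL(2, ℤ) ⧸ Γ', (Subgroup.quotientEquivProdOfLE hle x').1
      = QuotientGroup.mk x'.out := by
    intro x'
    conv_lhs => rw [← QuotientGroup.out_eq' x']
    rfl
  have key : ∀ (x : SL(2, ℤ) ⧸ Γ) (y : Γ ⧸ Γ'.subgroupOf Γ),
      F (((Subgroup.quotientEquivProdOfLE hle).symm (x, y)).out)⁻¹ = F (x.out)⁻¹ := by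
    intro x y
    have h1 := hfst ((Subgroup.quotientEquivProdOfLE hle).symm (x, y))
    rw [Equiv.apply_symm_apply] at h1
    have h2 : x = QuotientGroup.mk ((Subgroup.quotientEquivProdOfLE hle).symm (x, y)).out := h1
    conv_rhs => rw [h2]
    rw [hF.out_inv]
  rw [cs_def, cs_def, ← Equiv.sum_comp (Subgroup.quotientEquivProdOfLE hle).symm,
    Fintype.sum_prod_type]
  simp_rw [key]
  rw [Finset.sum_congr rfl fun x _ => Finset.sum_const (F (x.out)⁻¹), Finset.card_univ,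
    Finset.sum_nsmul, Subgroup.relIndex, Subgroup.index_eq_card, Nat.card_eq_fintype_card]

end monoid

section group

variable {A : Type*} [AddCommGroup A]

theorem LInv.neg {Γ : Subgroup SL(2, ℤ)} {F : SL(2, ℤ) → A} (hF : LInv Γ F) :
    LInv Γ (fun g => - F g) := hF.comp (fun a => -a)

theorem LInv.sub {Γ : Subgroup SL(2, ℤ)} {F F' : SL(2, ℤ) → A} (hF : LInv Γ F)
    (hF' : LInv Γ F') : LInv Γ (fun g => F g - F' g) := fun γ hγ g => by
  show F (γ * g) - F' (γ * g) = F g - F' g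
  rw [hF γ hγ g, hF' γ hγ g]

theorem cs_neg (Γ : Subgroup SL(2, ℤ)) [Γ.FiniteIndex] (F : SL(2, ℤ) → A) :
    cs Γ (fun g => - F g) = - cs Γ F := by
  unfold cs
  exact Finset.sum_neg_distrib _

theorem cs_sub (Γ : Subgroup SL(2, ℤ)) [Γ.FiniteIndex] (F F' : SL(2, ℤ) → A) :
    cs Γ (fun g => F g - F' g) = cs Γ F - cs Γ F' := by
  unfold cs
  exact Finset.sum_sub_distrib _ _

/-- the sum of a "coboundary" `F (g h) - F g` vanishes. -/
theorem cs_mul_right_sub (Γ : Subgroup SL(2, ℤ)) [Γ.FiniteIndex] (F : SL(2, ℤ) → A)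
    (hF : LInv Γ F) (h : SL(2, ℤ)) : cs Γ (fun g => F (g * h) - F g) = 0 := by
  rw [cs_sub, cs_mul_right Γ F hF h, sub_self]

end group

section ring

variable {R : Type*} [NonUnitalNonAssocSemiring R]

theorem cs_mul_left (Γ : Subgroup SL(2, ℤ)) [Γ.FiniteIndex] (c : R) (F : SL(2, ℤ) → R) :
    cs Γ (fun g => c * F g) = c * cs Γ F := by
  unfold cs
  exact (Finset.mul_sum _ _ _).symm

theorem cs_mul_const (Γ : Subgroup SL(2, ℤ)) [Γ.FiniteIndex] (c : R) (F : SL(2, ℤ) → R) :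
    cs Γ (fun g => F g * c) = cs Γ F * c := by
  unfold cs
  exact (Finset.sum_mul _ _ _).symm

end ring

end Fermat.Agent.S41
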