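import Fermat.Agent.S41.PD.Defs

/-!
# S41 / PD-C3 : invariance of the mean under `GL₂⁺(ℚ)`
-/

set_option autoImplicit false
open CongruenceSubgroup Matrix ModularGroup
open scoped MatrixGroups

namespace Fermat.Agent.S41

/-! ### the orientation cocycle -/

theorem meanComp_dt_mulVec (g : M2) (x y : V2) : dt (g *ᵥ x) (g *ᵥ y) = g.det * dt x y := by
  simp only [dt, Matrix.mulVec, dotProduct, Fin.sum_univ_two, Matrix.det_fin_two]
  ring

theorem meanComp_orc_mulVec (g : M2) (hg : 0 < g.det) (x y z : V2) :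
    orc (g *ᵥ x) (g *ᵥ y) (g *ᵥ z) = orc x y z := by
  unfold orc
  rw [meanComp_dt_mulVec, meanComp_dt_mulVec, meanComp_dt_mulVec]
  have h1 : g.det * dt x y * (g.det * dt y z) * (g.det * dt z x) =
      g.det ^ 3 * (dt x y * dt y z * dt z x) := by ring
  rw [h1, sign_mul, sign_pos (pow_pos hg 3), one_mul]

/-! ### conjugation of principal congruence subgroups -/

theorem meanComp_zq_mul (A B : Matrix (Fin 2) (Fin 2) ℤ) : zq (A * B) = zq A * zq B := by
  unfold zq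
  exact Matrix.map_mul (f := Int.castRingHom ℚ)

theorem meanComp_dvd_of_mem_Gamma {N : ℕ} {γ : SL(2, ℤ)} (hγ : γ ∈ Gamma N) (i j : Fin 2) :
    (N : ℤ) ∣ (γ : Matrix (Fin 2) (Fin 2) ℤ) i j - (1 : Matrix (Fin 2) (Fin 2) ℤ) i j := by
  rw [Gamma_mem] at hγ
  obtain ⟨h00, h01, h10, h11⟩ := hγ
  rw [← ZMod.intCast_zmod_eq_zero_iff_dvd]
  fin_cases i <;> fin_cases j
  · simpa [sub_eq_zero] using h00
  · simpa using h01
  · simpa using h10
  · simpa [sub_eq_zero] using h11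

theorem exists_conj_Gamma (A : Matrix (Fin 2) (Fin 2) ℤ) (D : ℕ) (hD : 0 < D) (hA : A.det = D)
    (M : ℕ) (γ : SL(2, ℤ)) (hγ : γ ∈ Gamma (M * D)) :
    ∃ γ' ∈ Gamma M, zq A * sl γ = sl γ' * zq A := by
  have hdvd := meanComp_dvd_of_mem_Gamma hγ
  choose B hB using hdvd
  set Bm : Matrix (Fin 2) (Fin 2) ℤ := Matrix.of B with hBm
  have hγB : (γ : Matrix (Fin 2) (Fin 2) ℤ) = 1 + ((M * D : ℕ) : ℤ) • Bm := by
    ext i j
    have := hB i j
    simp only [Matrix.add_apply, Matrix.smul_apply, hBm, Matrix.of_apply, smul_eq_mul]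
    linarith
  set P : Matrix (Fin 2) (Fin 2) ℤ := A * Bm * A.adjugate with hP
  set G : Matrix (Fin 2) (Fin 2) ℤ := 1 + (M : ℤ) • P with hG
  have hGA : G * A = A * (γ : Matrix (Fin 2) (Fin 2) ℤ) := by
    rw [hG, hγB, add_mul, one_mul, mul_add, mul_one, hP, Matrix.smul_mul, Matrix.mul_assoc,
      Matrix.adjugate_mul, hA, Matrix.mul_smul, Matrix.mul_one, Matrix.mul_smul, smul_smul]
    push_cast
    rfl
  have hdet : G.det = 1 := by
    have h1 := congrArg Matrix.det hGA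
    rw [Matrix.det_mul, Matrix.det_mul, γ.2, mul_one, hA] at h1
    have hD' : (D : ℤ) ≠ 0 := by exact_mod_cast hD.ne'
    exact mul_right_cancel₀ hD' (by rw [h1, one_mul])
  set γ' : SL(2, ℤ) := ⟨G, hdet⟩ with hγ'
  refine ⟨γ', ?_, ?_⟩
  · rw [Gamma_mem]
    have hent : ∀ i j, ((γ' i j : ℤ) : ZMod M) =
        (((1 : Matrix (Fin 2) (Fin 2) ℤ) i j : ℤ) : ZMod M) := by
      intro i j
      have : γ' i j = (1 : Matrix (Fin 2) (Fin 2) ℤ) i j + (M : ℤ) * P i j := by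
        show G i j = _
        rw [hG, Matrix.add_apply, Matrix.smul_apply, smul_eq_mul]
      rw [this]
      push_cast
      simp
    refine ⟨?_, ?_, ?_, ?_⟩
    · simpa using hent 0 0
    · simpa using hent 0 1
    · simpa using hent 1 0
    · simpa using hent 1 1
  · have h1 : sl γ' = zq G := rfl
    rw [h1, sl, ← meanComp_zq_mul, ← meanComp_zq_mul, hGA]

/-! ### clearing denominators -/

theorem meanComp_exists_int (q : ℚ) (n : ℕ) (h : q.den ∣ n) : ∃ z : ℤ, (z : ℚ) = n * q := by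
  obtain ⟨k, rfl⟩ := h
  refine ⟨k * q.num, ?_⟩
  push_cast
  have := Rat.den_mul_eq_num q
  calc (k : ℚ) * q.num = k * (q.den * q) := by rw [this]
    _ = q.den * k * q := by ring

theorem meanComp_exists_zq (g : M2) :
    ∃ (n : ℕ) (A : Matrix (Fin 2) (Fin 2) ℤ), 0 < n ∧ zq A = (n : ℚ) • g := by
  set n : ℕ := (g 0 0).den * (g 0 1).den * (g 1 0).den * (g 1 1).den with hn
  have hpos : 0 < n := by
    rw [hn]
    have h1 := (g 0 0).den_pos
    have h2 := (g 0 1).den_pos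
    have h3 := (g 1 0).den_pos
    have h4 := (g 1 1).den_pos
    positivity
  have hdvd : ∀ i j, (g i j).den ∣ n := by
    intro i j
    fin_cases i <;> fin_cases j
    · exact ⟨(g 0 1).den * (g 1 0).den * (g 1 1).den, by rw [hn]; simp; ring⟩
    · exact ⟨(g 0 0).den * (g 1 0).den * (g 1 1).den, by rw [hn]; simp; ring⟩
    · exact ⟨(g 0 0).den * (g 0 1).den * (g 1 1).den, by rw [hn]; simp; ring⟩
    · exact ⟨(g 0 0).den * (g 0 1).den * (g 1 0).den, by rw [hn]; simp; ring⟩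
  choose a ha using fun i j => meanComp_exists_int (g i j) n (hdvd i j)
  refine ⟨n, Matrix.of a, hpos, ?_⟩
  ext i j
  simp [zq, ha i j]

theorem meanComp_zq_det (A : Matrix (Fin 2) (Fin 2) ℤ) : (zq A).det = (A.det : ℚ) := by
  simp [zq, Matrix.det_fin_two]

/-! ### the main statement -/

theorem HasMean.comp {w : V2 → V2 → V2 → ℚ} {c : ℚ} (h : HasMean w c) (g : M2) (hg : 0 < g.det) :
    HasMean (fun x y z => w (g *ᵥ x) (g *ᵥ y) (g *ᵥ z)) c := by
  obtain ⟨M, θ, hM, hθ, hw⟩ := h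
  obtain ⟨n, A, hn, hA⟩ := meanComp_exists_zq g
  have hn' : (n : ℚ) ≠ 0 := by exact_mod_cast hn.ne'
  have hdetA : 0 < A.det := by
    have h1 : ((A.det : ℤ) : ℚ) = (n : ℚ) ^ 2 * g.det := by
      rw [← meanComp_zq_det, hA, Matrix.det_smul]
      simp
    have h2 : (0 : ℚ) < (A.det : ℚ) := by
      rw [h1]; positivity
    exact_mod_cast h2
  obtain ⟨D, hD⟩ : ∃ D : ℕ, A.det = D := ⟨A.det.toNat, (Int.toNat_of_nonneg hdetA.le).symm⟩
  have hDpos : 0 < D := by
    have : (0 : ℤ) < D := hD ▸ hdetA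
    exact_mod_cast this
  have hne : ∀ v : V2, v ≠ 0 → g *ᵥ v ≠ 0 := fun v hv h0 =>
    hv (Matrix.eq_zero_of_mulVec_eq_zero hg.ne' h0)
  refine ⟨M * D, fun a b => θ (g *ᵥ a) (g *ᵥ b), Nat.mul_pos hM hDpos, ⟨?_, ?_, ?_⟩, ?_⟩
  · intro r a b hr
    rw [Matrix.mulVec_smul]
    exact hθ.homog r _ _ hr
  · intro a b
    exact hθ.alt _ _
  · intro γ hγ a b
    obtain ⟨γ', hγ', hc⟩ := exists_conj_Gamma A D hDpos hD M γ hγ
    have hcomm : g * sl γ = sl γ' * g := by
      rw [hA, Matrix.smul_mul, Matrix.mul_smul] at hc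
      exact smul_right_injective _ hn' hc
    have h1 : ∀ v : V2, g *ᵥ (sl γ *ᵥ v) = sl γ' *ᵥ (g *ᵥ v) := by
      intro v
      rw [Matrix.mulVec_mulVec, Matrix.mulVec_mulVec, hcomm]
    rw [h1, h1]
    exact hθ.inv γ' hγ' _ _
  · intro x y z hx hy hz
    beta_reduce
    rw [hw _ _ _ (hne x hx) (hne y hy) (hne z hz), meanComp_orc_mulVec g hg]

end Fermat.Agent.S41
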