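import Fermat.Agent.S41.PD.MeanComp
import Fermat.Agent.S41.PD.MeanUnique
import Fermat.Agent.S41.PD.MeanExists
import Fermat.Agent.S41.PD.Prim

/-!
# S41 PD-F1 : the mean of the area cocycle `om k k'` of two smooth cusp functions

existence, bilinearity, `GL₂⁺(ℚ)`-moves, double coset invariance.
-/

set_option autoImplicit false
open CongruenceSubgroup Matrix
open scoped MatrixGroups

namespace Fermat.Agent.S41

/-- `k` is a cusp function which is quasi-invariant under some principal congruence subgroup. -/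
def IsSQ (k : V2 → ℚ) : Prop :=
  ∃ (M : ℕ) (φ : Additive (Gamma M) →+ ℚ), 0 < M ∧ IsQI (Gamma M) φ k

theorem MeanOm_Gamma_le_Gamma0 (M : ℕ) : Gamma M ≤ Gamma0 M := by
  intro γ hγ
  rw [Gamma_mem] at hγ
  rw [Gamma0_mem]
  exact hγ.2.2.1

theorem IsSQ.of_isQI {M : ℕ} [NeZero M] {φ : Additive (Gamma0 M) →+ ℚ} {k : V2 → ℚ}
    (h : IsQI (Gamma0 M) φ k) : IsSQ k :=
  ⟨M, _, Nat.pos_of_ne_zero (NeZero.ne M), h.mono (MeanOm_Gamma_le_Gamma0 M)⟩

theorem IsSQ.comp_zq {k : V2 → ℚ} (h : IsSQ k) (A : Matrix (Fin 2) (Fin 2) ℤ) (hA : 0 < A.det) :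
    IsSQ (fun v => k (zq A *ᵥ v)) := by
  obtain ⟨M, φ, hM, hk⟩ := h
  obtain ⟨D, hD⟩ : ∃ D : ℕ, A.det = D := ⟨A.det.toNat, (Int.toNat_of_nonneg hA.le).symm⟩
  have hDpos : 0 < D := by
    have : (0 : ℤ) < D := hD ▸ hA
    exact_mod_cast this
  obtain ⟨φ', hφ'⟩ := hk.comp_zq A D hDpos hD
  exact ⟨M * D, φ', Nat.mul_pos hM hDpos, hφ'⟩

theorem exists_hasMean_om {k k' : V2 → ℚ} (h : IsSQ k) (h' : IsSQ k') :
    ∃ c, HasMean (om k k') c := by
  obtain ⟨M, φ, hM, hk⟩ := h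
  obtain ⟨M', φ', hM', hk'⟩ := h'
  have h1 := hk.mono (MeanUnique.Gamma_le_of_dvd (Dvd.intro M' rfl : M ∣ M * M'))
  have h2 := hk'.mono (MeanUnique.Gamma_le_of_dvd (Dvd.intro_left M rfl : M' ∣ M * M'))
  obtain ⟨c, hc⟩ := exists_hasMean (M * M') (Nat.mul_pos hM hM') _
    (isSm2_om0 (M * M') k k' _ _ h1 h2)
  exact ⟨c, (hasMean_om0_iff k k' c).1 hc⟩

theorem MeanOm_hasMean_zero : HasMean (fun _ _ _ => 0) 0 :=
  ⟨1, fun _ _ => 0, Nat.one_pos, ⟨fun _ _ _ _ => rfl, fun _ _ => by simp, fun _ _ _ _ => rfl⟩,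
    fun _ _ _ _ _ _ => by simp⟩

theorem HasMean.om_add_right {k k' k'' : V2 → ℚ} {c c' : ℚ} (h : HasMean (om k k') c)
    (h' : HasMean (om k k'') c') : HasMean (om k (fun v => k' v + k'' v)) (c + c') := by
  refine (h.add h').congr_of_ne fun x y z _ _ _ => ?_
  simp only [om]
  ring

theorem HasMean.om_add_left {k k' k'' : V2 → ℚ} {c c' : ℚ} (h : HasMean (om k k'') c)
    (h' : HasMean (om k' k'') c') : HasMean (om (fun v => k v + k' v) k'') (c + c') := by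
  refine (h.add h').congr_of_ne fun x y z _ _ _ => ?_
  simp only [om]
  ring

theorem HasMean.om_sum_right {ι : Type*} (s : Finset ι) {k : V2 → ℚ} {k' : ι → V2 → ℚ} {c : ι → ℚ}
    (h : ∀ i ∈ s, HasMean (om k (k' i)) (c i)) :
    HasMean (om k (fun v => ∑ i ∈ s, k' i v)) (∑ i ∈ s, c i) := by
  classical
  induction s using Finset.induction_on with
  | empty =>
    refine MeanOm_hasMean_zero.congr_of_ne fun x y z _ _ _ => ?_
    simp [om]
  | insert a s ha ih =>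
    have h1 := (h a (Finset.mem_insert_self a s)).om_add_right
      (ih fun i hi => h i (Finset.mem_insert_of_mem hi))
    simpa only [Finset.sum_insert ha] using h1

theorem HasMean.om_sum_left {ι : Type*} (s : Finset ι) {k : ι → V2 → ℚ} {k' : V2 → ℚ} {c : ι → ℚ}
    (h : ∀ i ∈ s, HasMean (om (k i) k') (c i)) :
    HasMean (om (fun v => ∑ i ∈ s, k i v) k') (∑ i ∈ s, c i) := by
  classical
  induction s using Finset.induction_on with
  | empty =>
    refine MeanOm_hasMean_zero.congr_of_ne fun x y z _ _ _ => ?_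
    simp [om]
  | insert a s ha ih =>
    have h1 := (h a (Finset.mem_insert_self a s)).om_add_left
      (ih fun i hi => h i (Finset.mem_insert_of_mem hi))
    simpa only [Finset.sum_insert ha] using h1

theorem HasMean.om_comp {k k' : V2 → ℚ} {c : ℚ} (h : HasMean (om k k') c) (g : M2)
    (hg : 0 < g.det) : HasMean (om (fun v => k (g *ᵥ v)) (fun v => k' (g *ᵥ v))) c :=
  HasMean.comp h g hg

/-- moving a matrix to the other side. -/
theorem HasMean.om_adj {k k' : V2 → ℚ} (hk' : Homog k') {c : ℚ} (A : Matrix (Fin 2) (Fin 2) ℤ)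
    (hA : 0 < A.det) (h : HasMean (om (fun v => k (zq A *ᵥ v)) k') c) :
    HasMean (om k (fun v => k' (zq A.adjugate *ᵥ v))) c := by
  have hdet : (0 : ℚ) < (A.det : ℚ) := by exact_mod_cast hA
  have hadj : (zq A.adjugate).det = (A.det : ℚ) := by
    rw [meanComp_zq_det, Matrix.det_adjugate]
    simp
  have hg : 0 < (((A.det : ℚ)⁻¹) • zq A.adjugate).det := by
    rw [Matrix.det_smul, hadj]
    positivity
  have h1 := h.om_comp _ hg
  have h2 : ∀ v : V2, zq A *ᵥ (zq A.adjugate *ᵥ v) = (A.det : ℚ) • v := by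
    intro v
    rw [Matrix.mulVec_mulVec, ← Prim.zq_mul, Matrix.mul_adjugate]
    ext i
    rw [Prim.zq_mulVec_apply]
    fin_cases i <;> simp
  have h3 : ∀ v : V2, zq A *ᵥ ((((A.det : ℚ)⁻¹) • zq A.adjugate) *ᵥ v) = v := by
    intro v
    rw [Matrix.smul_mulVec, Matrix.mulVec_smul, h2, smul_smul, inv_mul_cancel₀ hdet.ne', one_smul]
  have h4 : ∀ v : V2, k' ((((A.det : ℚ)⁻¹) • zq A.adjugate) *ᵥ v) = k' (zq A.adjugate *ᵥ v) := by
    intro v
    rw [Matrix.smul_mulVec, hk' _ _ (inv_ne_zero hdet.ne')]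
  simpa only [h3, h4] using h1

theorem MeanOm_om_add_const (k k' : V2 → ℚ) (r r' : ℚ) (x y z : V2) :
    om (fun v => k v + r) (fun v => k' v + r') x y z = om k k' x y z := by
  simp only [om]
  ring

/-- the mean of `om k (k' ∘ β)` only depends on the double coset `Γ β Γ`. -/
theorem HasMean.om_doubleCoset {Γ : Subgroup SL(2, ℤ)} {φ φ' : Additive Γ →+ ℚ} {k k' : V2 → ℚ}
    (hk : IsQI Γ φ k) (hk' : IsQI Γ φ' k') (A A' : Matrix (Fin 2) (Fin 2) ℤ) (hA : 0 < A.det)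
    (γ₁ γ₂ : Γ)
    (hAA' : A' = ((γ₁ : SL(2, ℤ)) : Matrix (Fin 2) (Fin 2) ℤ) * A *
      ((γ₂ : SL(2, ℤ)) : Matrix (Fin 2) (Fin 2) ℤ))
    {c : ℚ} (h : HasMean (om k (fun v => k' (zq A *ᵥ v))) c) :
    HasMean (om k (fun v => k' (zq A' *ᵥ v))) c := by
  have hg : 0 < (sl (γ₂ : SL(2, ℤ))).det := by
    rw [MeanUnique.sl_det]; exact one_pos
  have h1 := h.om_comp _ hg
  refine h1.congr_of_ne fun x y z hx hy hz => ?_
  have e1 : ∀ v : V2, v ≠ 0 → k (sl (γ₂ : SL(2, ℤ)) *ᵥ v) = k v + φ (Additive.ofMul γ₂) :=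
    fun v hv => hk.qi γ₂ v hv
  have e2 : ∀ v : V2, v ≠ 0 → k' (zq A' *ᵥ v) =
      k' (zq A *ᵥ (sl (γ₂ : SL(2, ℤ)) *ᵥ v)) + φ' (Additive.ofMul γ₁) := by
    intro v hv
    rw [hAA', Prim.zq_mul, Prim.zq_mul, ← Matrix.mulVec_mulVec, ← Matrix.mulVec_mulVec]
    exact hk'.qi γ₁ _ (Prim.zq_mulVec_ne_zero A hA.ne' (Prim.sl_mulVec_ne_zero _ hv))
  simp only [om, e1 x hx, e1 y hy, e1 z hz, e2 x hx, e2 y hy, e2 z hz]
  ring

end Fermat.Agent.S41
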