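import Fermat.Agent.S41.PD.Defs

/-!
# S41 / PD-A : the orientation cocycle `orc` on `ℙ¹(ℚ)`
-/

set_option autoImplicit false
open CongruenceSubgroup Matrix ModularGroup
open scoped MatrixGroups

namespace Fermat.Agent.S41

theorem Orc_dt_swap (x y : V2) : dt y x = - dt x y := by unfold dt; ring

theorem Orc_dt_self (x : V2) : dt x x = 0 := by unfold dt; ring

theorem Orc_dt_smul_left (c : ℚ) (x y : V2) : dt (c • x) y = c * dt x y := by
  simp only [dt, Pi.smul_apply, smul_eq_mul]; ring

theorem Orc_dt_smul_right (c : ℚ) (x y : V2) : dt x (c • y) = c * dt x y := by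
  simp only [dt, Pi.smul_apply, smul_eq_mul]; ring

theorem Orc_dt_mulVec (g : M2) (x y : V2) : dt (g *ᵥ x) (g *ᵥ y) = g.det * dt x y := by
  simp only [dt, Matrix.mulVec, dotProduct, Fin.sum_univ_two, Matrix.det_fin_two]; ring

theorem Orc_dt_plucker (x y z t : V2) : dt x y * dt z t - dt x z * dt y t + dt x t * dt y z = 0 := by
  unfold dt; ring

/-- two nonzero vectors with vanishing determinant are proportional -/
theorem Orc_exists_smul_of_dt_eq_zero {x y : V2} (hx : x ≠ 0) (hy : y ≠ 0) (h : dt x y = 0) :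
    ∃ c : ℚ, c ≠ 0 ∧ y = c • x := by
  unfold dt at h
  by_cases h0 : x 0 = 0
  · have h1 : x 1 ≠ 0 := by
      intro h1
      apply hx
      ext i; fin_cases i
      · exact h0
      · exact h1
    have hy0 : y 0 = 0 := by
      rw [h0, zero_mul, zero_sub, neg_eq_zero] at h
      exact (mul_eq_zero.1 h).resolve_left h1
    have hy1 : y 1 ≠ 0 := by
      intro hy1
      apply hy
      ext i; fin_cases i
      · exact hy0
      · exact hy1
    refine ⟨y 1 / x 1, div_ne_zero hy1 h1, ?_⟩
    ext i; fin_cases i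
    · simp [h0, hy0]
    · simp [div_mul_cancel₀ _ h1]
  · have hy1 : y 1 = y 0 / x 0 * x 1 := by
      field_simp
      linarith
    have hy0 : y 0 ≠ 0 := by
      intro hy0
      apply hy
      ext i; fin_cases i
      · exact hy0
      · simpa [hy0] using hy1
    refine ⟨y 0 / x 0, div_ne_zero hy0 h0, ?_⟩
    ext i; fin_cases i
    · simp [div_mul_cancel₀ _ h0]
    · simpa using hy1

theorem orc_smul (c : ℚ) (hc : c ≠ 0) (x y z : V2) : orc (c • x) y z = orc x y z := by
  unfold orc
  rw [Orc_dt_smul_left, Orc_dt_smul_right]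
  have h : c * dt x y * dt y z * (c * dt z x) = (c * c) * (dt x y * dt y z * dt z x) := by ring
  rw [h, sign_mul, sign_pos (mul_self_pos.2 hc), one_mul]

theorem orc_swap (x y z : V2) : orc y x z = - orc x y z := by
  unfold orc
  rw [Orc_dt_swap x y, Orc_dt_swap z x, Orc_dt_swap y z]
  have h : -dt x y * -dt z x * -dt y z = - (dt x y * dt y z * dt z x) := by ring
  rw [h, Left.sign_neg, SignType.coe_neg]

theorem orc_rot (x y z : V2) : orc y z x = orc x y z := by
  unfold orc
  have h : dt y z * dt z x * dt x y = dt x y * dt y z * dt z x := by ring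
  rw [h]

theorem orc_mulVec (g : M2) (hg : 0 < g.det) (x y z : V2) :
    orc (g *ᵥ x) (g *ᵥ y) (g *ᵥ z) = orc x y z := by
  unfold orc
  rw [Orc_dt_mulVec, Orc_dt_mulVec, Orc_dt_mulVec]
  have h : g.det * dt x y * (g.det * dt y z) * (g.det * dt z x)
      = (g.det * g.det * g.det) * (dt x y * dt y z * dt z x) := by ring
  rw [h, sign_mul, sign_pos (mul_pos (mul_pos hg hg) hg), one_mul]

theorem orc_eq_zero_of_dt {x y : V2} (h : dt x y = 0) (z : V2) : orc x y z = 0 := by
  unfold orc
  rw [h, zero_mul, zero_mul, sign_zero, SignType.coe_zero]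

theorem orc_smul_mid (c : ℚ) (hc : c ≠ 0) (x y z : V2) : orc x (c • y) z = orc x y z := by
  rw [← orc_rot, orc_smul c hc, orc_rot]

theorem orc_smul_right (c : ℚ) (hc : c ≠ 0) (x y z : V2) : orc x y (c • z) = orc x y z := by
  rw [orc_rot, orc_smul c hc, ← orc_rot]

/-- the cocycle relation when `x`, `y` are proportional -/
theorem orc_cocycle_of_dt_eq_zero (x y z t : V2) (hx : x ≠ 0) (hy : y ≠ 0) (h : dt x y = 0) :
    orc y z t - orc x z t + orc x y t - orc x y z = 0 := by
  obtain ⟨c, hc, rfl⟩ := Orc_exists_smul_of_dt_eq_zero hx hy h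
  rw [orc_smul c hc, orc_eq_zero_of_dt h, orc_eq_zero_of_dt h]
  ring

/-- sign lemma -/
theorem Orc_sign_eq_or_of_add_eq {u v w : ℚ} (hu : u ≠ 0) (hv : v ≠ 0) (hw : w ≠ 0) (h : u + v = w) :
    SignType.sign w = SignType.sign u ∨ SignType.sign w = SignType.sign v := by
  rcases lt_or_gt_of_ne hu with hu | hu <;> rcases lt_or_gt_of_ne hv with hv | hv <;>
    rcases lt_or_gt_of_ne hw with hw | hw <;>
    first
    | (exfalso; linarith)
    | simp [sign_pos, sign_neg, *]

theorem Orc_sign_cast_mul_self {a : ℚ} (ha : a ≠ 0) :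
    ((SignType.sign a : SignType) : ℚ) * ((SignType.sign a : SignType) : ℚ) = 1 := by
  rcases lt_or_gt_of_ne ha with ha | ha
  · simp [sign_neg ha]
  · simp [sign_pos ha]

/-- the generic case of the cocycle relation -/
theorem orc_cocycle_aux {a b c d e f : ℚ} (ha : a ≠ 0) (hb : b ≠ 0) (hc : c ≠ 0) (hd : d ≠ 0)
    (he : e ≠ 0) (hf : f ≠ 0) (h : a * f - b * e + c * d = 0) :
    ((SignType.sign (d * f * -e) : SignType) : ℚ) - ((SignType.sign (b * f * -c) : SignType) : ℚ)
      + ((SignType.sign (a * e * -c) : SignType) : ℚ)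
      - ((SignType.sign (a * d * -b) : SignType) : ℚ) = 0 := by
  have key := Orc_sign_eq_or_of_add_eq (mul_ne_zero ha hf) (mul_ne_zero hc hd) (mul_ne_zero hb he)
    (by linarith)
  have hα := Orc_sign_cast_mul_self ha
  have hγ := Orc_sign_cast_mul_self hc
  have hδ := Orc_sign_cast_mul_self hd
  have hε := Orc_sign_cast_mul_self he
  have hφ := Orc_sign_cast_mul_self hf
  simp only [sign_mul, Left.sign_neg, SignType.coe_mul, SignType.coe_neg]
  have key' : ((SignType.sign b : SignType) : ℚ) * ((SignType.sign e : SignType) : ℚ)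
        = ((SignType.sign a : SignType) : ℚ) * ((SignType.sign f : SignType) : ℚ) ∨
      ((SignType.sign b : SignType) : ℚ) * ((SignType.sign e : SignType) : ℚ)
        = ((SignType.sign c : SignType) : ℚ) * ((SignType.sign d : SignType) : ℚ) := by
    rcases key with key | key
    · left
      rw [← SignType.coe_mul, ← SignType.coe_mul, ← sign_mul, ← sign_mul, key]
    · right
      rw [← SignType.coe_mul, ← SignType.coe_mul, ← sign_mul, ← sign_mul, key]
  generalize ((SignType.sign a : SignType) : ℚ) = α at *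
  generalize ((SignType.sign b : SignType) : ℚ) = β at *
  generalize ((SignType.sign c : SignType) : ℚ) = γ at *
  generalize ((SignType.sign d : SignType) : ℚ) = δ at *
  generalize ((SignType.sign e : SignType) : ℚ) = ε at *
  generalize ((SignType.sign f : SignType) : ℚ) = φ at *
  rcases key' with h | h
  · linear_combination (γ * ε * φ + δ * α * ε) * h - (γ * β * φ + δ * α * β) * hε
      + γ * α * ε * hφ + δ * φ * ε * hα
  · linear_combination (φ * γ * ε + α * δ * ε) * h - (φ * β * γ + α * β * δ) * hε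
      + φ * δ * ε * hγ + α * γ * ε * hδ

theorem orc_swap_right (x y z : V2) : orc x z y = - orc x y z := by
  rw [← orc_rot x z y, orc_swap y z x, orc_rot x y z]

theorem orc_cocycle (x y z t : V2) (hx : x ≠ 0) (hy : y ≠ 0) (hz : z ≠ 0) (ht : t ≠ 0) :
    orc y z t - orc x z t + orc x y t - orc x y z = 0 := by
  by_cases ha : dt x y = 0
  · exact orc_cocycle_of_dt_eq_zero x y z t hx hy ha
  by_cases hb : dt x z = 0
  · have h0 := orc_cocycle_of_dt_eq_zero x z y t hx hz hb
    have h1 := orc_swap y z t
    have h2 := orc_swap_right x y z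
    linarith
  by_cases hc : dt x t = 0
  · have h0 := orc_cocycle_of_dt_eq_zero x t y z hx ht hc
    have h1 := orc_rot t y z
    have h2 := orc_swap_right x z t
    have h3 := orc_swap_right x y t
    linarith
  by_cases hd : dt y z = 0
  · have h0 := orc_cocycle_of_dt_eq_zero y z x t hy hz hd
    have h1 := orc_swap x z t
    have h2 := orc_swap x y t
    have h3 := orc_rot x y z
    linarith
  by_cases he : dt y t = 0
  · have h0 := orc_cocycle_of_dt_eq_zero y t x z hy ht he
    have h1 := orc_rot t x z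
    have h2 := orc_swap x y z
    have h3 := orc_swap_right y z t
    have h4 := orc_rot x y t
    linarith
  by_cases hf : dt z t = 0
  · have h0 := orc_cocycle_of_dt_eq_zero z t x y hz ht hf
    have h1 := orc_rot t x y
    have h2 := orc_rot z x y
    have h3 := orc_rot y z t
    have h4 := orc_rot x z t
    linarith
  unfold orc
  rw [Orc_dt_swap y t, Orc_dt_swap x t, Orc_dt_swap x z]
  exact orc_cocycle_aux ha hb hc hd he hf (Orc_dt_plucker x y z t)

theorem orc_std : orc e₁ e₂ e₃ = 1 := by
  unfold orc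
  have h : dt e₁ e₂ * dt e₂ e₃ * dt e₃ e₁ = 1 := by
    simp [dt, e₁, e₂, e₃]
  rw [h, sign_one, SignType.coe_one]

end Fermat.Agent.S41
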